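import Fermat.Agent.Pts.Main
import Fermat.Agent.DivPoly.Rank
import Fermat.Agent.CFT.SLevFin
import Fermat.Agent.EC.Inertia

set_option autoImplicit false
set_option linter.style.haveILetI false
set_option linter.unusedSectionVars false

/-!
# Ramification of `E[p]` at places of multiplicative reduction

If `W` has multiplicative reduction at `ℓ ≠ p` and `p ∤ v_ℓ(Δ)`, then inertia at `ℓ` acts on
`W[p]` through a group of order divisible by `p`.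
-/

namespace Fermat.Agent.Pts

open WeierstrassCurve WeierstrassCurve.Affine Fermat.Agent.DivPoly Fermat.Agent.Wp
open Fermat.Agent.EC AlgebraicCurve ModularCurve

local notation "Qb" => AlgebraicClosure ℚ
local notation "GQ" => (AlgebraicClosure ℚ ≃ₐ[ℚ] AlgebraicClosure ℚ)

variable {p : ℕ} [hpF : Fact p.Prime] {W : WeierstrassCurve ℤ}

/-- The `p`-torsion. -/
abbrev Tp (W : WeierstrassCurve ℤ) (p : ℕ) : Type :=
  Submodule.torsionBy ℤ ((WQ W)⁄Qb).Point (p : ℤ)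

theorem WQ_Δ_ne_zero (hΔ : W.Δ ≠ 0) : ((WQ W)⁄Qb).Δ ≠ 0 := by
  rw [wq_Δ]
  exact_mod_cast hΔ

theorem finite_Tp (hΔ : W.Δ ≠ 0) : Finite (Tp W p) :=
  finite_torsionBy_baseChange (WQ W) (WQ_Δ_ne_zero hΔ) p hpF.out.ne_zero

theorem Tp_nsmul (Q : Tp W p) : p • (Q : ((WQ W)⁄Qb).Point) = 0 := by
  have h := Q.2
  rw [Submodule.mem_torsionBy_iff, natCast_zsmul] at h
  exact h

/-- Existence of non-canonical points. -/
theorem exists_not_inZeroComponentAt (hp3 : 3 ≤ p) (hΔ : W.Δ ≠ 0) {ℓ : ℕ} (hℓ : ℓ.Prime)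
    (hℓp : ℓ ≠ p) (hℓΔ : (ℓ : ℤ) ∣ W.Δ) (hℓc : ¬ (ℓ : ℤ) ∣ W.c₄) {A : ValuationSubring Qb}
    (hA : A.LiesOverPrime ℓ) : ∃ Q : Tp W p, ¬ W.InZeroComponentAt A (Q : ((WQ W)⁄Qb).Point) := by
  have hp := hpF.out
  have hp2 : p ≠ 2 := by omega
  have hint := integralFor W A
  have hΔK := WQ_Δ_ne_zero hΔ
  obtain ⟨x0, B, G, β, h⟩ := exists_node hint
    (by rw [wq_c₄]; exact v_int_eq_one hℓ hA hℓc)
    (by rw [wq_Δ]; exact v_int_lt_one hA hℓΔ) hΔK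
  have hvp := v_nat_eq_one hℓ hA hp hℓp
  by_contra hcon
  push Not at hcon
  haveI := finite_Tp (p := p) hΔ
  have hcard : Nat.card (Tp W p) = p ^ 2 :=
    natCard_torsionBy_baseChange (WQ W) hΔK p hp.ne_zero
  haveI : Nontrivial (Tp W p) := by
    rw [← Finite.one_lt_card_iff_nontrivial, hcard]
    exact Nat.one_lt_pow (by norm_num) hp.one_lt
  obtain ⟨P, hP⟩ := exists_ne (0 : Tp W p)
  have hP' : (P : ((WQ W)⁄Qb).Point) ≠ 0 := fun h0 => hP (Subtype.ext h0)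
  have hE : ∀ Q : Tp W p, InE0 A.valuation x0 (Q : ((WQ W)⁄Qb).Point) := fun Q =>
    (inZeroComponentAt_iff h _).mp (hcon Q)
  have hall : ∀ Q : Tp W p, Q ∈ AddSubgroup.zmultiples P := by
    intro Q
    obtain ⟨n, hn⟩ := exists_nsmul_of_canonical h hint hp hp2 hvp hP' (Tp_nsmul P) (Tp_nsmul Q)
      (hE P) (hE Q)
    exact ⟨n, Subtype.ext hn.symm⟩
  have h1 : Nat.card (Tp W p) ≤ p := by
    have h2 : Nat.card (AddSubgroup.zmultiples P) = addOrderOf P := Nat.card_zmultiples P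
    have h3 : AddSubgroup.zmultiples P = ⊤ := by
      rw [AddSubgroup.eq_top_iff']
      exact hall
    have h4 : Nat.card (AddSubgroup.zmultiples P) = Nat.card (Tp W p) := by
      rw [h3]
      exact Nat.card_congr AddSubgroup.topEquiv.toEquiv
    rw [← h4, h2]
    refine Nat.le_of_dvd hp.pos (addOrderOf_dvd_of_nsmul_eq_zero ?_)
    exact Subtype.ext (Tp_nsmul P)
  rw [hcard] at h1
  nlinarith [hp.two_le]

/-- The Galois action on the `p`-torsion as permutations. -/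
noncomputable def permT (W : WeierstrassCurve ℤ) (p : ℕ) : GQ →* Equiv.Perm (Tp W p) :=
  MulAction.toPermHom GQ (Tp W p)

theorem permT_apply (σ : GQ) (Q : Tp W p) : permT W p σ Q = σ • Q := rfl

theorem jV_smul (σ : GQ) (Q : ((WQ W)⁄Qb).Point) :
    jV ((WQ W)⁄Qb) (σ • Q) p = σ (jV ((WQ W)⁄Qb) Q p) :=
  jV_map (σ : Qb →ₐ[ℚ] Qb) (WQ W) Q p

/-- **Ramification.** -/
theorem dvd_card_of_not_dvd (hp3 : 3 ≤ p) (hΔ : W.Δ ≠ 0) {ℓ : ℕ} (hℓ : ℓ.Prime)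
    (hℓp : ℓ ≠ p) (hℓΔ : (ℓ : ℤ) ∣ W.Δ) (hℓc : ¬ (ℓ : ℤ) ∣ W.c₄)
    (hv : ¬ p ∣ padicValInt ℓ W.Δ) {A : ValuationSubring Qb} (hA : A.LiesOverPrime ℓ) :
    p ∣ Nat.card ((A.inertiaSubgroupIn ℚ).map (permT W p)) := by
  classical
  have hp := hpF.out
  haveI := finite_Tp (p := p) hΔ
  letI : Algebra Qb ℂ := (IsAlgClosed.lift : Qb →ₐ[ℚ] ℂ).toAlgebra
  obtain ⟨Φ, hΦ⟩ := exists_isPhi Qb p
  obtain ⟨Q, hQ⟩ := exists_not_inZeroComponentAt (p := p) hp3 hΔ hℓ hℓp hℓΔ hℓc hA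
  have hQ0 : (Q : ((WQ W)⁄Qb).Point) ≠ 0 := by
    intro h0
    apply hQ
    exact Or.inl h0
  have hb := (valuation_cases hΦ hp3 hΔ hQ0 (Tp_nsmul Q) hℓ hℓp hℓΔ hℓc hA).2 hQ
  set b := jV ((WQ W)⁄Qb) (Q : ((WQ W)⁄Qb).Point) p with hbdef
  have hj := one_lt_v_jW hΔ hℓ hℓΔ hℓc hA
  have hj0 : jW W ≠ 0 := by
    intro h0
    rw [h0, map_zero] at hj
    exact absurd hj (by simp)
  let I' := (A.inertiaSubgroupIn ℚ).map (permT W p)
  haveI : Fintype I' := Fintype.ofFinite _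
  let Bf : I' → Qb := fun g => jV ((WQ W)⁄Qb) ((g.1 Q : Tp W p) : ((WQ W)⁄Qb).Point) p
  have hBf : ∀ (g : I') (τ : GQ), permT W p τ = g.1 → Bf g = τ b := by
    intro g τ hτ
    change jV _ ((g.1 Q : Tp W p) : ((WQ W)⁄Qb).Point) p = _
    rw [← hτ, hbdef, ← jV_smul]
    rfl
  have hvB : ∀ g : I', A.valuation (Bf g) ^ p = A.valuation (jW W) := by
    intro g
    obtain ⟨τ, hτ, hτg⟩ := g.2
    rw [hBf g τ hτg]
    have h1 : A.valuation (b ^ p / jW W) = 1 := by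
      rw [map_div₀, map_pow, hb]
      exact div_self ((Valuation.ne_zero_iff _).mpr hj0)
    have h2 := decomp_valuation_eq (decomp_of_inertia hτ) (x := b ^ p / jW W) (y := 1)
      (by rw [h1, map_one])
    rw [map_one, map_one, map_div₀, map_pow, jW_fixed, map_div₀, map_pow] at h2
    exact eq_of_div_eq_one h2
  let N : Qb := ∏ g : I', Bf g
  have hN0 : N ≠ 0 := by
    apply Finset.prod_ne_zero_iff.mpr
    intro g _ h0
    have h1 := hvB g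
    rw [h0, map_zero, zero_pow hp.ne_zero] at h1
    exact hj0 ((Valuation.zero_iff _).mp h1.symm)
  have hNfix : ∀ τ ∈ A.inertiaSubgroupIn ℚ, τ N = N := by
    intro τ hτ
    let g0 : I' := ⟨permT W p τ, τ, hτ, rfl⟩
    have h1 : ∀ g : I', τ (Bf g) = Bf (g0 * g) := by
      intro g
      obtain ⟨s, hs, hsg⟩ := g.2
      rw [hBf g s hsg, hBf (g0 * g) (τ * s) (by rw [map_mul, hsg]; rfl)]
      rfl
    calc τ N = ∏ g : I', τ (Bf g) := map_prod τ _ _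
      _ = ∏ g : I', Bf (g0 * g) := Finset.prod_congr rfl fun g _ => h1 g
      _ = N := Fintype.prod_equiv (Equiv.mulLeft g0) _ _ fun g => rfl
  obtain ⟨k, hk1, hk2⟩ := CFT.Loc.exists_zpow_of_inertia hℓ hA hN0 hNfix
  have hℓ0 : ((ℓ : ℕ) : Qb) ≠ 0 := by exact_mod_cast hℓ.ne_zero
  have hNk : A.valuation N = A.valuation (ℓ : Qb) ^ k := by
    have h1 := (A.valuation_le_one_iff _).mpr hk1
    have h2 := (A.valuation_le_one_iff _).mpr hk2
    have h3 : A.valuation (N * (ℓ : Qb) ^ (-k)) = 1 := by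
      refine le_antisymm h1 ?_
      rw [map_inv₀] at h2
      exact (inv_le_one₀ (zero_lt_iff.mpr ((Valuation.ne_zero_iff _).mpr
        (mul_ne_zero hN0 (zpow_ne_zero _ hℓ0))))).mp h2
    rw [map_mul, map_zpow₀, zpow_neg] at h3
    have h4 : A.valuation (ℓ : Qb) ^ k ≠ 0 := zpow_ne_zero _ ((Valuation.ne_zero_iff _).mpr hℓ0)
    exact (mul_inv_eq_one₀ h4).mp h3
  have hNp : A.valuation N ^ p = A.valuation (jW W) ^ Nat.card I' := by
    rw [map_prod, ← Finset.prod_pow, Finset.prod_congr rfl fun g _ => hvB g, Finset.prod_const,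
      Finset.card_univ, Nat.card_eq_fintype_card]
  -- the valuation of `j`
  obtain ⟨m, hm, hmℓ⟩ : ∃ m : ℤ, W.Δ = ℓ ^ (padicValInt ℓ W.Δ) * m ∧ ¬ (ℓ : ℤ) ∣ m := by
    haveI : Fact ℓ.Prime := ⟨hℓ⟩
    obtain ⟨m, hm⟩ := padicValInt_dvd (p := ℓ) W.Δ
    refine ⟨m, hm, fun hd => ?_⟩
    obtain ⟨m', hm'⟩ := hd
    have h1 : (ℓ : ℤ) ^ (padicValInt ℓ W.Δ + 1) ∣ W.Δ := ⟨m', by
      rw [pow_succ, mul_assoc, ← hm', ← hm]⟩
    rw [padicValInt_dvd_iff] at h1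
    rcases h1 with h1 | h1
    · exact hΔ h1
    · omega
  have hvj : A.valuation (jW W) = A.valuation (ℓ : Qb) ^ (-(padicValInt ℓ W.Δ : ℤ)) := by
    have h1 := v_int_eq_one hℓ hA hℓc
    have h2 := v_int_eq_one hℓ hA hmℓ
    rw [jW, map_div₀, map_pow, h1, one_pow, one_div, zpow_neg, zpow_natCast]
    congr 1
    conv_lhs => rw [hm]
    push_cast
    rw [map_mul, map_pow, h2, mul_one]
  rw [hNk, hvj, ← zpow_natCast, ← zpow_natCast, ← zpow_mul, ← zpow_mul] at hNp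
  have hinj : Function.Injective (fun n : ℤ => A.valuation (ℓ : Qb) ^ n) :=
    zpow_right_injective₀ (zero_lt_iff.mpr ((Valuation.ne_zero_iff _).mpr hℓ0))
      (v_lt_one_of_lies hA).ne
  have hkey := hinj hNp
  have hdvd : (p : ℤ) ∣ (padicValInt ℓ W.Δ : ℤ) * (Nat.card I' : ℤ) := by
    refine ⟨-k, ?_⟩
    linarith
  have hdvd' : p ∣ padicValInt ℓ W.Δ * Nat.card I' := by exact_mod_cast hdvd
  exact (hp.dvd_mul.mp hdvd').resolve_left hv

/-- An element of inertia of order `p` on the `p`-torsion. -/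
theorem exists_inertia_order (hp3 : 3 ≤ p) (hΔ : W.Δ ≠ 0) {ℓ : ℕ} (hℓ : ℓ.Prime)
    (hℓp : ℓ ≠ p) (hℓΔ : (ℓ : ℤ) ∣ W.Δ) (hℓc : ¬ (ℓ : ℤ) ∣ W.c₄)
    (hv : ¬ p ∣ padicValInt ℓ W.Δ) {A : ValuationSubring Qb} (hA : A.LiesOverPrime ℓ) :
    ∃ σ ∈ A.inertiaSubgroupIn ℚ, orderOf (permT W p σ) = p := by
  haveI := finite_Tp (p := p) hΔ
  obtain ⟨g, hg⟩ := exists_prime_orderOf_dvd_card' p
    (dvd_card_of_not_dvd (p := p) hp3 hΔ hℓ hℓp hℓΔ hℓc hv hA)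
  obtain ⟨σ, hσ, hσg⟩ := g.2
  refine ⟨σ, hσ, ?_⟩
  rw [hσg]
  exact (Subgroup.orderOf_coe g).trans hg

end Fermat.Agent.Pts
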