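import Mathlib.RingTheory.Valuation.Basic
import Mathlib.FieldTheory.IsAlgClosed.Basic
import Mathlib.Algebra.Polynomial.FieldDivision
import Mathlib.Algebra.Polynomial.Splits

set_option autoImplicit false
set_option linter.unusedSectionVars false

/-!
# The Newton polygon of the modular polynomial
-/

open Polynomial

namespace Fermat.Agent.Pts

variable {K Γ : Type*} [Field K] [LinearOrderedCommGroupWithZero Γ] (v : Valuation K Γ)

section EvalBound

variable {O : Type*} [CommRing O] (j : O →+* K) (hj : ∀ c, v (j c) ≤ 1)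

include hj in
theorem eval₂_le {P : O[X]} {n : ℕ} (hP : P.natDegree ≤ n) {a : K} (ha : 1 ≤ v a) :
    v (P.eval₂ j a) ≤ v a ^ n := by
  rw [Polynomial.eval₂_eq_sum_range]
  refine v.map_sum_le fun i hi => ?_
  rw [Finset.mem_range] at hi
  rw [map_mul, map_pow]
  calc v (j (P.coeff i)) * v a ^ i ≤ 1 * v a ^ i := by gcongr; exact hj _
    _ ≤ v a ^ n := by
      rw [one_mul]
      exact pow_le_pow_right₀ ha (by omega)

include hj in
theorem eval₂_eq {P : O[X]} {n : ℕ} (hP : P.natDegree ≤ n) (hu : v (j (P.coeff n)) = 1) {a : K}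
    (ha : 1 < v a) : v (P.eval₂ j a) = v a ^ n := by
  rw [Polynomial.eval₂_eq_sum_range' _ (Nat.lt_succ_of_le hP), Finset.sum_range_succ]
  have ha0 : v a ^ n ≠ 0 := pow_ne_zero _ (zero_lt_one.trans ha).ne'
  have h1 : v (j (P.coeff n) * a ^ n) = v a ^ n := by
    rw [map_mul, map_pow, hu, one_mul]
  rw [Valuation.map_add_eq_of_lt_right, h1]
  rw [h1]
  refine v.map_sum_lt ha0 fun i hi => ?_
  rw [Finset.mem_range] at hi
  rw [map_mul, map_pow]
  calc v (j (P.coeff i)) * v a ^ i ≤ 1 * v a ^ i := by gcongr; exact hj _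
    _ < v a ^ n := by
      rw [one_mul]
      exact pow_lt_pow_right₀ ha hi

end EvalBound

/-- The shape of the specialised modular polynomial. -/
structure Shape (p : ℕ) (r : Γ) (f : K[X]) : Prop where
  monic : f.Monic
  natDegree : f.natDegree = p + 1
  coeff_le : ∀ k, 1 ≤ k → k ≤ p → v (f.coeff k) ≤ r ^ p
  coeff_p : v (f.coeff p) = r ^ p
  coeff_zero : v (f.coeff 0) = r ^ (p + 1)

namespace Shape

variable {v} {p : ℕ} (hp : 2 ≤ p) {r : Γ} (hr : 1 < r) {f : K[X]} (hf : Shape v p r f)

include hp hr hf in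
/-- The two possible slopes. -/
theorem root_cases {y : K} (hy : f.eval y = 0) : v y = r ^ p ∨ v y ^ p = r := by
  obtain ⟨t, ht⟩ : ∃ t, t = v y := ⟨_, rfl⟩
  rw [← ht]
  have hr0 : 0 < r := zero_lt_one.trans hr
  have hrp : 1 < r ^ p := one_lt_pow₀ hr (by omega)
  have hrr : r ≤ r ^ p := le_self_pow₀ hr.le (by omega)
  -- expansion
  have hexp : f.eval y = y ^ (p + 1) + f.coeff p * y ^ p +
      (∑ k ∈ Finset.Ico 1 p, f.coeff k * y ^ k) + f.coeff 0 := by
    rw [Polynomial.eval_eq_sum_range, hf.natDegree, Finset.sum_range_succ, Finset.sum_range_succ,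
      Finset.range_eq_Ico, ← Finset.sum_Ico_consecutive _ (show 0 ≤ 1 by omega)
        (show 1 ≤ p by omega)]
    have h1 : f.coeff (p + 1) = 1 := by
      have := hf.monic.coeff_natDegree
      rwa [hf.natDegree] at this
    rw [h1]
    simp only [Nat.Ico_zero_eq_range, Finset.sum_range_one, pow_zero, mul_one, one_mul]
    ring
  rw [hexp] at hy
  -- valuations of the four pieces
  have e1 : v (y ^ (p + 1)) = t ^ (p + 1) := by rw [map_pow, ht]
  have e2 : v (f.coeff p * y ^ p) = r ^ p * t ^ p := by rw [map_mul, map_pow, hf.coeff_p, ht]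
  have e4 := hf.coeff_zero
  by_contra hcon
  push Not at hcon
  obtain ⟨hne1, hne2⟩ := hcon
  rcases lt_or_gt_of_ne hne1 with hlt | hgt
  · rcases lt_or_gt_of_ne hne2 with hlt2 | hgt2
    · -- t^p < r : the constant term dominates
      have hb : max 1 t ^ p < r := by
        rcases le_total t 1 with h | h
        · rw [max_eq_left h, one_pow]; exact hr
        · rw [max_eq_right h]; exact hlt2
      have htm : t ≤ max 1 t := le_max_right _ _
      have h1m : 1 ≤ max 1 t := le_max_left _ _
      have hmr : max 1 t < r := (le_self_pow₀ h1m (by omega)).trans_lt hb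
      have h3 : r ^ (p + 1) ≠ 0 := pow_ne_zero _ hr0.ne'
      have d1 : v (y ^ (p + 1)) < r ^ (p + 1) := by
        rw [e1]
        exact (pow_le_pow_left₀ zero_le htm _).trans_lt (pow_lt_pow_left₀ hmr zero_le (by omega))
      have d2 : v (f.coeff p * y ^ p) < r ^ (p + 1) := by
        rw [e2, pow_succ]
        have : t ^ p < r := (pow_le_pow_left₀ zero_le htm _).trans_lt hb
        exact mul_lt_mul_of_pos_left this (pow_pos hr0 p)
      have d3 : v (∑ k ∈ Finset.Ico 1 p, f.coeff k * y ^ k) < r ^ (p + 1) := by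
        refine v.map_sum_lt h3 fun k hk => ?_
        rw [Finset.mem_Ico] at hk
        rw [map_mul, map_pow, ← ht, pow_succ]
        calc v (f.coeff k) * t ^ k ≤ r ^ p * max 1 t ^ p :=
              mul_le_mul' (hf.coeff_le k hk.1 (by omega))
                ((pow_le_pow_left₀ zero_le htm _).trans (pow_le_pow_right₀ h1m (by omega)))
          _ < r ^ p * r := mul_lt_mul_of_pos_left hb (pow_pos hr0 p)
      have h4 : v (y ^ (p + 1) + f.coeff p * y ^ p +
          ∑ k ∈ Finset.Ico 1 p, f.coeff k * y ^ k) < v (f.coeff 0) := by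
        rw [e4]
        exact v.map_add_lt (v.map_add_lt d1 d2) d3
      have h5 := v.map_add_eq_of_lt_right h4
      rw [hy, map_zero, e4] at h5
      exact h3 h5.symm
    · -- t^p > r, t < r^p : the term of degree p dominates
      have ht1 : 1 < t := by
        by_contra hle
        push Not at hle
        exact absurd (hgt2.trans_le (pow_le_one₀ zero_le hle)) hr.not_gt
      have ht0 : 0 < t := zero_lt_one.trans ht1
      have h3 : r ^ p * t ^ p ≠ 0 := mul_ne_zero (pow_ne_zero _ hr0.ne') (pow_ne_zero _ ht0.ne')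
      have d1 : v (y ^ (p + 1)) < r ^ p * t ^ p := by
        rw [e1, pow_succ, mul_comm (t ^ p)]
        exact mul_lt_mul_of_pos_right hlt (pow_pos ht0 p)
      have d3 : v (∑ k ∈ Finset.Ico 1 p, f.coeff k * y ^ k) < r ^ p * t ^ p := by
        refine v.map_sum_lt h3 fun k hk => ?_
        rw [Finset.mem_Ico] at hk
        rw [map_mul, map_pow, ← ht]
        calc v (f.coeff k) * t ^ k ≤ r ^ p * t ^ k := by
              gcongr
              exact hf.coeff_le k hk.1 (by omega)
          _ < r ^ p * t ^ p :=
            mul_lt_mul_of_pos_left (pow_lt_pow_right₀ ht1 hk.2) (pow_pos hr0 p)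
      have d4 : v (f.coeff 0) < r ^ p * t ^ p := by
        rw [e4, pow_succ]
        exact mul_lt_mul_of_pos_left hgt2 (pow_pos hr0 p)
      have h4 : v (y ^ (p + 1) + ((∑ k ∈ Finset.Ico 1 p, f.coeff k * y ^ k) + f.coeff 0)) <
          v (f.coeff p * y ^ p) := by
        rw [e2]
        exact v.map_add_lt d1 (v.map_add_lt d3 d4)
      have h5 := v.map_add_eq_of_lt_right h4
      have h6 : y ^ (p + 1) + ((∑ k ∈ Finset.Ico 1 p, f.coeff k * y ^ k) + f.coeff 0) +
        f.coeff p * y ^ p = 0 := by rw [← hy]; ring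
      rw [h6, map_zero, e2] at h5
      exact h3 h5.symm
  · -- t > r^p : the leading term dominates
    have ht1 : 1 < t := hrp.trans hgt
    have ht0 : 0 < t := zero_lt_one.trans ht1
    have h3 : t ^ (p + 1) ≠ 0 := pow_ne_zero _ ht0.ne'
    have d2 : v (f.coeff p * y ^ p) < t ^ (p + 1) := by
      rw [e2, pow_succ, mul_comm (t ^ p)]
      exact mul_lt_mul_of_pos_right hgt (pow_pos ht0 p)
    have d3 : v (∑ k ∈ Finset.Ico 1 p, f.coeff k * y ^ k) < t ^ (p + 1) := by
      refine v.map_sum_lt h3 fun k hk => ?_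
      rw [Finset.mem_Ico] at hk
      rw [map_mul, map_pow, ← ht]
      calc v (f.coeff k) * t ^ k ≤ r ^ p * t ^ p := by
            gcongr
            · exact hf.coeff_le k hk.1 (by omega)
            · exact ht1.le
            · omega
        _ < t ^ (p + 1) := by
          rw [pow_succ, mul_comm (t ^ p)]
          exact mul_lt_mul_of_pos_right hgt (pow_pos ht0 p)
    have d4 : v (f.coeff 0) < t ^ (p + 1) := by
      rw [e4]
      exact pow_lt_pow_left₀ (hrr.trans_lt hgt) hr0.le (by omega)
    have h4 : v (f.coeff p * y ^ p + ((∑ k ∈ Finset.Ico 1 p, f.coeff k * y ^ k) + f.coeff 0)) <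
        v (y ^ (p + 1)) := by
      rw [e1]
      exact v.map_add_lt d2 (v.map_add_lt d3 d4)
    have h5 := v.map_add_eq_of_lt_left h4
    have h6 : y ^ (p + 1) + (f.coeff p * y ^ p + ((∑ k ∈ Finset.Ico 1 p, f.coeff k * y ^ k) +
      f.coeff 0)) = 0 := by rw [← hy]; ring
    rw [h6, map_zero, e1] at h5
    exact h3 h5.symm

variable [IsAlgClosed K]

open Classical in
include hp hr hf in
theorem card_big : (f.roots.filter fun y => v y = r ^ p).card = 1 := by
  have hsplit := IsAlgClosed.splits f
  have hcard := hsplit.natDegree_eq_card_roots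
  rw [hf.natDegree] at hcard
  have hprod := hsplit.coeff_zero_eq_prod_roots_of_monic hf.monic
  have hr0 : 0 < r := zero_lt_one.trans hr
  have h1 : (f.roots.map v).prod = r ^ (p + 1) := by
    have h2 := congrArg v hprod
    rw [hf.coeff_zero, map_mul, map_pow, Valuation.map_neg, map_one, one_pow, one_mul] at h2
    rw [h2]
    exact (map_multiset_prod v f.roots).symm
  have h3 : ∀ s : Multiset K, (∀ y ∈ s, v y = r ^ p ∨ v y ^ p = r) →
      (s.map v).prod ^ p = r ^ (p * p * (s.filter fun y => v y = r ^ p).card +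
        (s.card - (s.filter fun y => v y = r ^ p).card)) := by
    intro s
    induction s using Multiset.induction_on with
    | empty => intro _; simp
    | cons b s ih =>
      intro hs
      have hle : (s.filter fun y => v y = r ^ p).card ≤ s.card :=
        Multiset.card_le_card (Multiset.filter_le _ _)
      have ih' := ih (fun y hy => hs y (Multiset.mem_cons_of_mem hy))
      rw [Multiset.map_cons, Multiset.prod_cons, mul_pow, ih']
      by_cases hb : v b = r ^ p
      · rw [Multiset.filter_cons_of_pos (p := fun y => v y = r ^ p) _ hb, hb, Multiset.card_cons, Multiset.card_cons,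
          ← pow_mul, ← pow_add]
        congr 1
        rw [Nat.add_sub_add_right]
        ring
      · rw [Multiset.filter_cons_of_neg (p := fun y => v y = r ^ p) _ hb, Multiset.card_cons]
        rw [(hs b (Multiset.mem_cons_self _ _)).resolve_left hb, ← pow_succ']
        congr 1
        omega
  have h4 := h3 f.roots (fun y hy => root_cases hp hr hf
    (by rw [Polynomial.mem_roots hf.monic.ne_zero] at hy; exact hy))
  rw [h1, ← pow_mul, ← hcard] at h4
  have h5 := pow_right_injective₀ hr0 hr.ne' h4
  have hle : (f.roots.filter fun y => v y = r ^ p).card ≤ p + 1 := by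
    rw [hcard]
    exact Multiset.card_le_card (Multiset.filter_le _ _)
  obtain ⟨m, hm⟩ : ∃ m, m = (f.roots.filter fun y => v y = r ^ p).card := ⟨_, rfl⟩
  rw [← hm] at h5 hle ⊢
  obtain ⟨s, hs⟩ : ∃ s, p + 1 = m + s := ⟨p + 1 - m, by omega⟩
  have h6 : p + 1 - m = s := by omega
  rw [h6] at h5
  -- (p+1) p = p p m + s, m + s = p + 1
  have h7 : (p * p) * m + s = p * p + p := by rw [← h5]; ring
  have h8 : (p * p) * m + s = (p * p) * m + (p + 1) - m := by omega
  rcases Nat.lt_trichotomy m 1 with h | h | h
  · have : m = 0 := by omega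
    subst this
    nlinarith
  · exact h
  · exfalso
    have h9 : p * p * 2 ≤ p * p * m := Nat.mul_le_mul_left _ h
    nlinarith

include hp hr hf in
theorem exists_big : ∃ y, f.eval y = 0 ∧ v y = r ^ p := by
  classical
  have h1 := card_big hp hr hf
  obtain ⟨y, hy⟩ := Multiset.card_pos_iff_exists_mem.mp (by rw [h1]; exact one_pos)
  rw [Multiset.mem_filter, Polynomial.mem_roots hf.monic.ne_zero] at hy
  exact ⟨y, hy.1, hy.2⟩

include hp hr hf in
theorem derivative_ne_zero {y : K} (hy : f.eval y = 0) (hv : v y = r ^ p) :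
    f.derivative.eval y ≠ 0 := by
  classical
  intro h0
  have h1 := card_big hp hr hf
  have h2 : 1 < f.rootMultiplicity y :=
    (Polynomial.one_lt_rootMultiplicity_iff_isRoot hf.monic.ne_zero).mpr ⟨hy, h0⟩
  have h3 : (f.roots.filter fun z => v z = r ^ p).count y = f.rootMultiplicity y := by
    rw [Multiset.count_filter_of_pos (p := fun z => v z = r ^ p) hv, Polynomial.count_roots]
  have h4 := Multiset.count_le_card y (f.roots.filter fun z => v z = r ^ p)
  rw [h3, h1] at h4
  omega

end Shape

end Fermat.Agent.Pts
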