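import Fermat.Agent.FF.FnField
import Mathlib.Algebra.Polynomial.Bivariate

set_option autoImplicit false
set_option linter.unusedSectionVars false
set_option linter.style.haveILetI false

/-!
# Places over a point of a plane model
-/

open IsDedekindDomain WithZero IsLocalRing AlgebraicCurve IntermediateField Polynomial
open scoped IntermediateField.algebraAdjoinAdjoin

namespace Fermat.Agent.Pts

open Fermat.Agent.FF

variable {K F : Type*} [Field K] [Field F] [Algebra K F]

section Ev

variable {S T : Type*} [CommRing S] [Algebra K S] [CommRing T] [Algebra K T]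

/-- evaluation of a polynomial in two variables (the outer variable is the second one). -/
noncomputable def ev (x y : S) : K[X][X] →+* S :=
  eval₂RingHom (eval₂RingHom (algebraMap K S) x) y

theorem ev_apply (x y : S) (P : K[X][X]) :
    ev x y P = (P.map (eval₂RingHom (algebraMap K S) x)).eval y := by
  rw [ev, coe_eval₂RingHom, Polynomial.eval_map]

@[simp] theorem ev_X (x y : S) : ev x y (X : K[X][X]) = y := by simp [ev]

@[simp] theorem ev_C (x y : S) (P : K[X]) : ev x y (C P : K[X][X]) = P.eval₂ (algebraMap K S) x := by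
  simp [ev]

@[simp] theorem ev_C_X (x y : S) : ev x y (C X : K[X][X]) = x := by simp

@[simp] theorem ev_map_C (x y : S) (P : K[X]) :
    ev x y (P.map C : K[X][X]) = P.eval₂ (algebraMap K S) y := by
  rw [ev, coe_eval₂RingHom, Polynomial.eval₂_map]
  congr 1
  ext a
  simp

theorem map_ev (φ : S →+* T) (hφ : ∀ a : K, φ (algebraMap K S a) = algebraMap K T a) (x y : S)
    (P : K[X][X]) : φ (ev x y P) = ev (φ x) (φ y) P := by
  have : φ.comp (ev x y) = (ev (φ x) (φ y) : K[X][X] →+* T) := by
    apply Polynomial.ringHom_ext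
    · intro q
      have : (φ.comp ((ev x y).comp C)) = ((ev (φ x) (φ y) : K[X][X] →+* T).comp C) := by
        apply Polynomial.ringHom_ext
        · intro a
          simp [hφ]
        · simp
      exact RingHom.congr_fun this q
    · simp
  exact RingHom.congr_fun this P

end Ev

/-- The value of `f` at `v` is `a`. -/
def Over (v : Place K F) (f : F) (a : K) : Prop := v.adicValuation (f - algebraMap K F a) < 1

section OverLemmas

variable {v : Place K F} {f g : F} {a b : K}

theorem lt_one_iff (v : Place K F) (f : F) : v.adicValuation f < 1 ↔ f = 0 ∨ 0 < v.ord f := by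
  rcases eq_or_ne f 0 with rfl | hf
  · simp
  rw [v.adicValuation_eq_exp_neg_ord hf, ← exp_zero, exp_lt_exp]
  constructor
  · intro h
    right
    omega
  · rintro (h | h)
    · exact absurd h hf
    · omega

theorem over_iff : Over v f a ↔ f - algebraMap K F a = 0 ∨ 0 < v.ord (f - algebraMap K F a) :=
  lt_one_iff _ _

theorem Over.le_one (h : Over v f a) : v.adicValuation f ≤ 1 := by
  have h1 : f = (f - algebraMap K F a) + algebraMap K F a := by ring
  rw [h1]
  exact Valuation.map_add_le _ h.le (v.adicValuation_le_one_of_mem (v.algebraMap_mem' a))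

theorem over_algebraMap (v : Place K F) (a : K) : Over v (algebraMap K F a) a := by
  rw [Over, sub_self, map_zero]
  exact zero_lt_one

theorem Over.add (hf : Over v f a) (hg : Over v g b) : Over v (f + g) (a + b) := by
  rw [Over] at *
  have : f + g - algebraMap K F (a + b) = (f - algebraMap K F a) + (g - algebraMap K F b) := by
    rw [map_add]; ring
  rw [this]
  exact Valuation.map_add_lt _ hf hg

theorem Over.mul (hf : Over v f a) (hg : Over v g b) : Over v (f * g) (a * b) := by
  have hg1 := hg.le_one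
  rw [Over] at *
  have : f * g - algebraMap K F (a * b) = (f - algebraMap K F a) * g +
      algebraMap K F a * (g - algebraMap K F b) := by
    rw [map_mul]; ring
  rw [this]
  refine Valuation.map_add_lt _ ?_ ?_
  · rw [map_mul]
    calc _ ≤ v.adicValuation (f - algebraMap K F a) * 1 := by gcongr
      _ < 1 := by rwa [mul_one]
  · rw [map_mul]
    calc _ ≤ 1 * v.adicValuation (g - algebraMap K F b) := by
          gcongr
          exact v.adicValuation_le_one_of_mem (v.algebraMap_mem' a)
      _ < 1 := by rwa [one_mul]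

theorem Over.pow (hf : Over v f a) (n : ℕ) : Over v (f ^ n) (a ^ n) := by
  induction n with
  | zero =>
    have := over_algebraMap v (1 : K)
    simpa using this
  | succ n ih =>
    rw [pow_succ, pow_succ]
    exact ih.mul hf

theorem Over.unique (hf : Over v f a) (hg : Over v f b) : a = b := by
  by_contra hne
  have h1 : algebraMap K F (a - b) = (f - algebraMap K F b) - (f - algebraMap K F a) := by
    rw [map_sub]; ring
  have h2 : v.adicValuation (algebraMap K F (a - b)) < 1 := by
    rw [h1]
    exact (Valuation.map_sub _ _ _).trans_lt (max_lt hg hf)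
  rw [lt_one_iff, ord_algebraMap] at h2
  rcases h2 with h2 | h2
  · rw [map_eq_zero, sub_eq_zero] at h2
    exact hne h2
  · exact absurd h2 (lt_irrefl _)

theorem Over.eval₂ (hf : Over v f a) (P : K[X]) : Over v (P.eval₂ (algebraMap K F) f) (P.eval a) := by
  induction P using Polynomial.induction_on' with
  | add p q hp hq =>
    rw [Polynomial.eval₂_add, Polynomial.eval_add]
    exact hp.add hq
  | monomial n c =>
    rw [Polynomial.eval₂_monomial, Polynomial.eval_monomial]
    exact (over_algebraMap v c).mul (hf.pow n)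

theorem Over.ev {x y : F} (hx : Over v x a) (hy : Over v y b) (P : K[X][X]) :
    Over v (ev x y P) (ev a b P) := by
  induction P using Polynomial.induction_on' with
  | add p q hp hq =>
    rw [map_add, map_add]
    exact hp.add hq
  | monomial n c =>
    rw [← Polynomial.C_mul_X_pow_eq_monomial, map_mul, map_mul, map_pow, map_pow, ev_C, ev_C, ev_X,
      ev_X]
    exact (hx.eval₂ c).mul (hy.pow n)

theorem Over.ord_eq_zero (hf : Over v f a) (ha : a ≠ 0) : f ≠ 0 ∧ v.ord f = 0 := by
  have h1 : f = algebraMap K F a + (f - algebraMap K F a) := by ring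
  have ha' : algebraMap K F a ≠ 0 := by simpa using ha
  constructor
  · rintro rfl
    apply ha
    have h2 := over_algebraMap v (0 : K)
    rw [map_zero] at h2
    exact hf.unique h2
  · rw [h1, ord_add_eq_of_lt v ha', ord_algebraMap]
    rw [ord_algebraMap]
    exact over_iff.mp hf

theorem Over.ord_pos (hf : Over v f 0) (h0 : f ≠ 0) : 0 < v.ord f := by
  have := over_iff.mp hf
  rw [map_zero, sub_zero] at this
  exact this.resolve_left h0

end OverLemmas

section Unique

variable {x y : F} {a b : K} {Φ : K[X][X]}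

/-- The local division step. -/
theorem exists_div (hΦ : ev x y Φ = 0) (hab : ev a b Φ = 0)
    (hder : ((Φ.map (evalRingHom a)).derivative).eval b ≠ 0) :
    ∃ G : K[X][X], ev a b G ≠ 0 ∧ ∀ P : K[X][X], ev a b P = 0 →
      ∃ P₁ : K[X][X], ev x y G * ev x y P = (x - algebraMap K F a) * ev x y P₁ := by
  have hev : ∀ P : K[X][X], ev a b P = (P.map (evalRingHom a)).eval b := by
    intro P
    rw [ev_apply]
    rfl
  have hdvd : ∀ P : K[X][X], ∃ P₂ : K[X][X], P = C (X - C a) * P₂ +
      ((P.map (evalRingHom a)).map C : K[X][X]) := by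
    intro P
    have : (C (X - C a) : K[X][X]) ∣ P - ((P.map (evalRingHom a)).map C : K[X][X]) := by
      rw [Polynomial.C_dvd_iff_dvd_coeff]
      intro n
      rw [Polynomial.coeff_sub, Polynomial.coeff_map, Polynomial.coeff_map, coe_evalRingHom,
        Polynomial.dvd_iff_isRoot]
      simp
    obtain ⟨P₂, hP₂⟩ := this
    exact ⟨P₂, by rw [← hP₂]; ring⟩
  have hroot : ∀ P : K[X][X], ev a b P = 0 → ∃ Q : K[X], P.map (evalRingHom a) =
      (X - C b) * Q := by
    intro P hP
    rw [hev] at hP
    exact Polynomial.dvd_iff_isRoot.mpr hP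
  obtain ⟨g, hg⟩ := hroot Φ hab
  obtain ⟨Φ₂, hΦ₂⟩ := hdvd Φ
  refine ⟨g.map C, ?_, ?_⟩
  · rw [ev_map_C]
    rw [hg] at hder
    simpa using hder
  · intro P hP
    obtain ⟨Q, hQ⟩ := hroot P hP
    obtain ⟨P₂, hP₂⟩ := hdvd P
    refine ⟨g.map C * P₂ - Q.map C * Φ₂, ?_⟩
    have h1 : ev x y P = (x - algebraMap K F a) * ev x y P₂ +
        (y - algebraMap K F b) * Q.eval₂ (algebraMap K F) y := by
      conv_lhs => rw [hP₂, hQ]
      simp [Polynomial.eval₂_mul, ev_map_C, -Polynomial.map_mul]
    have h2 : 0 = (x - algebraMap K F a) * ev x y Φ₂ +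
        (y - algebraMap K F b) * g.eval₂ (algebraMap K F) y := by
      rw [← hΦ]
      conv_lhs => rw [hΦ₂, hg]
      simp [Polynomial.eval₂_mul, ev_map_C, -Polynomial.map_mul]
    rw [map_sub, map_mul, map_mul, ev_map_C, ev_map_C, h1]
    linear_combination (-(Q.eval₂ (algebraMap K F) y)) * h2

/-- **Uniqueness of the place over a regular point.** -/
theorem place_unique (hgen : ∀ f : F, ∃ P Q : K[X][X], ev x y Q ≠ 0 ∧ f * ev x y Q = ev x y P)
    (hxa : x - algebraMap K F a ≠ 0)
    (hΦ : ev x y Φ = 0) (hab : ev a b Φ = 0)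
    (hder : ((Φ.map (evalRingHom a)).derivative).eval b ≠ 0) {v w : Place K F}
    (hvx : Over v x a) (hvy : Over v y b) (hwx : Over w x a) (hwy : Over w y b) : v = w := by
  obtain ⟨G, hG, hdiv⟩ := exists_div (F := F) hΦ hab hder
  have hvpos : 0 < v.ord (x - algebraMap K F a) := (over_iff.mp hvx).resolve_left hxa
  have hwpos : 0 < w.ord (x - algebraMap K F a) := (over_iff.mp hwx).resolve_left hxa
  have claim : ∀ n : ℕ, ∀ P : K[X][X], ev x y P ≠ 0 → v.ord (ev x y P) ≤ n →
      ∃ (k : ℕ) (U S : K[X][X]), ev a b U ≠ 0 ∧ ev a b S ≠ 0 ∧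
        ev x y S * ev x y P = (x - algebraMap K F a) ^ k * ev x y U := by
    intro n
    induction n with
    | zero =>
      intro P hP0 hPn
      refine ⟨0, P, 1, ?_, by simp, by simp⟩
      intro h0
      have h1 := hvx.ev hvy P
      rw [h0] at h1
      have := h1.ord_pos hP0
      push_cast at hPn
      omega
    | succ n ih =>
      intro P hP0 hPn
      by_cases h0 : ev a b P = 0
      · obtain ⟨P₁, hP₁⟩ := hdiv P h0
        have hGv := (hvx.ev hvy G).ord_eq_zero hG
        have h1 : ev x y P₁ ≠ 0 := by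
          intro h
          rw [h, mul_zero] at hP₁
          exact (mul_ne_zero hGv.1 hP0) hP₁
        have h2 := congrArg v.ord hP₁
        rw [v.ord_mul hGv.1 hP0, v.ord_mul hxa h1, hGv.2] at h2
        obtain ⟨k, U, S, hU, hS, hSU⟩ := ih P₁ h1 (by push_cast at hPn ⊢; omega)
        refine ⟨k + 1, U, S * G, hU, ?_, ?_⟩
        · rw [map_mul]
          exact mul_ne_zero hS hG
        · rw [map_mul, mul_assoc, hP₁, pow_succ]
          linear_combination (x - algebraMap K F a) * hSU
      · exact ⟨0, P, 1, h0, by simp, by simp⟩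
  have claim2 : ∀ P : K[X][X], ev x y P ≠ 0 → ∃ k : ℕ,
      v.ord (ev x y P) = k * v.ord (x - algebraMap K F a) ∧
      w.ord (ev x y P) = k * w.ord (x - algebraMap K F a) := by
    intro P hP
    obtain ⟨k, U, S, hU, hS, hSU⟩ := claim (v.ord (ev x y P)).toNat P hP (Int.self_le_toNat _)
    refine ⟨k, ?_, ?_⟩
    · have h1 := (hvx.ev hvy U).ord_eq_zero hU
      have h2 := (hvx.ev hvy S).ord_eq_zero hS
      have h3 := congrArg v.ord hSU
      rw [v.ord_mul h2.1 hP, v.ord_mul (pow_ne_zero _ hxa) h1.1, h1.2, h2.2, ord_pow] at h3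
      omega
    · have h1 := (hwx.ev hwy U).ord_eq_zero hU
      have h2 := (hwx.ev hwy S).ord_eq_zero hS
      have h3 := congrArg w.ord hSU
      rw [w.ord_mul h2.1 hP, w.ord_mul (pow_ne_zero _ hxa) h1.1, h1.2, h2.2, ord_pow] at h3
      omega
  apply eq_of_le
  intro f hf
  rcases eq_or_ne f 0 with rfl | hf0
  · exact zero_mem _
  obtain ⟨P, Q, hQ, hPQ⟩ := hgen f
  have hP : ev x y P ≠ 0 := by
    rw [← hPQ]
    exact mul_ne_zero hf0 hQ
  obtain ⟨k₁, hv1, hw1⟩ := claim2 P hP
  obtain ⟨k₂, hv2, hw2⟩ := claim2 Q hQ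
  have h1 := ord_nonneg_of_mem v hf
  apply mem_of_ord_nonneg
  rw [← hPQ, v.ord_mul hf0 hQ, hv2] at hv1
  rw [← hPQ, w.ord_mul hf0 hQ, hw2] at hw1
  have h3 : (0 : ℤ) ≤ ((k₁ : ℤ) - k₂) * v.ord (x - algebraMap K F a) := by
    have : ((k₁ : ℤ) - k₂) * v.ord (x - algebraMap K F a) = v.ord f := by linarith
    rw [this]
    exact h1
  have h4 : (0 : ℤ) ≤ (k₁ : ℤ) - k₂ := by
    by_contra hneg
    push Not at hneg
    have := mul_neg_of_neg_of_pos hneg hvpos
    omega
  have h5 : w.ord f = ((k₁ : ℤ) - k₂) * w.ord (x - algebraMap K F a) := by linarith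
  rw [h5]
  exact mul_nonneg h4 hwpos.le

end Unique

section Generation

variable {x y : F}

theorem mem_adjoin_pair_iff {f : F} : f ∈ Algebra.adjoin K {x, y} ↔ ∃ P : K[X][X], f = ev x y P := by
  constructor
  · intro hf
    induction hf using Algebra.adjoin_induction with
    | mem z hz =>
      rcases hz with rfl | rfl
      · exact ⟨C X, by simp⟩
      · exact ⟨X, by simp⟩
    | algebraMap r => exact ⟨C (C r), by simp⟩
    | add z w _ _ hz hw =>
      obtain ⟨P, rfl⟩ := hz
      obtain ⟨Q, rfl⟩ := hw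
      exact ⟨P + Q, by rw [map_add]⟩
    | mul z w _ _ hz hw =>
      obtain ⟨P, rfl⟩ := hz
      obtain ⟨Q, rfl⟩ := hw
      exact ⟨P * Q, by rw [map_mul]⟩
  · rintro ⟨P, rfl⟩
    have hx : x ∈ Algebra.adjoin K {x, y} := Algebra.subset_adjoin (by simp)
    have hy : y ∈ Algebra.adjoin K {x, y} := Algebra.subset_adjoin (by simp)
    have := map_ev (K := K) (S := Algebra.adjoin K {x, y}) (T := F)
      (Algebra.adjoin K {x, y}).val.toRingHom (fun a => rfl) ⟨x, hx⟩ ⟨y, hy⟩ P
    have h2 : (Algebra.adjoin K {x, y}).val.toRingHom (ev ⟨x, hx⟩ ⟨y, hy⟩ P) ∈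
      Algebra.adjoin K {x, y} := Subtype.prop _
    rw [this] at h2
    exact h2

theorem exists_frac (hgen : IntermediateField.adjoin K {x, y} = ⊤) (f : F) :
    ∃ P Q : K[X][X], ev x y Q ≠ 0 ∧ f * ev x y Q = ev x y P := by
  have hf : f ∈ IntermediateField.adjoin K {x, y} := by rw [hgen]; trivial
  rw [IntermediateField.mem_adjoin_iff_div] at hf
  obtain ⟨r, hr, s, hs, rfl⟩ := hf
  obtain ⟨P, rfl⟩ := mem_adjoin_pair_iff.mp hr
  obtain ⟨Q, rfl⟩ := mem_adjoin_pair_iff.mp hs
  by_cases hQ : ev x y Q = 0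
  · refine ⟨0, 1, by simp, ?_⟩
    rw [hQ]
    simp
  · exact ⟨P, Q, hQ, div_mul_cancel₀ _ hQ⟩

theorem finrank_eq_minpoly (hgen : IntermediateField.adjoin K {x, y} = ⊤)
    (hy : IsIntegral K⟮x⟯ y) :
    Module.finrank K⟮x⟯ F = (minpoly K⟮x⟯ y).natDegree := by
  have h1 : (K⟮x⟯⟮y⟯).restrictScalars K = IntermediateField.adjoin K ({x} ∪ {y}) :=
    IntermediateField.adjoin_adjoin_left K {x} {y}
  have h2 : K⟮x⟯⟮y⟯ = ⊤ := by
    apply IntermediateField.restrictScalars_injective K
    rw [h1]
    have : ({x} ∪ {y} : Set F) = {x, y} := rfl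
    rw [this, hgen]
    rfl
  rw [← IntermediateField.adjoin.finrank hy, h2]
  exact (IntermediateField.finrank_top').symm

end Generation

section Exists

variable {x y : F} {a b : K} {Φ : K[X][X]}

/-- A relation of degree less than the degree of the field is trivial. -/
theorem eq_zero_of_ev_eq_zero (hx : Transcendental K x)
    (hgen : IntermediateField.adjoin K {x, y} = ⊤) (hy : IsIntegral K⟮x⟯ y) {R : K[X][X]}
    (hR : ev x y R = 0) (hdeg : R.degree < (Module.finrank K⟮x⟯ F : WithBot ℕ)) : R = 0 := by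
  obtain ⟨ψ, hψ⟩ : ∃ ψ : K[X] →+* K⟮x⟯, ψ = eval₂RingHom (algebraMap K K⟮x⟯)
    ⟨x, IntermediateField.mem_adjoin_simple_self K x⟩ := ⟨_, rfl⟩
  have hψ1 : ∀ P : K[X], algebraMap K⟮x⟯ F (ψ P) = P.eval₂ (algebraMap K F) x := by
    intro P
    rw [hψ, coe_eval₂RingHom, Polynomial.hom_eval₂]
    rfl
  have hψinj : Function.Injective ψ := by
    rw [injective_iff_map_eq_zero]
    intro P hP
    by_contra hne
    apply hx
    refine ⟨P, hne, ?_⟩
    rw [Polynomial.aeval_def, ← hψ1, hP, map_zero]
  have h1 : Polynomial.aeval y (R.map ψ) = 0 := by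
    rw [Polynomial.aeval_def, Polynomial.eval₂_map, ← hR, ev, coe_eval₂RingHom]
    congr 1
    apply Polynomial.ringHom_ext
    · intro a
      simp [hψ1]
    · simp [hψ1]
  have h2 := minpoly.degree_le_of_ne_zero K⟮x⟯ y (p := R.map ψ)
  by_contra hne
  have h3 : R.map ψ ≠ 0 := (Polynomial.map_ne_zero_iff hψinj).mpr hne
  have h4 := h2 h3 h1
  rw [Polynomial.degree_map_eq_of_injective hψinj] at h4
  have h5 : (minpoly K⟮x⟯ y).degree = ((minpoly K⟮x⟯ y).natDegree : WithBot ℕ) :=
    Polynomial.degree_eq_natDegree (minpoly.ne_zero hy)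
  rw [h5, ← finrank_eq_minpoly hgen hy] at h4
  exact absurd (h4.trans_lt hdeg) (lt_irrefl _)

/-- **Existence of a place over a point.** -/
theorem exists_place (hx : Transcendental K x) [FiniteDimensional K⟮x⟯ F]
    [Algebra.IsSeparable K⟮x⟯ F] (hgen : IntermediateField.adjoin K {x, y} = ⊤)
    (hmonic : Φ.Monic) (hdeg : Φ.natDegree = Module.finrank K⟮x⟯ F) (hΦ : ev x y Φ = 0)
    (hab : ev a b Φ = 0) : ∃ v : Place K F, Over v x a ∧ Over v y b := by
  -- the ring
  have hxB : x ∈ integralClosure (Algebra.adjoin K {x}) F :=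
    isIntegral_algebraMap (R := Algebra.adjoin K {x}) (x := gen x)
  have hyB : y ∈ integralClosure (Algebra.adjoin K {x}) F := by
    refine ⟨Φ.map (eval₂RingHom (algebraMap K (Algebra.adjoin K {x})) (gen x)), hmonic.map _, ?_⟩
    rw [Polynomial.eval₂_map, ← hΦ, ev, coe_eval₂RingHom]
    congr 1
    apply Polynomial.ringHom_ext
    · intro a
      simp
    · simp
  have hyint : IsIntegral K⟮x⟯ y := Algebra.IsIntegral.isIntegral y
  obtain ⟨evB, hevB⟩ : ∃ evB : K[X][X] →+* integralClosure (Algebra.adjoin K {x}) F,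
    evB = ev (⟨x, hxB⟩ : integralClosure (Algebra.adjoin K {x}) F) ⟨y, hyB⟩ := ⟨_, rfl⟩
  have hevB1 : ∀ P, ((evB P : integralClosure (Algebra.adjoin K {x}) F) : F) = ev x y P := by
    intro P
    rw [hevB]
    exact map_ev (K := K) (algebraMap (integralClosure (Algebra.adjoin K {x}) F) F)
      (fun a => rfl) ⟨x, hxB⟩ ⟨y, hyB⟩ P
  letI : Algebra K[X][X] (integralClosure (Algebra.adjoin K {x}) F) := evB.toAlgebra
  have halg : (algebraMap K[X][X] (integralClosure (Algebra.adjoin K {x}) F)) = evB := rfl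
  haveI : Algebra.IsIntegral K[X][X] (integralClosure (Algebra.adjoin K {x}) F) := by
    constructor
    intro z
    have hz : IsIntegral (Algebra.adjoin K {x}) z :=
      (isIntegral_algebraMap_iff (B := F) (Subtype.val_injective)).mp z.2
    obtain ⟨q, hq, hqz⟩ := hz
    -- lift the coefficients
    have hsurj : Function.Surjective (eval₂RingHom (algebraMap K (Algebra.adjoin K {x})) (gen x)) := by
      intro t
      obtain ⟨r, hr⟩ := exists_poly x t
      refine ⟨r, ?_⟩
      apply Subtype.ext
      rw [hr, coe_eval₂RingHom]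
      change algebraMap (Algebra.adjoin K {x}) F _ = _
      rw [Polynomial.hom_eval₂, Polynomial.aeval_def]
      rfl
    obtain ⟨Q, hQ1, -, hQ3⟩ := Polynomial.lifts_and_degree_eq_and_monic
      (f := eval₂RingHom (algebraMap K (Algebra.adjoin K {x})) (gen x))
      (p := q) (by
        rw [Polynomial.lifts_iff_coeff_lifts]
        intro n
        exact hsurj _) hq
    refine ⟨Q.map C, hQ3.map _, ?_⟩
    rw [Polynomial.eval₂_map, ← hqz, ← hQ1, Polynomial.eval₂_map]
    congr 1
    apply Polynomial.ringHom_ext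
    · intro a
      apply Subtype.ext
      change ((evB (C (C a)) : integralClosure (Algebra.adjoin K {x}) F) : F) = _
      rw [hevB1]
      simp
    · apply Subtype.ext
      change ((evB (C X) : integralClosure (Algebra.adjoin K {x}) F) : F) = _
      rw [hevB1]
      simp
  haveI hprime : (RingHom.ker (ev a b : K[X][X] →+* K)).IsPrime := RingHom.ker_isPrime _
  have hker : RingHom.ker (algebraMap K[X][X] (integralClosure (Algebra.adjoin K {x}) F)) ≤
      RingHom.ker (ev a b : K[X][X] →+* K) := by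
    intro P hP
    rw [RingHom.mem_ker, halg] at hP
    rw [RingHom.mem_ker]
    have hP1 : ev x y P = 0 := by
      rw [← hevB1, hP]
      rfl
    have h1 := Polynomial.modByMonic_add_div P Φ
    have h2 : ev x y (P %ₘ Φ) = 0 := by
      rw [← h1, map_add, map_mul, hΦ, zero_mul, add_zero] at hP1
      exact hP1
    have h3 : P %ₘ Φ = 0 := by
      apply eq_zero_of_ev_eq_zero hx hgen hyint h2
      rw [← hdeg, ← Polynomial.degree_eq_natDegree hmonic.ne_zero]
      exact Polynomial.degree_modByMonic_lt _ hmonic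
    rw [← h1, h3, zero_add, map_mul, hab, zero_mul]
  obtain ⟨Q, hQ, hQcomap⟩ := Ideal.exists_ideal_over_prime_of_isIntegral_of_isDomain
    (S := integralClosure (Algebra.adjoin K {x}) F) (RingHom.ker (ev a b : K[X][X] →+* K)) hker
  have hmem : ∀ P : K[X][X], ev a b P = 0 → evB P ∈ Q := by
    intro P hP
    have : P ∈ Q.comap (algebraMap K[X][X] (integralClosure (Algebra.adjoin K {x}) F)) := by
      rw [hQcomap]
      exact hP
    exact this
  have hne : Q ≠ ⊥ := by
    rintro rfl
    have h1 := hmem (C (X - C a)) (by simp)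
    rw [Ideal.mem_bot] at h1
    have h2 := congrArg (Subtype.val) h1
    rw [hevB1] at h2
    apply hx
    refine ⟨X - C a, Polynomial.X_sub_C_ne_zero a, ?_⟩
    rw [ev_C] at h2
    exact h2
  refine ⟨Place.ofHeightOneSpectrum (R := integralClosure (Algebra.adjoin K {x}) F)
    ⟨Q, hQ, hne⟩, ?_, ?_⟩
  · rw [Over, adicValuation_ofHeightOneSpectrum]
    have h1 := hmem (C (X - C a)) (by simp)
    have h2 := (HeightOneSpectrum.valuation_lt_one_iff_mem (K := F)
      (⟨Q, hQ, hne⟩ : HeightOneSpectrum (integralClosure (Algebra.adjoin K {x}) F))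
      (evB (C (X - C a)))).mpr h1
    have h3 : ((evB (C (X - C a)) : integralClosure (Algebra.adjoin K {x}) F) : F) =
        x - algebraMap K F a := by
      rw [hevB1]
      simp
    rw [← h3]
    exact h2
  · rw [Over, adicValuation_ofHeightOneSpectrum]
    have h1 := hmem (X - C (C b)) (by simp)
    have h2 := (HeightOneSpectrum.valuation_lt_one_iff_mem (K := F)
      (⟨Q, hQ, hne⟩ : HeightOneSpectrum (integralClosure (Algebra.adjoin K {x}) F))
      (evB (X - C (C b)))).mpr h1
    have h3 : ((evB (X - C (C b)) : integralClosure (Algebra.adjoin K {x}) F) : F) =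
        y - algebraMap K F b := by
      rw [hevB1]
      simp
    rw [← h3]
    exact h2

theorem exists_place_fnField [CharZero K] [IsFnField K F] (hx : Transcendental K x)
    (hgen : IntermediateField.adjoin K {x, y} = ⊤)
    (hmonic : Φ.Monic) (hdeg : Φ.natDegree = Module.finrank K⟮x⟯ F) (hΦ : ev x y Φ = 0)
    (hab : ev a b Φ = 0) : ∃ v : Place K F, Over v x a ∧ Over v y b := by
  haveI := IsFnField.finiteDimensional hx
  exact exists_place hx hgen hmonic hdeg hΦ hab

end Exists

end Fermat.Agent.Pts
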