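import Fermat.Agent.Pts.Phi2
import Fermat.Agent.Pts.Newton
import Fermat.Agent.Pts.Place
import Fermat.Agent.S24Lib.Degree
import Mathlib.RingTheory.Valuation.ValuationSubring

set_option autoImplicit false
set_option linter.style.haveILetI false
set_option linter.unusedSectionVars false

/-!
# The modular polynomial over an algebraically closed field and the function field of `X_0(p)`
-/

namespace Fermat.Agent.Pts

open UpperHalfPlane hiding I
open HahnSeries hiding C
open Complex Function ModularCurve AlgebraicCurve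
open scoped IntermediateField
open Fermat.Agent.ModFn Fermat.Agent.S24Lib Fermat.Agent.FF Polynomial

theorem algebraMap_laurent {L : Type*} [Field L] (c : L) :
    algebraMap L (LaurentSeries L) c = HahnSeries.C c :=
  algebraMap_laurentSeries_eq_single L c

section Field

variable (K : Type*) [Field K] [Algebra ℚ K] (p : ℕ) [hpF : Fact p.Prime]

theorem transcendental_jq : Transcendental K (jqModC K) := by
  rintro ⟨q, hq, h⟩
  have h1 := congrArg (fun f : LaurentSeries K => f.coeff (-(q.natDegree : ℤ))) h
  simp only [Polynomial.aeval_eq_sum_range, HahnSeries.coeff_sum, HahnSeries.coeff_zero] at h1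
  rw [Finset.sum_range_succ, Finset.sum_eq_zero, zero_add] at h1
  · rw [Algebra.smul_def, algebraMap_laurent, HahnSeries.C_mul_eq_smul, HahnSeries.coeff_smul,
      jqModC_pow_coeff_self, smul_eq_mul, mul_one] at h1
    exact hq (Polynomial.leadingCoeff_eq_zero.1 h1)
  · intro i hi
    rw [Finset.mem_range] at hi
    rw [Algebra.smul_def, algebraMap_laurent, HahnSeries.C_mul_eq_smul, HahnSeries.coeff_smul,
      jqModC_pow_coeff_of_lt _ (by omega), smul_zero]

variable [Algebra K ℂ] [IsAlgClosed K]

/-- The function field of `X_0(p)`. -/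
noncomputable abbrev FN : IntermediateField K (LaurentSeries K) :=
  laurentBaseChange K (modularFunctionFieldFull p)

theorem jp_mem : qExpand K p (jqModC K) ∈ FN K p := by
  rw [FN, laurentBaseChange_eq_adjoin_pair]
  exact IntermediateField.subset_adjoin _ _ (by simp)

/-- the function `j` -/
noncomputable def jF : FN K p := ⟨jqModC K, jqModC_mem_laurentBaseChange K p⟩

/-- the function `j_p` -/
noncomputable def jpF : FN K p := ⟨qExpand K p (jqModC K), jp_mem K p⟩

theorem transcendental_jF : Transcendental K (jF K p) := by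
  intro h
  apply transcendental_jq K
  exact h.algebraMap (A := LaurentSeries K)

theorem transcendental_jpF : Transcendental K (jpF K p) := by
  intro h
  apply transcendental_jq K
  have h1 : IsAlgebraic K (qExpand K p (jqModC K)) := h.algebraMap (A := LaurentSeries K)
  obtain ⟨q, hq, hq0⟩ := h1
  refine ⟨q, hq, ?_⟩
  apply qExpand_injective (R := K) p
  rw [map_zero, ← hq0, Polynomial.aeval_def, Polynomial.hom_eval₂, Polynomial.aeval_def]
  congr 1
  ext a : 1
  rw [RingHom.comp_apply, algebraMap_laurent, qExpand_C]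

theorem adjoin_pair_eq_top : IntermediateField.adjoin K {jF K p, jpF K p} = ⊤ := by
  apply IntermediateField.map_injective (FN K p).val
  rw [IntermediateField.adjoin_map, Set.image_pair]
  have h1 : ((FN K p).val (jF K p)) = jqModC K := rfl
  have h2 : ((FN K p).val (jpF K p)) = qExpand K p (jqModC K) := rfl
  rw [h1, h2, ← laurentBaseChange_eq_adjoin_pair, ← AlgHom.fieldRange_eq_map,
    IntermediateField.fieldRange_val]

theorem isFnField : IsFnField K (FN K p) := isFnField_laurentBaseChange K p

theorem finrank_jF : Module.finrank K⟮jF K p⟯ (FN K p) = p + 1 := by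
  have h1 := (isFnField_and_finrank_laurent K p).2
  rw [Gam0.card_X] at h1
  have h2 := Gam0.dedekindPsi_mul_of_not_dvd (M := 1) (p := p) one_pos hpF.out
    hpF.out.not_dvd_one
  rw [one_mul, dedekindPsi_one, mul_one] at h2
  rw [h2] at h1
  exact h1

end Field

section PhiQ

variable (K : Type*) [Field K] [IsAlgClosed K] (p : ℕ) [hpF : Fact p.Prime]

/-- The properties of the modular polynomial. -/
structure IsPhi [Algebra ℚ K] [Algebra K ℂ] (Φ : K[X][X]) : Prop where
  monic : Φ.Monic
  natDegree : Φ.natDegree = p + 1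
  shape : ∀ (A : ValuationSubring K) (a : K), 1 < A.valuation a →
    Shape A.valuation p (A.valuation a) (Φ.map (evalRingHom a))
  map_eq : ∀ (τ : ℍ) (a : K), algebraMap K ℂ a = jH τ →
    (Φ.map (evalRingHom a)).map (algebraMap K ℂ) = Fτ p τ
  ev_eq : ev (jF K p) (jpF K p) Φ = 0
  ev_eq' : ev (jpF K p) (jF K p) Φ = 0

theorem exists_isPhi [Algebra ℚ K] [Algebra K ℂ] : ∃ Φ : K[X][X], IsPhi K p Φ := by
  haveI : CharZero K := (algebraMap K ℂ).charZero
  -- the ring of integers
  obtain ⟨z, hz⟩ := hasRoots_of_isAlgClosed K p p dvd_rfl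
  have hzp : z ^ p = 1 := by
    apply (algebraMap K ℂ).injective
    rw [map_pow, hz, map_one]
    exact (Complex.isPrimitiveRoot_exp p (NeZero.ne p)).pow_eq_one
  have hzint : z ∈ integralClosure ℤ K := by
    refine IsIntegral.of_pow hpF.out.pos ?_
    rw [hzp]
    exact isIntegral_one
  have hp1 : p - 1 + 1 = p := Nat.sub_add_cancel hpF.out.one_lt.le
  obtain ⟨ζ, hζ⟩ : ∃ ζ : (integralClosure ℤ K)ˣ, ((ζ : integralClosure ℤ K) : K) = z := by
    refine ⟨⟨⟨z, hzint⟩, ⟨z, hzint⟩ ^ (p - 1), ?_, ?_⟩, rfl⟩
    · rw [← pow_succ', hp1]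
      apply Subtype.ext
      simpa using hzp
    · rw [← pow_succ, hp1]
      apply Subtype.ext
      simpa using hzp
  obtain ⟨i, hi⟩ : ∃ i : integralClosure ℤ K →+* ℂ,
    i = (algebraMap K ℂ).comp (integralClosure ℤ K).val.toRingHom := ⟨_, rfl⟩
  have hiinj : Function.Injective i := by
    rw [hi]
    exact (algebraMap K ℂ).injective.comp Subtype.val_injective
  have hζ' : Units.map i.toMonoidHom ζ = zetaU p := by
    apply Units.ext
    change i ζ = _
    rw [hi]
    change algebraMap K ℂ ((ζ : integralClosure ℤ K) : K) = _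
    rw [hζ, hz]
    rfl
  obtain ⟨Φ, h1, h2, h3, h4, h5, h6, h7, h8⟩ := exists_Phi p i ζ hiinj hζ'
  obtain ⟨h9, h10⟩ := Phi_jq p ζ h8
  obtain ⟨j, hj⟩ : ∃ j : integralClosure ℤ K →+* K, j = (integralClosure ℤ K).val.toRingHom :=
    ⟨_, rfl⟩
  have hcomm : ∀ (P : (integralClosure ℤ K)[X]) (a : K),
      (P.map j).eval a = P.eval₂ j a := fun P a => Polynomial.eval_map _ _
  have hringhom : ∀ a : K, (evalRingHom a).comp (mapRingHom j) = eval₂RingHom j a := by
    intro a
    apply Polynomial.ringHom_ext
    · intro c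
      simp
    · simp
  have hmapmap : ∀ a : K, (Φ.map (mapRingHom j)).map (evalRingHom a) =
      Φ.map (eval₂RingHom j a) := by
    intro a
    rw [Polynomial.map_map, hringhom]
  have hjint : ∀ (A : ValuationSubring K) (c : integralClosure ℤ K), A.valuation (j c) ≤ 1 := by
    intro A c
    rw [ValuationSubring.valuation_le_one_iff]
    have hc : IsIntegral ℤ (c : K) := c.2
    have h11 : IsIntegral A (c : K) := by
      obtain ⟨q, hq1, hq2⟩ := hc
      refine ⟨q.map (Int.castRingHom A), hq1.map _, ?_⟩
      rw [Polynomial.eval₂_map]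
      have : (algebraMap A K).comp (Int.castRingHom A) = algebraMap ℤ K := RingHom.ext_int _ _
      rw [this]
      exact hq2
    obtain ⟨y, hy⟩ := IsIntegrallyClosed.algebraMap_eq_of_integral h11
    rw [hj]
    have : (integralClosure ℤ K).val.toRingHom c = (y : K) := hy.symm
    rw [this]
    exact y.2
  have hser : ∀ φ : LaurentSeries (integralClosure ℤ K),
      (coeffMap j).comp (eval₂RingHom HahnSeries.C φ) =
      (eval₂RingHom (algebraMap K (LaurentSeries K)) (coeffMap j φ)).comp (mapRingHom j) := by
    intro φ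
    apply Polynomial.ringHom_ext
    · intro a
      simp only [RingHom.comp_apply, coe_eval₂RingHom, Polynomial.eval₂_C, coe_mapRingHom,
        Polynomial.map_C]
      rw [HahnSeries.C_apply, coeffMap_single, algebraMap_laurent, HahnSeries.C_apply]
    · simp
  have hev : ∀ φ ψ : LaurentSeries (integralClosure ℤ K),
      (Φ.map (eval₂RingHom HahnSeries.C φ)).eval ψ = 0 →
      ev (coeffMap j φ) (coeffMap j ψ) (Φ.map (mapRingHom j)) = 0 := by
    intro φ ψ h
    have h11 := congrArg (coeffMap j) h
    rw [map_zero, Polynomial.eval_map, Polynomial.hom_eval₂, hser] at h11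
    rw [ev_apply, Polynomial.map_map, Polynomial.eval_map]
    exact h11
  have hFN : ∀ x y : FN K p, ev (x : LaurentSeries K) (y : LaurentSeries K)
      (Φ.map (mapRingHom j)) = 0 → ev x y (Φ.map (mapRingHom j)) = 0 := by
    intro x y h
    have h11 := map_ev (K := K) (S := FN K p) (T := LaurentSeries K)
      (algebraMap (FN K p) (LaurentSeries K)) (fun a => rfl) x y (Φ.map (mapRingHom j))
    apply (algebraMap (FN K p) (LaurentSeries K)).injective
    rw [h11, map_zero]
    exact h
  refine ⟨Φ.map (mapRingHom j), h1.map _, ?_, ?_, ?_, ?_, ?_⟩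
  · rw [h1.natDegree_map, h2]
  · intro A a ha
    rw [hmapmap]
    refine ⟨h1.map _, ?_, ?_, ?_, ?_⟩
    · rw [h1.natDegree_map, h2]
    · intro k hk1 hk2
      rw [Polynomial.coeff_map]
      exact eval₂_le _ j (hjint A) (h3 k hk1 hk2) ha.le
    · rw [Polynomial.coeff_map]
      exact eval₂_eq _ j (hjint A) (h3 p hpF.out.one_lt.le le_rfl)
        (by rw [h4, map_neg, map_one, Valuation.map_neg, map_one]) ha
    · rw [Polynomial.coeff_map]
      refine eval₂_eq _ j (hjint A) h5 ?_ ha
      obtain ⟨u, hu⟩ := h6
      apply le_antisymm (hjint A _)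
      have h11 := hjint A (((u⁻¹ : (integralClosure ℤ K)ˣ)) : integralClosure ℤ K)
      have h12 : A.valuation (j u) *
        A.valuation (j (((u⁻¹ : (integralClosure ℤ K)ˣ)) : integralClosure ℤ K)) = 1 := by
        rw [← map_mul, ← map_mul, Units.mul_inv, map_one, map_one]
      rw [← hu]
      calc (1 : A.ValueGroup) = _ := h12.symm
        _ ≤ A.valuation (j u) * 1 := by gcongr
        _ = _ := mul_one _
  · intro τ a ha
    rw [hmapmap, Polynomial.map_map, ← h7]
    congr 1
    apply Polynomial.ringHom_ext
    · intro c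
      simp [hi, hj]
    · simp [ha]
  · apply hFN
    have := hev _ _ h9
    rwa [coeffMap_qExpand, coeffMap_jqModC] at this
  · apply hFN
    have := hev _ _ h10
    rwa [coeffMap_qExpand, coeffMap_jqModC] at this

end PhiQ

end Fermat.Agent.Pts
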