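import Fermat.Agent.Pts.Canon2

set_option autoImplicit false
set_option linter.style.haveILetI false
set_option linter.unusedSectionVars false

/-!
# Existence of the recentering
-/

namespace Fermat.Agent.Pts

open WeierstrassCurve WeierstrassCurve.Affine Fermat.Agent.DivPoly Fermat.Agent.Wp
open Fermat.Agent.EC

variable {F : Type*} [Field F] {Γ : Type*} [LinearOrderedCommGroupWithZero Γ]
variable {v : Valuation F Γ} {W : Affine F}

theorem exists_node [IsAlgClosed F] [CharZero F] (hint : IntegralFor v W) (hc4 : v W.c₄ = 1)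
    (hΔ : v W.Δ < 1) (hΔ0 : W.Δ ≠ 0) : ∃ x0 B G β : F, Node v W x0 B G β := by
  have hc40 : W.c₄ ≠ 0 := ne_zero_of_v hc4
  have hcrel := W.c_relation
  have hc6 : v W.c₆ = 1 := by
    have h1 : W.c₆ ^ 2 = W.c₄ ^ 3 - 1728 * W.Δ := by linear_combination hcrel
    have h2 : v (W.c₆ ^ 2) = 1 := by
      have e : v (W.c₄ ^ 3) = 1 := by rw [map_pow, hc4, one_pow]
      rw [h1, Valuation.map_sub_eq_of_lt_left, e]
      rw [e]
      exact v_mul_lt_one v (v_ofNat_le_one v _) hΔ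
    rw [map_pow] at h2
    exact (pow_eq_one_iff_of_nonneg zero_le two_ne_zero).mp h2
  have hc60 : W.c₆ ≠ 0 := ne_zero_of_v hc6
  -- the root
  obtain ⟨ε, hε⟩ : ∃ ε, ε = 432 * W.Δ / W.c₄ ^ 3 := ⟨_, rfl⟩
  have hvε : v ε < 1 := by
    rw [hε, map_div₀, map_pow, hc4, one_pow, div_one]
    exact v_mul_lt_one v (v_ofNat_le_one v _) hΔ
  obtain ⟨S, hS, hvS⟩ : ∃ S : F, S ^ 2 - S + ε = 0 ∧ v S = 1 := by
    obtain ⟨S, hS⟩ : ∃ S : F, S ^ 2 - S + ε = 0 := by
      obtain ⟨S, hS⟩ := IsAlgClosed.exists_root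
        (Polynomial.C 1 * Polynomial.X ^ 2 + Polynomial.C (-1) * Polynomial.X +
          Polynomial.C ε : Polynomial F)
        (by rw [Polynomial.degree_quadratic one_ne_zero]; norm_num)
      refine ⟨S, ?_⟩
      simp at hS
      linear_combination hS
    have hle : ∀ T : F, T ^ 2 - T + ε = 0 → v T ≤ 1 := by
      intro T hT
      by_contra hcon
      push Not at hcon
      have h1 : T ^ 2 = T - ε := by linear_combination hT
      have h2 : v (T ^ 2) ≤ v T := by
        rw [h1]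
        exact (Valuation.map_sub _ _ _).trans (max_le le_rfl (hvε.le.trans hcon.le))
      rw [map_pow, sq] at h2
      have h3 : v T * 1 < v T * v T := mul_lt_mul_of_pos_left hcon (zero_lt_one.trans hcon)
      rw [mul_one] at h3
      exact absurd (h3.trans_le h2) (lt_irrefl _)
    rcases (hle S hS).lt_or_eq with h | h
    · refine ⟨1 - S, by linear_combination hS, ?_⟩
      rw [Valuation.map_sub_eq_of_lt_left, map_one]
      rwa [map_one]
    · exact ⟨S, hS, h⟩
  have hS0 : S ≠ 0 := ne_zero_of_v hvS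
  obtain ⟨β, hβ⟩ : ∃ β, β = -W.Δ / (W.c₄ * S) := ⟨_, rfl⟩
  have hβΔ : β * (W.c₄ * S) = -W.Δ := by rw [hβ]; field_simp
  have hvβ : v β < 1 := by
    rw [hβ, map_div₀, Valuation.map_neg, map_mul, hc4, hvS, one_mul, div_one]
    exact hΔ
  have hβ0 : β ≠ 0 := by
    rw [hβ]
    exact div_ne_zero (neg_ne_zero.mpr hΔ0) (mul_ne_zero hc40 hS0)
  have hquad : 432 * β ^ 2 + W.c₄ ^ 2 * β + W.c₄ * W.Δ = 0 := by
    have e1 : ε * W.c₄ ^ 3 = 432 * W.Δ := by rw [hε]; field_simp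
    rw [hβ]
    field_simp
    linear_combination (W.Δ) * W.c₄ ^ 3 * hS - W.Δ * e1
  obtain ⟨s, hs⟩ : ∃ s, s = -(864 * β + W.c₄ ^ 2) / W.c₆ := ⟨_, rfl⟩
  have hs1 : s * W.c₆ = -(864 * β + W.c₄ ^ 2) := by rw [hs]; field_simp
  have hs2 : s ^ 2 = W.c₄ := by
    have h1 : s ^ 2 * W.c₆ ^ 2 = W.c₄ * W.c₆ ^ 2 := by
      have h2 : s ^ 2 * W.c₆ ^ 2 = (864 * β + W.c₄ ^ 2) ^ 2 := by
        rw [← mul_pow, hs1]; ring
      rw [h2]
      linear_combination 1728 * hquad - W.c₄ * hcrel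
    exact mul_right_cancel₀ (pow_ne_zero 2 hc60) h1
  have hvs : v s = 1 := by
    have h1 := congrArg v hs2
    rw [map_pow, hc4] at h1
    exact (pow_eq_one_iff_of_nonneg zero_le two_ne_zero).mp h1
  have h12 : (12 : F) ≠ 0 := by norm_num
  obtain ⟨x0, hx0⟩ : ∃ x0, x0 = (s - W.b₂) / 12 := ⟨_, rfl⟩
  have hx0s : 12 * x0 = s - W.b₂ := by rw [hx0]; field_simp
  have hb4 : W.b₄ + x0 * W.b₂ + 6 * x0 ^ 2 = 0 := by
    have h24 : (24 : F) ≠ 0 := by norm_num
    apply mul_left_cancel₀ h24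
    rw [WeierstrassCurve.c₄] at hs2
    linear_combination (2 * W.b₂ + 12 * x0 + (s - W.b₂)) * hx0s + hs2
  obtain ⟨G, hG⟩ : ∃ G, G = W.b₆ + 2 * x0 * W.b₄ + x0 ^ 2 * W.b₂ + 4 * x0 ^ 3 := ⟨_, rfl⟩
  have hB : s = W.b₂ + 12 * x0 := by linear_combination -hx0s
  obtain ⟨β', hβ'⟩ : ∃ β', β' = W.b₈ + 3 * x0 * W.b₆ + 3 * x0 ^ 2 * W.b₄ + x0 ^ 3 * W.b₂ +
    3 * x0 ^ 4 := ⟨_, rfl⟩
  have hrel : s * G = 4 * β' := by
    have h1 := W.b_relation
    rw [hB, hG, hβ']
    linear_combination -h1 + (W.b₄ + x0 * W.b₂ + 6 * x0 ^ 2) * hb4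
  have hc6' : W.c₆ = -s ^ 3 - 216 * G := by
    rw [hB, hG, WeierstrassCurve.c₆]
    linear_combination (36 * (W.b₂ + 12 * x0)) * hb4
  have hββ : β = β' := by
    have h864 : (864 : F) ≠ 0 := by norm_num
    apply mul_left_cancel₀ h864
    linear_combination hs1 - s * hc6' + 216 * hrel + (s ^ 2 + W.c₄) * hs2
  rw [hββ] at hvβ hβ0
  have hvG : v G ≤ 1 := by
    have h1 := congrArg v hrel
    rw [map_mul, hvs, one_mul] at h1
    rw [h1]
    exact v_mul_le_one v (v_ofNat_le_one v _) hvβ.le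
  refine ⟨x0, s, G, β', hb4, hB, hG, hβ', ?_, hvs, hvβ, hβ0⟩
  by_contra hcon
  push Not at hcon
  have hquart : x0 ^ 4 = W.b₄ * x0 ^ 2 + (2 * W.b₆ + G) * x0 + (W.b₈ - β') := by
    rw [hG, hβ']
    ring
  have h1 : v (x0 ^ 4) ≤ v x0 ^ 2 := by
    rw [hquart]
    refine Valuation.map_add_le _ (Valuation.map_add_le _ ?_ ?_) ?_
    · rw [map_mul, map_pow]
      calc v W.b₄ * v x0 ^ 2 ≤ 1 * v x0 ^ 2 := by gcongr; exact hint.b₄
        _ = _ := one_mul _
    · rw [map_mul]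
      calc v (2 * W.b₆ + G) * v x0 ≤ 1 * v x0 := by
            gcongr
            exact v_add_le_one v (v_mul_le_one v (v_ofNat_le_one v _) hint.b₆) hvG
        _ = v x0 := one_mul _
        _ ≤ v x0 ^ 2 := le_self_pow₀ hcon.le two_ne_zero
    · exact (v_sub_le_one v hint.b₈ hvβ.le).trans (one_le_pow₀ hcon.le)
  rw [map_pow] at h1
  exact absurd (pow_lt_pow_right₀ hcon (show 2 < 4 by norm_num)) (not_lt.mpr h1)

/-- The numerator of the tangent slope. -/
def fx (W : Affine F) (x y : F) : F := 3 * x ^ 2 + 2 * W.a₂ * x + W.a₄ - W.a₁ * y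

/-- The denominator of the tangent slope. -/
def fy (W : Affine F) (x y : F) : F := 2 * y + W.a₁ * x + W.a₃

namespace Node

variable {x0 B G β : F} (h : Node v W x0 B G β)

include h

theorem fy_sq {x y : F} (he : W.Equation x y) :
    fy W x y ^ 2 = 4 * (x - x0) ^ 3 + B * (x - x0) ^ 2 + G := by
  have h2 := h.b4
  rw [equation_iff] at he
  rw [h.hB, h.hG, fy]
  simp only [WeierstrassCurve.b₂, WeierstrassCurve.b₄, WeierstrassCurve.b₆] at *
  linear_combination 4 * he + (2 * x - 2 * x0) * h2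

theorem fx_rel {x y : F} (he : W.Equation x y) :
    fx W x y ^ 2 + W.a₁ * fx W x y * fy W x y - (W.a₂ + 2 * x + x0) * fy W x y ^ 2 =
      (x - x0) ^ 4 - 2 * G * (x - x0) - β := by
  have h2 := h.b4
  have h3 := h.fy_sq he
  have h4 : fx W x y ^ 2 + W.a₁ * fx W x y * fy W x y - (W.a₂ + 2 * x) * fy W x y ^ 2 =
      x ^ 4 - W.b₄ * x ^ 2 - 2 * W.b₆ * x - W.b₈ := by
    rw [equation_iff] at he
    simp only [fx, fy, WeierstrassCurve.b₄, WeierstrassCurve.b₆, WeierstrassCurve.b₈]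
    generalize W.a₁ = a1 at *
    generalize W.a₂ = a2 at *
    generalize W.a₃ = a3 at *
    generalize W.a₄ = a4 at *
    generalize W.a₆ = a6 at *
    linear_combination (-8*x - a1^2 - 4*a2) * he
  rw [h.hB, h.hG] at h3
  rw [h.hG, h.hβ]
  linear_combination h4 - x0 * h3 - (x - x0) ^ 2 * h2 + 2 * x0 * (x - x0) * h2

/-- Singular reduction, in terms of the recentered coordinate. -/
theorem sing_iff (hint : IntegralFor v W) {x y : F} (he : W.Equation x y) (hx : v x ≤ 1)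
    (hy : v y ≤ 1) : (v (fx W x y) < 1 ∧ v (fy W x y) < 1) ↔ v (x - x0) < 1 := by
  have h1 := h.fy_sq he
  have h2 := h.fx_rel he
  have hvX : v (x - x0) ≤ 1 := v_sub_le_one v hx h.vx0
  have hG : v G < 1 := h.vG_le.trans_lt h.vβ
  have hco : v (W.a₂ + 2 * x + x0) ≤ 1 :=
    v_add_le_one v (v_add_le_one v hint.a₂ (v_mul_le_one v (v_ofNat_le_one v _) hx)) h.vx0
  have hfx : v (fx W x y) ≤ 1 := by
    rw [fx]
    refine v_sub_le_one v (v_add_le_one v (v_add_le_one v ?_ ?_) hint.a₄)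
      (v_mul_le_one v hint.a₁ hy)
    · exact v_mul_le_one v (v_ofNat_le_one v _) (v_pow_le_one v hx 2)
    · exact v_mul_le_one v (v_mul_le_one v (v_ofNat_le_one v _) hint.a₂) hx
  constructor
  · rintro ⟨h3, h4⟩
    by_contra hcon
    push Not at hcon
    have heq := le_antisymm hvX hcon
    have h5 : v ((x - x0) ^ 4 - 2 * G * (x - x0) - β) = 1 := by
      have e : (x - x0) ^ 4 - 2 * G * (x - x0) - β =
        (x - x0) ^ 4 - (2 * (G * (x - x0)) + β) := by ring
      have e1 : v ((x - x0) ^ 4) = 1 := by rw [map_pow, heq, one_pow]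
      rw [e, Valuation.map_sub_eq_of_lt_left, e1]
      rw [e1]
      exact v_add_lt_one v (v_mul_lt_one v (v_ofNat_le_one v _) (v_mul_lt_one' v hG hvX)) h.vβ
    have h6 : v (fx W x y ^ 2 + W.a₁ * fx W x y * fy W x y -
        (W.a₂ + 2 * x + x0) * fy W x y ^ 2) < 1 := by
      refine v_sub_lt_one v (v_add_lt_one v (v_pow_lt_one v h3 two_ne_zero) ?_) ?_
      · exact v_mul_lt_one v (v_mul_le_one v hint.a₁ hfx) h4
      · exact v_mul_lt_one v hco (v_pow_lt_one v h4 two_ne_zero)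
    rw [h2, h5] at h6
    exact lt_irrefl _ h6
  · intro hlt
    have h4 : v (fy W x y) < 1 := by
      have h5 : v (fy W x y ^ 2) < 1 := by
        rw [h1]
        refine v_add_lt_one v (v_add_lt_one v ?_ ?_) hG
        · exact v_mul_lt_one v (v_ofNat_le_one v _) (v_pow_lt_one v hlt (by norm_num))
        · exact v_mul_lt_one v h.vB.le (v_pow_lt_one v hlt (by norm_num))
      rw [map_pow] at h5
      exact (pow_lt_one_iff two_ne_zero).mp h5
    refine ⟨?_, h4⟩
    have h6 : fx W x y ^ 2 = ((x - x0) ^ 4 - 2 * G * (x - x0) - β) -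
      W.a₁ * fx W x y * fy W x y + (W.a₂ + 2 * x + x0) * fy W x y ^ 2 := by
      linear_combination h2
    have h7 : v (fx W x y ^ 2) < 1 := by
      rw [h6]
      refine v_add_lt_one v (v_sub_lt_one v (v_sub_lt_one v (v_sub_lt_one v ?_ ?_) h.vβ) ?_) ?_
      · exact v_pow_lt_one v hlt (by norm_num)
      · exact v_mul_lt_one v (v_mul_le_one v (v_ofNat_le_one v _) hG.le) hlt
      · exact v_mul_lt_one v (v_mul_le_one v hint.a₁ hfx) h4
      · exact v_mul_lt_one v hco (v_pow_lt_one v h4 two_ne_zero)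
    rw [map_pow] at h7
    exact (pow_lt_one_iff two_ne_zero).mp h7

end Node

/-- integrality of `y`. -/
theorem v_y_le (hint : IntegralFor v W) {x y : F} (he : W.Equation x y) (hx : v x ≤ 1) :
    v y ≤ 1 := by
  by_contra hcon
  push Not at hcon
  rw [equation_iff] at he
  have h1 : y ^ 2 = (x ^ 3 + W.a₂ * x ^ 2 + W.a₄ * x + W.a₆) - (W.a₁ * x + W.a₃) * y := by
    linear_combination he
  have h2 : v (y ^ 2) ≤ v y := by
    rw [h1]
    refine (Valuation.map_sub _ _ _).trans (max_le (le_trans ?_ hcon.le) ?_)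
    · refine v_add_le_one v (v_add_le_one v (v_add_le_one v (v_pow_le_one v hx 3) ?_) ?_) hint.a₆
      · exact v_mul_le_one v hint.a₂ (v_pow_le_one v hx 2)
      · exact v_mul_le_one v hint.a₄ hx
    · rw [map_mul]
      calc _ ≤ 1 * v y := by
            gcongr
            exact v_add_le_one v (v_mul_le_one v hint.a₁ hx) hint.a₃
        _ = v y := one_mul _
  rw [map_pow, sq] at h2
  have h3 : v y * 1 < v y * v y := mul_lt_mul_of_pos_left hcon (zero_lt_one.trans hcon)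
  rw [mul_one] at h3
  exact absurd (h3.trans_le h2) (lt_irrefl _)

end Fermat.Agent.Pts
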