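import Fermat.Agent.Pts.Transfer
import Fermat.Agent.Pts.NodeEx
import Fermat.Prelude.Def_EllipticCurve_ZeroComponentAt
import Fermat.Prelude.Def_FLTPrelim_Ramification
import Fermat.Agent.Frob.Basic

set_option autoImplicit false
set_option linter.style.haveILetI false
set_option linter.unusedSectionVars false

/-!
# The point of `X_0(p)` attached to an elliptic curve with a subgroup of order `p`
-/

namespace Fermat.Agent.Pts

open WeierstrassCurve WeierstrassCurve.Affine Fermat.Agent.DivPoly Fermat.Agent.Wp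
open Fermat.Agent.EC AlgebraicCurve ModularCurve

local notation "Qb" => AlgebraicClosure ℚ

/-- The curve over `ℚ` of an integral curve. -/
abbrev WQ (W : WeierstrassCurve ℤ) : WeierstrassCurve.Affine ℚ := W.map (Int.castRingHom ℚ)

section Coeffs

variable (W : WeierstrassCurve ℤ)

theorem wq_a₁ : ((WQ W)⁄Qb).a₁ = ((W.a₁ : ℤ) : Qb) := by
  change algebraMap ℚ Qb ((W.a₁ : ℤ) : ℚ) = _
  simp

theorem wq_a₂ : ((WQ W)⁄Qb).a₂ = ((W.a₂ : ℤ) : Qb) := by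
  change algebraMap ℚ Qb ((W.a₂ : ℤ) : ℚ) = _
  simp

theorem wq_a₃ : ((WQ W)⁄Qb).a₃ = ((W.a₃ : ℤ) : Qb) := by
  change algebraMap ℚ Qb ((W.a₃ : ℤ) : ℚ) = _
  simp

theorem wq_a₄ : ((WQ W)⁄Qb).a₄ = ((W.a₄ : ℤ) : Qb) := by
  change algebraMap ℚ Qb ((W.a₄ : ℤ) : ℚ) = _
  simp

theorem wq_a₆ : ((WQ W)⁄Qb).a₆ = ((W.a₆ : ℤ) : Qb) := by
  change algebraMap ℚ Qb ((W.a₆ : ℤ) : ℚ) = _
  simp

theorem wq_c₄ : ((WQ W)⁄Qb).c₄ = ((W.c₄ : ℤ) : Qb) := by
  rw [bc_c₄, WeierstrassCurve.map_c₄]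
  simp

theorem wq_Δ : ((WQ W)⁄Qb).Δ = ((W.Δ : ℤ) : Qb) := by
  rw [bc_Δ, WeierstrassCurve.map_Δ]
  simp

theorem integralFor (A : ValuationSubring Qb) : IntegralFor A.valuation ((WQ W)⁄Qb) where
  a₁ := by rw [wq_a₁]; exact v_intCast_le_one _ _
  a₂ := by rw [wq_a₂]; exact v_intCast_le_one _ _
  a₃ := by rw [wq_a₃]; exact v_intCast_le_one _ _
  a₄ := by rw [wq_a₄]; exact v_intCast_le_one _ _
  a₆ := by rw [wq_a₆]; exact v_intCast_le_one _ _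

end Coeffs

section Primes

variable {A : ValuationSubring Qb} {ℓ : ℕ}

theorem v_lt_one_of_lies (hA : A.LiesOverPrime ℓ) : A.valuation (ℓ : Qb) < 1 := by
  have h : ((ℓ : ℕ) : Qb) ∈ A.nonunits := hA
  exact h

theorem v_int_lt_one (hA : A.LiesOverPrime ℓ) {n : ℤ} (hn : (ℓ : ℤ) ∣ n) :
    A.valuation (n : Qb) < 1 := by
  obtain ⟨m, rfl⟩ := hn
  push_cast
  exact v_mul_lt_one' _ (v_lt_one_of_lies hA) (v_intCast_le_one _ _)

theorem v_int_eq_one (hℓ : ℓ.Prime) (hA : A.LiesOverPrime ℓ) {n : ℤ} (hn : ¬ (ℓ : ℤ) ∣ n) :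
    A.valuation (n : Qb) = 1 := by
  apply le_antisymm (v_intCast_le_one _ _)
  by_contra hcon
  push Not at hcon
  have hcop : IsCoprime (ℓ : ℤ) n :=
    (Prime.coprime_iff_not_dvd (Nat.prime_iff_prime_int.mp hℓ)).mpr hn
  obtain ⟨a, b, hab⟩ := hcop
  have h1 : A.valuation (((a * ℓ + b * n : ℤ) : Qb)) < 1 := by
    push_cast
    exact v_add_lt_one _ (v_mul_lt_one _ (v_intCast_le_one _ _) (v_lt_one_of_lies hA))
      (v_mul_lt_one _ (v_intCast_le_one _ _) hcon)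
  rw [hab] at h1
  simp at h1

theorem v_nat_eq_one (hℓ : ℓ.Prime) (hA : A.LiesOverPrime ℓ) {p : ℕ} (hp : p.Prime)
    (hne : ℓ ≠ p) : A.valuation (p : Qb) = 1 := by
  have h1 : ¬ (ℓ : ℤ) ∣ (p : ℤ) := by
    rw [Int.natCast_dvd_natCast]
    intro h
    exact hne ((Nat.prime_dvd_prime_iff_eq hℓ hp).mp h)
  have := v_int_eq_one hℓ hA h1
  simpa using this

end Primes

section Dictionary

variable {A : ValuationSubring Qb} {W : WeierstrassCurve ℤ} {x0 B G β : Qb}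

/-- The zero component in terms of the recentered coordinate. -/
theorem inZeroComponentAt_iff (h : Node A.valuation ((WQ W)⁄Qb) x0 B G β)
    (P : ((WQ W)⁄Qb).Point) : W.InZeroComponentAt A P ↔ InE0 A.valuation x0 P := by
  classical
  have hint := integralFor W A
  rcases eq_or_ne P 0 with rfl | hP
  · exact ⟨fun _ => Or.inl rfl, fun _ => Or.inl rfl⟩
  obtain ⟨hns, hPe⟩ := exists_some hP
  have he : ((WQ W)⁄Qb).Equation (xc P) (yc P) := hns.1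
  -- reformulation of the reduction
  have hred : ∀ (hx : xc P ∈ A) (hy : yc P ∈ A),
      ((W.map (Int.castRingHom (IsLocalRing.ResidueField A))).toAffine.Nonsingular
        (IsLocalRing.residue A ⟨xc P, hx⟩) (IsLocalRing.residue A ⟨yc P, hy⟩) ↔
        ¬ (A.valuation (fx ((WQ W)⁄Qb) (xc P) (yc P)) < 1 ∧
          A.valuation (fy ((WQ W)⁄Qb) (xc P) (yc P)) < 1)) := by
    intro hx hy
    rw [Affine.nonsingular_iff']
    obtain ⟨f1, hf1⟩ : ∃ f1 : A, f1 = 3 * ⟨xc P, hx⟩ ^ 2 + 2 * (W.a₂ : A) * ⟨xc P, hx⟩ +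
      (W.a₄ : A) - (W.a₁ : A) * ⟨yc P, hy⟩ := ⟨_, rfl⟩
    obtain ⟨f2, hf2⟩ : ∃ f2 : A, f2 = 2 * ⟨yc P, hy⟩ + (W.a₁ : A) * ⟨xc P, hx⟩ +
      (W.a₃ : A) := ⟨_, rfl⟩
    have e1 : (f1 : Qb) = fx ((WQ W)⁄Qb) (xc P) (yc P) := by
      rw [hf1, fx, wq_a₁, wq_a₂, wq_a₄]
      push_cast
      rfl
    have e2 : (f2 : Qb) = fy ((WQ W)⁄Qb) (xc P) (yc P) := by
      rw [hf2, fy, wq_a₁, wq_a₃]
      push_cast
      rfl
    have r1 : IsLocalRing.residue A f1 = 0 ↔ A.valuation (f1 : Qb) < 1 := by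
      rw [IsLocalRing.residue_eq_zero_iff, ValuationSubring.valuation_lt_one_iff]
    have r2 : IsLocalRing.residue A f2 = 0 ↔ A.valuation (f2 : Qb) < 1 := by
      rw [IsLocalRing.residue_eq_zero_iff, ValuationSubring.valuation_lt_one_iff]
    have heq : (W.map (Int.castRingHom (IsLocalRing.ResidueField A))).toAffine.Equation
        (IsLocalRing.residue A ⟨xc P, hx⟩) (IsLocalRing.residue A ⟨yc P, hy⟩) := by
      rw [Affine.equation_iff] at he ⊢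
      have h3 : (⟨yc P, hy⟩ ^ 2 + (W.a₁ : A) * ⟨xc P, hx⟩ * ⟨yc P, hy⟩ +
          (W.a₃ : A) * ⟨yc P, hy⟩ : A) = ⟨xc P, hx⟩ ^ 3 + (W.a₂ : A) * ⟨xc P, hx⟩ ^ 2 +
          (W.a₄ : A) * ⟨xc P, hx⟩ + (W.a₆ : A) := by
        apply Subtype.ext
        push_cast
        rw [wq_a₁, wq_a₂, wq_a₃, wq_a₄, wq_a₆] at he
        exact he
      have h4 := congrArg (IsLocalRing.residue A) h3
      simp only [map_add, map_mul, map_pow, map_intCast] at h4
      exact h4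
    have s1 : (W.map (Int.castRingHom (IsLocalRing.ResidueField A))).toAffine.a₁ *
        IsLocalRing.residue A ⟨yc P, hy⟩ - (3 * IsLocalRing.residue A ⟨xc P, hx⟩ ^ 2 +
        2 * (W.map (Int.castRingHom (IsLocalRing.ResidueField A))).toAffine.a₂ *
          IsLocalRing.residue A ⟨xc P, hx⟩ +
        (W.map (Int.castRingHom (IsLocalRing.ResidueField A))).toAffine.a₄) =
        -IsLocalRing.residue A f1 := by
      rw [hf1]
      simp only [map_add, map_sub, map_mul, map_pow, map_intCast, map_ofNat]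
      change ((W.a₁ : ℤ) : IsLocalRing.ResidueField A) * _ - (3 * _ ^ 2 +
        2 * ((W.a₂ : ℤ) : IsLocalRing.ResidueField A) * _ +
        ((W.a₄ : ℤ) : IsLocalRing.ResidueField A)) = _
      ring
    have s2 : 2 * IsLocalRing.residue A ⟨yc P, hy⟩ +
        (W.map (Int.castRingHom (IsLocalRing.ResidueField A))).toAffine.a₁ *
          IsLocalRing.residue A ⟨xc P, hx⟩ +
        (W.map (Int.castRingHom (IsLocalRing.ResidueField A))).toAffine.a₃ =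
        IsLocalRing.residue A f2 := by
      rw [hf2]
      simp only [map_add, map_mul, map_intCast, map_ofNat]
      rfl
    rw [s1, s2, ← e1, ← e2, ← r1, ← r2, not_and_or]
    simp only [neg_ne_zero, ne_eq]
    exact ⟨fun h' => h'.2, fun h' => ⟨heq, h'⟩⟩
  have hX : ∀ (hx : A.valuation (xc P) ≤ 1) (hy : A.valuation (yc P) ≤ 1),
      (¬ (A.valuation (fx ((WQ W)⁄Qb) (xc P) (yc P)) < 1 ∧
          A.valuation (fy ((WQ W)⁄Qb) (xc P) (yc P)) < 1)) ↔ 1 ≤ A.valuation (Xs x0 P) := by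
    intro hx hy
    rw [h.sing_iff hint he hx hy, not_lt, Xs]
  constructor
  · rintro (h0 | ⟨x, y, h', rfl, hcase⟩)
    · exact absurd h0 hP
    · right
      rcases hcase with hx | ⟨hx, hy, hn⟩
      · have hx1 : 1 < A.valuation x := by
          rw [← not_le, ValuationSubring.valuation_le_one_iff]
          exact hx
        have hxs : A.valuation (Xs x0 (Affine.Point.some x y h')) = A.valuation x := by
          rw [Xs, xc_some, Valuation.map_sub_eq_of_lt_left]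
          exact h.vx0.trans_lt hx1
        exact le_of_le_of_eq hx1.le hxs.symm
      · have hx1 := (ValuationSubring.valuation_le_one_iff A x).mpr hx
        have hy1 := (ValuationSubring.valuation_le_one_iff A y).mpr hy
        exact (hX hx1 hy1).mp ((hred hx hy).mp hn)
  · intro hE
    right
    refine ⟨xc P, yc P, hns, hPe, ?_⟩
    by_cases hx : xc P ∈ A
    · right
      have hx1 := (ValuationSubring.valuation_le_one_iff A (xc P)).mpr hx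
      have hy1 := v_y_le hint he hx1
      have hy := (ValuationSubring.valuation_le_one_iff A (yc P)).mp hy1
      exact ⟨hx, hy, (hred hx hy).mpr ((hX hx1 hy1).mpr (hE.resolve_left hP))⟩
    · exact Or.inl hx

end Dictionary

section Main

variable {p : ℕ} [hpF : Fact p.Prime] (W : WeierstrassCurve ℤ)

/-- The `j`-invariant. -/
noncomputable def jW : Qb := ((W.c₄ : ℤ) : Qb) ^ 3 / ((W.Δ : ℤ) : Qb)

theorem jW_eq : jW W = ((WQ W)⁄Qb).c₄ ^ 3 / ((WQ W)⁄Qb).Δ := by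
  rw [jW, wq_c₄, wq_Δ]

theorem jW_fixed (σ : Qb ≃ₐ[ℚ] Qb) : σ (jW W) = jW W := by
  rw [jW, map_div₀, map_pow, map_intCast, map_intCast]

variable {W}

theorem one_lt_v_jW (hΔ : W.Δ ≠ 0) {ℓ : ℕ} (hℓ : ℓ.Prime) (hℓΔ : (ℓ : ℤ) ∣ W.Δ)
    (hℓc : ¬ (ℓ : ℤ) ∣ W.c₄) {A : ValuationSubring Qb} (hA : A.LiesOverPrime ℓ) :
    1 < A.valuation (jW W) := by
  have h1 := v_int_eq_one hℓ hA hℓc
  have h2 := v_int_lt_one hA hℓΔ
  have h3 : ((W.Δ : ℤ) : Qb) ≠ 0 := by exact_mod_cast hΔ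
  rw [jW, map_div₀, map_pow, h1, one_pow, one_div]
  exact (one_lt_inv₀ (zero_lt_iff.mpr ((Valuation.ne_zero_iff _).mpr h3))).mpr h2

variable [Algebra Qb ℂ] {Φ : Polynomial (Polynomial Qb)} (hΦ : IsPhi Qb p Φ)

include hΦ in
/-- **Local analysis at a place of multiplicative reduction.** -/
theorem valuation_cases (hp3 : 3 ≤ p) (hΔ : W.Δ ≠ 0) {Q : ((WQ W)⁄Qb).Point} (hQ : Q ≠ 0)
    (hpQ : p • Q = 0) {ℓ : ℕ} (hℓ : ℓ.Prime) (hℓp : ℓ ≠ p) (hℓΔ : (ℓ : ℤ) ∣ W.Δ)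
    (hℓc : ¬ (ℓ : ℤ) ∣ W.c₄) {A : ValuationSubring Qb} (hA : A.LiesOverPrime ℓ) :
    (W.InZeroComponentAt A Q →
      A.valuation (jV ((WQ W)⁄Qb) Q p) = A.valuation (jW W) ^ p) ∧
    (¬ W.InZeroComponentAt A Q →
      A.valuation (jV ((WQ W)⁄Qb) Q p) ^ p = A.valuation (jW W)) := by
  have hp := hpF.out
  have hp2 : p ≠ 2 := by omega
  have hint := integralFor W A
  have hj := one_lt_v_jW hΔ hℓ hℓΔ hℓc hA
  have hΔQ : (WQ W).Δ ≠ 0 := by
    rw [WeierstrassCurve.map_Δ]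
    simpa using hΔ
  have hΔK : ((WQ W)⁄Qb).Δ ≠ 0 := by
    rw [wq_Δ]
    exact_mod_cast hΔ
  obtain ⟨x0, B, G, β, h⟩ := exists_node hint
    (by rw [wq_c₄]; exact v_int_eq_one hℓ hA hℓc)
    (by rw [wq_Δ]; exact v_int_lt_one hA hℓΔ) hΔK
  have hvp := v_nat_eq_one hℓ hA hp hℓp
  -- non-canonical points
  have hnc : ∀ P : ((WQ W)⁄Qb).Point, P ≠ 0 → p • P = 0 → ¬ InE0 A.valuation x0 P →
      A.valuation (jV ((WQ W)⁄Qb) P p) ^ 3 ≤ A.valuation (jW W) := by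
    intro P hP hpP hnot
    rw [jW_eq]
    exact h.v_jV_le hp hp2 hP hpP (not_InE0_imp h hp hP hpP hnot)
  have hbig : ∀ b : Qb, A.valuation b = A.valuation (jW W) ^ p →
      ¬ A.valuation b ^ 3 ≤ A.valuation (jW W) := by
    intro b hb hle
    rw [hb, ← pow_mul] at hle
    have h1 : A.valuation (jW W) < A.valuation (jW W) ^ (p * 3) := by
      conv_lhs => rw [← pow_one (A.valuation (jW W))]
      exact pow_lt_pow_right₀ hj (by omega)
    exact absurd (h1.trans_le hle) (lt_irrefl _)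
  have hs := hΦ.shape A (jW W) hj
  constructor
  · intro hin
    rw [inZeroComponentAt_iff h] at hin
    obtain ⟨b, hb0, hb⟩ := hs.exists_big hp.two_le hj
    have hbr : ev (((WQ W)⁄Qb).c₄ ^ 3 / ((WQ W)⁄Qb).Δ) b Φ = 0 := by
      rw [← jW_eq, ev_eq_eval hΦ]
      exact hb0
    obtain ⟨P, hP, hpP, rfl⟩ := (roots_iff hΦ (WQ W) hΔQ hp3 b).mp hbr
    have hPE : InE0 A.valuation x0 P := by
      by_contra hnot
      exact hbig _ hb (hnc P hP hpP hnot)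
    obtain ⟨n, hn⟩ := exists_nsmul_of_canonical h hint hp hp2 hvp hP hpP hpQ hPE hin
    rw [← hb, hn, jV_zsmul hp hP hpP]
    rw [← hn]
    exact hQ
  · intro hnot
    rw [inZeroComponentAt_iff h] at hnot
    have h1 : (Φ.map (Polynomial.evalRingHom (jW W))).eval (jV ((WQ W)⁄Qb) Q p) = 0 := by
      rw [← ev_eq_eval hΦ, jW_eq]
      exact (roots_iff hΦ (WQ W) hΔQ hp3 _).mpr ⟨Q, hQ, hpQ, rfl⟩
    rcases hs.root_cases hp.two_le hj h1 with h2 | h2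
    · exact absurd (hnc Q hQ hpQ hnot) (hbig _ h2)
    · exact h2

omit hpF [Algebra Qb ℂ] in
theorem jV_fixed (hp : p.Prime) {Q : ((WQ W)⁄Qb).Point} (hQ : Q ≠ 0) (hpQ : p • Q = 0)
    {σ : Qb ≃ₐ[ℚ] Qb} {k : ℤ} (hk : σ • Q = k • Q) :
    σ (jV ((WQ W)⁄Qb) Q p) = jV ((WQ W)⁄Qb) Q p := by
  have h1 : jV ((WQ W)⁄Qb) (Point.map (σ : Qb →ₐ[ℚ] Qb) Q) p = σ (jV ((WQ W)⁄Qb) Q p) :=
    jV_map (σ : Qb →ₐ[ℚ] Qb) (WQ W) Q p
  have h2 : (Point.map (σ : Qb →ₐ[ℚ] Qb) Q : ((WQ W)⁄Qb).Point) = k • Q := hk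
  rw [← h1, h2]
  apply jV_zsmul hp hQ hpQ
  intro h0
  rw [h0] at h2
  apply hQ
  apply Point.map_injective (σ : Qb →ₐ[ℚ] Qb)
  rw [h2, map_zero]

/-- **The rational point of `X_0(p)` attached to `(W, ⟨Q⟩)`.** -/
theorem exists_place_of_line' (hp3 : 3 ≤ p) (hΔ : W.Δ ≠ 0)
    (Q : ((W.map (Int.castRingHom ℚ))⁄(AlgebraicClosure ℚ)).Point) (hQ : Q ≠ 0)
    (hpQ : p • Q = 0) (hstab : ∀ σ : Qb ≃ₐ[ℚ] Qb, ∃ k : ℤ, σ • Q = k • Q)
    {ℓ₀ : ℕ} (hℓ₀ : ℓ₀.Prime) (h₀Δ : (ℓ₀ : ℤ) ∣ W.Δ) (h₀c : ¬ (ℓ₀ : ℤ) ∣ W.c₄) :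
    ∃ (x : Place Qb (modularFunctionFieldBar p)) (b : Qb),
      (∀ σ : Qb ≃ₐ[ℚ] Qb, arithmeticGalois (modularFunctionFieldFull p) σ • x = x) ∧
      (∀ σ : Qb ≃ₐ[ℚ] Qb, σ b = b) ∧
      Over x (jF Qb p) (jW W) ∧ Over x (jpF Qb p) b ∧
      ∀ ℓ : ℕ, ℓ.Prime → ℓ ≠ p → (ℓ : ℤ) ∣ W.Δ → ¬ (ℓ : ℤ) ∣ W.c₄ →
        ∀ A : ValuationSubring Qb, A.LiesOverPrime ℓ →
          1 < A.valuation (jW W) ∧
          (W.InZeroComponentAt A Q → A.valuation b = A.valuation (jW W) ^ p) ∧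
          (¬ W.InZeroComponentAt A Q → A.valuation b ^ p = A.valuation (jW W)) := by
  obtain ⟨Φ, hΦ⟩ := exists_isPhi Qb p
  have hΔQ : (WQ W).Δ ≠ 0 := by
    rw [WeierstrassCurve.map_Δ]
    simpa using hΔ
  obtain ⟨A₀, hA₀⟩ := Frob.exists_liesOverPrime Qb hℓ₀
  have hb : ∀ σ : Qb ≃ₐ[ℚ] Qb, σ (jV ((WQ W)⁄Qb) Q p) = jV ((WQ W)⁄Qb) Q p := fun σ => by
    obtain ⟨k, hk⟩ := hstab σ
    exact jV_fixed hpF.out hQ hpQ hk
  obtain ⟨x, hx1, hx2, hx3⟩ := exists_fixed_place hΦ (a := jW W) (b := jV ((WQ W)⁄Qb) Q p)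
    (by
      rw [jW_eq]
      exact (roots_iff hΦ (WQ W) hΔQ hp3 _).mpr ⟨Q, hQ, hpQ, rfl⟩)
    ⟨A₀, one_lt_v_jW hΔ hℓ₀ h₀Δ h₀c hA₀⟩ (jW_fixed W) hb
  refine ⟨x, jV ((WQ W)⁄Qb) Q p, hx3, hb, hx1, hx2, ?_⟩
  intro ℓ hℓ hℓp hℓΔ hℓc A hA
  have h1 := valuation_cases hΦ hp3 hΔ hQ hpQ hℓ hℓp hℓΔ hℓc hA
  exact ⟨one_lt_v_jW hΔ hℓ hℓΔ hℓc hA, h1.1, h1.2⟩

end Main

/-- **The rational point of `X_0(p)` attached to `(W, ⟨Q⟩)`**, for `Q` of prime order `p ≥ 3`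
generating a Galois stable line, `W` having a place of multiplicative reduction: there is a
Galois-fixed place `x` of the function field of `X_0(p)` with `j(x) = j(W)`, and the value `b` of
`j_p` at `x` satisfies, at every place `A` of multiplicative reduction prime to `p`,
`|b| = |j|^p` if `Q` is in the zero component and `|b|^p = |j|` otherwise. -/
theorem exists_place_of_line {p : ℕ} (hp : p.Prime) (hp3 : 3 ≤ p) {W : WeierstrassCurve ℤ}
    (hΔ : W.Δ ≠ 0)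
    (Q : ((W.map (Int.castRingHom ℚ))⁄(AlgebraicClosure ℚ)).Point) (hQ : Q ≠ 0)
    (hpQ : p • Q = 0)
    (hstab : ∀ σ : AlgebraicClosure ℚ ≃ₐ[ℚ] AlgebraicClosure ℚ, ∃ k : ℤ, σ • Q = k • Q)
    {ℓ₀ : ℕ} (hℓ₀ : ℓ₀.Prime) (h₀Δ : (ℓ₀ : ℤ) ∣ W.Δ) (h₀c : ¬ (ℓ₀ : ℤ) ∣ W.c₄) :
    ∃ (x : Place (AlgebraicClosure ℚ) (modularFunctionFieldBar p)) (b : AlgebraicClosure ℚ),
      (∀ σ : AlgebraicClosure ℚ ≃ₐ[ℚ] AlgebraicClosure ℚ,
        arithmeticGalois (modularFunctionFieldFull p) σ • x = x) ∧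
      (∀ σ : AlgebraicClosure ℚ ≃ₐ[ℚ] AlgebraicClosure ℚ, σ b = b) ∧
      (∀ f : modularFunctionFieldBar p,
        (f : LaurentSeries (AlgebraicClosure ℚ)) = jqModC (AlgebraicClosure ℚ) →
        0 < x.ord (f - algebraMap (AlgebraicClosure ℚ) (modularFunctionFieldBar p) (jW W))) ∧
      (∀ f : modularFunctionFieldBar p,
        (∀ _ : NeZero p, (f : LaurentSeries (AlgebraicClosure ℚ)) =
          qExpand (AlgebraicClosure ℚ) p (jqModC (AlgebraicClosure ℚ))) →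
        0 < x.ord (f - algebraMap (AlgebraicClosure ℚ) (modularFunctionFieldBar p) b)) ∧
      ∀ ℓ : ℕ, ℓ.Prime → ℓ ≠ p → (ℓ : ℤ) ∣ W.Δ → ¬ (ℓ : ℤ) ∣ W.c₄ →
        ∀ A : ValuationSubring (AlgebraicClosure ℚ), A.LiesOverPrime ℓ →
          1 < A.valuation (jW W) ∧
          (W.InZeroComponentAt A Q → A.valuation b = A.valuation (jW W) ^ p) ∧
          (¬ W.InZeroComponentAt A Q → A.valuation b ^ p = A.valuation (jW W)) := by
  haveI : Fact p.Prime := ⟨hp⟩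
  haveI : Algebra.IsAlgebraic ℚ (AlgebraicClosure ℚ) := AlgebraicClosure.isAlgebraic ℚ
  letI : Algebra (AlgebraicClosure ℚ) ℂ :=
    (IsAlgClosed.lift (R := ℚ) (S := AlgebraicClosure ℚ) (M := ℂ)).toRingHom.toAlgebra
  obtain ⟨x, b, h1, h2, h3, h4, h5⟩ := exists_place_of_line' hp3 hΔ Q hQ hpQ hstab hℓ₀ h₀Δ h₀c
  refine ⟨x, b, h1, h2, ?_, ?_, h5⟩
  · intro f hf
    have hf' : f = jF (AlgebraicClosure ℚ) p := Subtype.ext hf
    subst hf'
    refine (over_iff.mp h3).resolve_left ?_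
    intro h0
    apply transcendental_jF (AlgebraicClosure ℚ) p
    refine ⟨Polynomial.X - Polynomial.C (jW W), Polynomial.X_sub_C_ne_zero _, ?_⟩
    simpa using h0
  · intro f hf
    have hf' : f = jpF (AlgebraicClosure ℚ) p := Subtype.ext (hf _)
    subst hf'
    refine (over_iff.mp h4).resolve_left ?_
    intro h0
    apply transcendental_jpF (AlgebraicClosure ℚ) p
    refine ⟨Polynomial.X - Polynomial.C b, Polynomial.X_sub_C_ne_zero _, ?_⟩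
    simpa using h0

end Fermat.Agent.Pts
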