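import Fermat.Agent.Pts.NonCanon
import Mathlib.RingTheory.RootsOfUnity.AlgebraicallyClosed
import Mathlib.RingTheory.Polynomial.Cyclotomic.Basic

set_option autoImplicit false
set_option linter.style.haveILetI false
set_option linter.unusedSectionVars false

/-!
# Uniqueness of the canonical subgroup at a node
-/

namespace Fermat.Agent.Pts

open WeierstrassCurve WeierstrassCurve.Affine Fermat.Agent.DivPoly Fermat.Agent.Wp
open Fermat.Agent.EC

variable {F : Type*} [Field F] {Γ : Type*} [LinearOrderedCommGroupWithZero Γ]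

section Cong

variable (v : Valuation F Γ)

/-- Congruence modulo the maximal ideal. -/
def Cg (a b : F) : Prop := v (a - b) < 1

variable {v}

theorem Cg.refl (a : F) : Cg v a a := by rw [Cg, sub_self, map_zero]; exact zero_lt_one

theorem Cg.symm {a b : F} (h : Cg v a b) : Cg v b a := by
  rw [Cg, Valuation.map_sub_swap]; exact h

theorem Cg.trans {a b c : F} (h : Cg v a b) (h' : Cg v b c) : Cg v a c := by
  rw [Cg] at *
  have : a - c = (a - b) + (b - c) := by ring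
  rw [this]
  exact Valuation.map_add_lt _ h h'

theorem Cg.add {a b c d : F} (h : Cg v a b) (h' : Cg v c d) : Cg v (a + c) (b + d) := by
  rw [Cg] at *
  have : a + c - (b + d) = (a - b) + (c - d) := by ring
  rw [this]
  exact Valuation.map_add_lt _ h h'

theorem Cg.neg {a b : F} (h : Cg v a b) : Cg v (-a) (-b) := by
  rw [Cg] at *
  have : -a - -b = -(a - b) := by ring
  rwa [this, Valuation.map_neg]

theorem Cg.sub {a b c d : F} (h : Cg v a b) (h' : Cg v c d) : Cg v (a - c) (b - d) := by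
  rw [sub_eq_add_neg, sub_eq_add_neg]
  exact h.add h'.neg

theorem Cg.mul {a b c d : F} (h : Cg v a b) (h' : Cg v c d) (hc : v c ≤ 1) (hb : v b ≤ 1) :
    Cg v (a * c) (b * d) := by
  rw [Cg] at *
  have : a * c - b * d = (a - b) * c + b * (c - d) := by ring
  rw [this]
  exact Valuation.map_add_lt _ (v_mul_lt_one' v h hc) (v_mul_lt_one v hb h')

theorem Cg.le_one {a b : F} (h : Cg v a b) (hb : v b ≤ 1) : v a ≤ 1 := by
  have : a = (a - b) + b := by ring
  rw [this]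
  exact Valuation.map_add_le _ (le_of_lt h) hb

theorem Cg.pow {a b : F} (h : Cg v a b) (hb : v b ≤ 1) (n : ℕ) : Cg v (a ^ n) (b ^ n) := by
  induction n with
  | zero => simpa using Cg.refl 1
  | succ n ih =>
    rw [pow_succ, pow_succ]
    exact ih.mul h (h.le_one hb) (v_pow_le_one v hb n)

end Cong

namespace Node

variable {v : Valuation F Γ} {W : Affine F} {x0 B G β : F} (h : Node v W x0 B G β)
  [DecidableEq F]

include h

theorem vG_lt : v G < 1 := h.vG_le.trans_lt h.vβ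

/-- Duplication preserves nonsingular reduction. -/
theorem two_E0 {P : W.Point} (hP : P ≠ 0) (h2P : P + P ≠ 0) (h1 : 1 ≤ v (Xs x0 P)) :
    1 ≤ v (Xs x0 (P + P)) := by
  by_contra hcon
  push Not at hcon
  have hD := h.xs_two hP h2P
  generalize Xs x0 P = X at *
  generalize Xs x0 (P + P) = Y at *
  obtain ⟨a, ha⟩ : ∃ a, a = v X := ⟨_, rfl⟩
  rw [← ha] at h1
  have ha0 : 0 < a := zero_lt_one.trans_le h1
  have r1 : v (X ^ 4 - 2 * G * X - β) = a ^ 4 := by
    have e : X ^ 4 - 2 * G * X - β = X ^ 4 - (2 * (G * X) + β) := by ring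
    rw [e, Valuation.map_sub_eq_of_lt_left, map_pow, ha]
    rw [map_pow, ← ha]
    refine Valuation.map_add_lt _ ?_ (h.vβ.trans_le (one_le_pow₀ h1))
    refine (vnat_mul_le h 2 _).trans_lt ?_
    rw [map_mul, ← ha]
    calc v G * a < 1 * a := mul_lt_mul_of_pos_right h.vG_lt ha0
      _ = a := one_mul _
      _ ≤ a ^ 4 := le_self_pow₀ h1 (by norm_num)
  have l1 : v (4 * X ^ 3 + B * X ^ 2 + G) ≤ a ^ 3 := by
    refine Valuation.map_add_le _ (Valuation.map_add_le _ ?_ ?_)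
      (h.vG_lt.le.trans (one_le_pow₀ h1))
    · refine (vnat_mul_le h 4 _).trans ?_
      rw [map_pow, ha]
    · rw [map_mul, h.vB, one_mul, map_pow, ← ha]
      exact pow_le_pow_right₀ h1 (by norm_num)
  have l2 : v (Y * (4 * X ^ 3 + B * X ^ 2 + G)) < a ^ 4 := by
    rw [map_mul]
    calc v Y * v (4 * X ^ 3 + B * X ^ 2 + G) ≤ v Y * a ^ 3 := by gcongr
      _ < 1 * a ^ 3 := mul_lt_mul_of_pos_right hcon (pow_pos ha0 3)
      _ = a ^ 3 := one_mul _
      _ ≤ a ^ 4 := pow_le_pow_right₀ h1 (by norm_num)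
  rw [hD, r1] at l2
  exact lt_irrefl _ l2

/-- Addition preserves nonsingular reduction. -/
theorem add_E0 {P Q : W.Point} (hP : P ≠ 0) (hQ : Q ≠ 0) (hPQ : Xs x0 P ≠ Xs x0 Q)
    (h1 : 1 ≤ v (Xs x0 P)) (h2 : 1 ≤ v (Xs x0 Q)) : 1 ≤ v (Xs x0 (P + Q)) := by
  by_contra hcon
  push Not at hcon
  have hS := h.xs_add hP hQ hPQ
  have hR := h.xs_mul hP hQ hPQ
  generalize Xs x0 (P + Q) = Y at *
  generalize Xs x0 (P - Q) = Y' at *
  generalize Xs x0 P = X₁ at *
  generalize Xs x0 Q = X₂ at *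
  obtain ⟨a, ha⟩ : ∃ a, a = v X₁ := ⟨_, rfl⟩
  obtain ⟨b, hb⟩ : ∃ b, b = v X₂ := ⟨_, rfl⟩
  rw [← ha] at h1
  rw [← hb] at h2
  obtain ⟨μ, hμ⟩ : ∃ μ, μ = max a b := ⟨_, rfl⟩
  have haμ : a ≤ μ := by rw [hμ]; exact le_max_left _ _
  have hbμ : b ≤ μ := by rw [hμ]; exact le_max_right _ _
  have h1μ : 1 ≤ μ := h1.trans haμ
  have hμab : μ ≤ a * b := by
    rw [hμ]
    exact max_le (le_mul_of_one_le_right' h2) (le_mul_of_one_le_left' h1)
  have h1ab : 1 ≤ a * b := h1μ.trans hμab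
  have hab0 : 0 < a * b := zero_lt_one.trans_le h1ab
  have key : (X₁ - X₂) ^ 2 * Y ^ 2 - (2 * X₁ * X₂ * (X₁ + X₂) + B * X₁ * X₂ + G) * Y +
      ((X₁ * X₂) ^ 2 - G * (X₁ + X₂) - β) = 0 := by
    rw [← hS, ← hR]; ring
  have vsum : v (X₁ + X₂) ≤ μ := by
    exact Valuation.map_add_le _ (by rw [← ha]; exact haμ) (by rw [← hb]; exact hbμ)
  have vN : v ((X₁ * X₂) ^ 2 - G * (X₁ + X₂) - β) = (a * b) ^ 2 := by
    have e : (X₁ * X₂) ^ 2 - G * (X₁ + X₂) - β = (X₁ * X₂) ^ 2 - (G * (X₁ + X₂) + β) := by ring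
    have e2 : v ((X₁ * X₂) ^ 2) = (a * b) ^ 2 := by rw [map_pow, map_mul, ha, hb]
    rw [e, Valuation.map_sub_eq_of_lt_left, e2]
    rw [e2]
    refine Valuation.map_add_lt _ ?_ (h.vβ.trans_le (one_le_pow₀ h1ab))
    rw [map_mul]
    calc v G * v (X₁ + X₂) ≤ v G * μ := by gcongr
      _ < 1 * μ := mul_lt_mul_of_pos_right h.vG_lt (zero_lt_one.trans_le h1μ)
      _ = μ := one_mul _
      _ ≤ a * b := hμab
      _ ≤ (a * b) ^ 2 := le_self_pow₀ h1ab (by norm_num)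
  have vs : v (2 * X₁ * X₂ * (X₁ + X₂) + B * X₁ * X₂ + G) ≤ (a * b) ^ 2 := by
    have e : 2 * X₁ * X₂ * (X₁ + X₂) + B * X₁ * X₂ + G =
      X₁ * X₂ * (2 * (X₁ + X₂) + B) + G := by ring
    rw [e]
    refine Valuation.map_add_le _ ?_ (h.vG_lt.le.trans (one_le_pow₀ h1ab))
    rw [map_mul, map_mul, ← ha, ← hb, sq]
    refine mul_le_mul' le_rfl ?_
    refine Valuation.map_add_le _ ?_ (by rw [h.vB]; exact h1ab)
    exact ((vnat_mul_le h 2 _).trans vsum).trans hμab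
  have t1 : v ((X₁ - X₂) ^ 2 * Y ^ 2) < (a * b) ^ 2 := by
    rw [map_mul, map_pow, map_pow]
    have e1 : v (X₁ - X₂) ≤ a * b :=
      ((Valuation.map_sub _ _ _).trans (max_le (by rw [← ha]; exact haμ)
        (by rw [← hb]; exact hbμ))).trans hμab
    calc v (X₁ - X₂) ^ 2 * v Y ^ 2 ≤ (a * b) ^ 2 * v Y ^ 2 := by gcongr
      _ < (a * b) ^ 2 * 1 := mul_lt_mul_of_pos_left (pow_lt_one₀ zero_le hcon two_ne_zero)
          (pow_pos hab0 2)
      _ = (a * b) ^ 2 := mul_one _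
  have t2 : v ((2 * X₁ * X₂ * (X₁ + X₂) + B * X₁ * X₂ + G) * Y) < (a * b) ^ 2 := by
    rw [map_mul]
    calc _ ≤ (a * b) ^ 2 * v Y := by gcongr
      _ < (a * b) ^ 2 * 1 := mul_lt_mul_of_pos_left hcon (pow_pos hab0 2)
      _ = (a * b) ^ 2 := mul_one _
  have t3 : (X₁ * X₂) ^ 2 - G * (X₁ + X₂) - β =
      (2 * X₁ * X₂ * (X₁ + X₂) + B * X₁ * X₂ + G) * Y - (X₁ - X₂) ^ 2 * Y ^ 2 := by
    linear_combination key
  rw [t3] at vN
  have t4 := (Valuation.map_sub v ((2 * X₁ * X₂ * (X₁ + X₂) + B * X₁ * X₂ + G) * Y)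
    ((X₁ - X₂) ^ 2 * Y ^ 2)).trans_lt (max_lt t2 t1)
  rw [vN] at t4
  exact lt_irrefl _ t4

end Node

section E0

/-- The points with nonsingular reduction, in the recentered coordinate. -/
def InE0 (v : Valuation F Γ) {W : Affine F} (x0 : F) (R : W.Point) : Prop :=
  R = 0 ∨ 1 ≤ v (Xs x0 R)

variable {v : Valuation F Γ} {W : Affine F} {x0 B G β : F} [DecidableEq F]

theorem InE0.zero : InE0 v x0 (0 : W.Point) := Or.inl rfl

theorem InE0.neg {R : W.Point} (hR : InE0 v x0 R) : InE0 v x0 (-R) := by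
  rcases hR with h | h
  · left; rw [h, neg_zero]
  · right; rwa [Xs_neg]

theorem InE0.add (h : Node v W x0 B G β) {P Q : W.Point} (hP : InE0 v x0 P)
    (hQ : InE0 v x0 Q) : InE0 v x0 (P + Q) := by
  by_cases hP0 : P = 0
  · rwa [hP0, zero_add]
  by_cases hQ0 : Q = 0
  · rwa [hQ0, add_zero]
  by_cases hPQ : P + Q = 0
  · exact Or.inl hPQ
  right
  by_cases hX : Xs x0 P = Xs x0 Q
  · rw [Xs, Xs, sub_left_inj] at hX
    rcases eq_or_eq_neg hP0 hQ0 hX with h' | h'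
    · subst h'
      exact h.two_E0 hP0 hPQ (hP.resolve_left hP0)
    · exact absurd (by rw [h', neg_add_cancel]) hPQ
  · exact h.add_E0 hP0 hQ0 hX (hP.resolve_left hP0) (hQ.resolve_left hQ0)

theorem InE0.nsmul (h : Node v W x0 B G β) {P : W.Point} (hP : InE0 v x0 P) (n : ℕ) :
    InE0 v x0 (n • P) := by
  induction n with
  | zero => rw [zero_nsmul]; exact InE0.zero
  | succ n ih => rw [succ_nsmul]; exact ih.add h hP

/-- A subgroup of prime order is canonical or not. -/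
theorem not_InE0_imp (h : Node v W x0 B G β) {p : ℕ} (hp : p.Prime) {P : W.Point} (hP : P ≠ 0)
    (hpP : p • P = 0) (hnot : ¬ InE0 v x0 P) (n : ℕ) (hn : n • P ≠ 0) :
    v (Xs x0 (n • P)) < 1 := by
  by_contra hcon
  push Not at hcon
  apply hnot
  have h1 : InE0 v x0 (n • P) := Or.inr hcon
  have h2 : ¬ p ∣ n := by
    rwa [ne_eq, nsmul_eq_zero_iff_dvd hp hP hpP] at hn
  have hcop : Nat.Coprime n p := ((Nat.Prime.coprime_iff_not_dvd hp).mpr h2).symm
  obtain ⟨m, -, hm⟩ := Nat.exists_mul_mod_eq_one_of_coprime hcop hp.one_lt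
  have h3 := h1.nsmul h m
  rw [← mul_nsmul, nsmul_mod hpP, hm, one_nsmul] at h3
  exact h3

/-- The inverse coordinate. -/
noncomputable def zc (x0 : F) (R : W.Point) : F := by
  classical exact if R = 0 then 0 else (Xs x0 R)⁻¹

@[simp] theorem zc_zero : zc x0 (0 : W.Point) = 0 := by simp [zc]

theorem zc_of_ne {R : W.Point} (hR : R ≠ 0) : zc x0 R = (Xs x0 R)⁻¹ := by simp [zc, hR]

@[simp] theorem zc_neg (R : W.Point) : zc x0 (-R) = zc x0 R := by
  by_cases hR : R = 0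
  · rw [hR, neg_zero]
  · rw [zc_of_ne hR, zc_of_ne (neg_ne_zero.mpr hR), Xs_neg]

theorem InE0.zc_le {R : W.Point} (hR : InE0 v x0 R) : v (zc x0 R) ≤ 1 := by
  by_cases h : R = 0
  · rw [h, zc_zero, map_zero]
    exact zero_le_one
  · rw [zc_of_ne h, map_inv₀]
    exact inv_le_one_of_one_le₀ (hR.resolve_left h)

theorem InE0.Xs_ne {R : W.Point} (hR : InE0 v x0 R) (h : R ≠ 0) : Xs x0 R ≠ 0 := by
  intro h0
  have := hR.resolve_left h
  rw [h0, map_zero] at this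
  exact absurd this (not_le.mpr zero_lt_one)

/-- The product and sum relations modulo the maximal ideal. -/
theorem zc_rel (h : Node v W x0 B G β) {P Q : W.Point} (hP : InE0 v x0 P)
    (hQ : InE0 v x0 Q) (h2 : P ≠ 0 → P + P ≠ 0) :
    Cg v (zc x0 (P + Q) * zc x0 (P - Q)) ((zc x0 P - zc x0 Q) ^ 2) ∧
    Cg v (zc x0 (P + Q) + zc x0 (P - Q))
      (2 * (zc x0 P + zc x0 Q) + B * zc x0 P * zc x0 Q) := by
  by_cases hP0 : P = 0
  · rw [hP0, zero_add, zero_sub, zc_neg, zc_zero]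
    constructor
    · have : (0 - zc x0 Q) ^ 2 = zc x0 Q * zc x0 Q := by ring
      rw [this]
      exact Cg.refl _
    · have : 2 * (0 + zc x0 Q) + B * 0 * zc x0 Q = zc x0 Q + zc x0 Q := by ring
      rw [this]
      exact Cg.refl _
  by_cases hQ0 : Q = 0
  · rw [hQ0, add_zero, sub_zero, zc_zero]
    constructor
    · have : (zc x0 P - 0) ^ 2 = zc x0 P * zc x0 P := by ring
      rw [this]
      exact Cg.refl _
    · have : 2 * (zc x0 P + 0) + B * zc x0 P * 0 = zc x0 P + zc x0 P := by ring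
      rw [this]
      exact Cg.refl _
  have vz1 := hP.zc_le
  have vz2 := hQ.zc_le
  -- the duplication case
  have hdup : Cg v (zc x0 (P + P)) (4 * zc x0 P + B * zc x0 P ^ 2) := by
    have hPP := (hP.add h hP)
    have hD := h.xs_two hP0 (h2 hP0)
    have hX := hP.Xs_ne hP0
    have hY := hPP.Xs_ne (h2 hP0)
    have vzz := hPP.zc_le
    rw [zc_of_ne (h2 hP0)] at *
    rw [zc_of_ne hP0] at *
    have e : (Xs x0 (P + P))⁻¹ - (4 * (Xs x0 P)⁻¹ + B * (Xs x0 P)⁻¹ ^ 2) =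
      G * (Xs x0 P)⁻¹ ^ 4 + (Xs x0 (P + P))⁻¹ * (2 * (G * (Xs x0 P)⁻¹ ^ 3) +
        β * (Xs x0 P)⁻¹ ^ 4) := by
      field_simp
      linear_combination -hD
    rw [Cg, e]
    refine Valuation.map_add_lt _ (v_mul_lt_one' v h.vG_lt (v_pow_le_one v vz1 4))
      (v_mul_lt_one v vzz (Valuation.map_add_lt _ ?_
        (v_mul_lt_one' v h.vβ (v_pow_le_one v vz1 4))))
    exact v_mul_lt_one v (v_ofNat_le_one v 2) (v_mul_lt_one' v h.vG_lt (v_pow_le_one v vz1 3))
  by_cases hX : Xs x0 P = Xs x0 Q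
  · rw [Xs, Xs, sub_left_inj] at hX
    rcases eq_or_eq_neg hP0 hQ0 hX with h' | h'
    · subst h'
      rw [sub_self, zc_zero, mul_zero, add_zero]
      constructor
      · rw [sub_self, zero_pow two_ne_zero]
        exact Cg.refl _
      · have : 2 * (zc x0 P + zc x0 P) + B * zc x0 P * zc x0 P =
          4 * zc x0 P + B * zc x0 P ^ 2 := by ring
        rw [this]
        exact hdup
    · have hQ' : Q = -P := by rw [h', neg_neg]
      subst hQ'
      rw [add_neg_cancel, zc_zero, zero_mul, zero_add, zc_neg, sub_neg_eq_add]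
      constructor
      · rw [sub_self, zero_pow two_ne_zero]
        exact Cg.refl _
      · have : 2 * (zc x0 P + zc x0 P) + B * zc x0 P * zc x0 P =
          4 * zc x0 P + B * zc x0 P ^ 2 := by ring
        rw [this]
        exact hdup
  · have hadd : P + Q ≠ 0 := by
      intro h'
      apply hX
      rw [eq_neg_of_add_eq_zero_left h', Xs_neg]
    have hsub : P - Q ≠ 0 := by
      intro h'
      apply hX
      rw [sub_eq_zero.mp h']
    have hA := hP.add h hQ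
    have hS : InE0 v x0 (P - Q) := by
      rw [sub_eq_add_neg]
      exact hP.add h hQ.neg
    have hSum := h.xs_add hP0 hQ0 hX
    have hMul := h.xs_mul hP0 hQ0 hX
    have vza := hA.zc_le
    have vzs := hS.zc_le
    have n1 := hP.Xs_ne hP0
    have n2 := hQ.Xs_ne hQ0
    have n3 := hA.Xs_ne hadd
    have n4 := hS.Xs_ne hsub
    rw [zc_of_ne hadd] at *
    rw [zc_of_ne hsub] at *
    rw [zc_of_ne hP0] at *
    rw [zc_of_ne hQ0] at *
    generalize Xs x0 (P + Q) = Y₁ at *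
    generalize Xs x0 (P - Q) = Y₂ at *
    generalize Xs x0 P = X₁ at *
    generalize Xs x0 Q = X₂ at *
    have vD : v (G * (X₁⁻¹ * X₂⁻¹ * (X₁⁻¹ + X₂⁻¹)) + β * (X₁⁻¹ ^ 2 * X₂⁻¹ ^ 2)) < 1 := by
      refine Valuation.map_add_lt _ (v_mul_lt_one' v h.vG_lt ?_) (v_mul_lt_one' v h.vβ ?_)
      · exact v_mul_le_one v (v_mul_le_one v vz1 vz2) (v_add_le_one v vz1 vz2)
      · exact v_mul_le_one v (v_pow_le_one v vz1 2) (v_pow_le_one v vz2 2)
    constructor
    · have e : Y₁⁻¹ * Y₂⁻¹ - (X₁⁻¹ - X₂⁻¹) ^ 2 = (Y₁⁻¹ * Y₂⁻¹) *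
        (G * (X₁⁻¹ * X₂⁻¹ * (X₁⁻¹ + X₂⁻¹)) + β * (X₁⁻¹ ^ 2 * X₂⁻¹ ^ 2)) := by
        field_simp
        linear_combination -hMul
      rw [Cg, e]
      exact v_mul_lt_one v (v_mul_le_one v vza vzs) vD
    · have e : Y₁⁻¹ + Y₂⁻¹ - (2 * (X₁⁻¹ + X₂⁻¹) + B * X₁⁻¹ * X₂⁻¹) = (Y₁⁻¹ + Y₂⁻¹) *
        (G * (X₁⁻¹ * X₂⁻¹ * (X₁⁻¹ + X₂⁻¹)) + β * (X₁⁻¹ ^ 2 * X₂⁻¹ ^ 2)) +
        G * (X₁⁻¹ ^ 2 * X₂⁻¹ ^ 2) := by
        field_simp
        linear_combination (Y₁ * Y₂) * hSum - (Y₁ + Y₂) * hMul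
      rw [Cg, e]
      exact Valuation.map_add_lt _ (v_mul_lt_one v (v_add_le_one v vza vzs) vD)
        (v_mul_lt_one' v h.vG_lt (v_mul_le_one v (v_pow_le_one v vz1 2) (v_pow_le_one v vz2 2)))

end E0

end Fermat.Agent.Pts
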