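import Fermat.Agent.Pts.Canon

set_option autoImplicit false
set_option linter.style.haveILetI false
set_option linter.unusedSectionVars false

/-!
# Uniqueness of the canonical subgroup at a node (continued)
-/

namespace Fermat.Agent.Pts

open WeierstrassCurve WeierstrassCurve.Affine Fermat.Agent.DivPoly Fermat.Agent.Wp
open Fermat.Agent.EC

variable {F : Type*} [Field F] {Γ : Type*} [LinearOrderedCommGroupWithZero Γ]
variable {v : Valuation F Γ}

section Units

theorem v_root_le {u c : F} (hc : v c ≤ 1) (hu : u ^ 2 - c * u + 1 = 0) : v u ≤ 1 := by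
  by_contra hcon
  push Not at hcon
  have h1 : u ^ 2 = c * u - 1 := by linear_combination hu
  have h2 : v (u ^ 2) ≤ v u := by
    rw [h1]
    refine (Valuation.map_sub _ _ _).trans (max_le ?_ ?_)
    · rw [map_mul]
      calc v c * v u ≤ 1 * v u := by gcongr
        _ = v u := one_mul _
    · rw [map_one]
      exact hcon.le
  rw [map_pow, sq] at h2
  have h3 : v u * 1 < v u * v u := mul_lt_mul_of_pos_left hcon (zero_lt_one.trans hcon)
  rw [mul_one] at h3
  exact absurd (h3.trans_le h2) (lt_irrefl _)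

theorem v_eq_one_of_pow {z : F} {n : ℕ} (hn : n ≠ 0) (hz : z ^ n = 1) : v z = 1 := by
  have h1 := congrArg v hz
  rw [map_pow, map_one] at h1
  exact (pow_eq_one_iff_of_nonneg zero_le hn).mp h1

theorem ne_zero_of_v {a : F} (ha : v a = 1) : a ≠ 0 := by
  rintro rfl
  rw [map_zero] at ha
  exact zero_ne_one ha

theorem cg_inv {a b : F} (h : Cg v a b) (ha : v a = 1) (hb : v b = 1) : Cg v a⁻¹ b⁻¹ := by
  have ha0 := ne_zero_of_v ha
  have hb0 := ne_zero_of_v hb
  have e : a⁻¹ - b⁻¹ = (b - a) * (a⁻¹ * b⁻¹) := by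
    field_simp
  rw [Cg, e]
  refine v_mul_lt_one' v h.symm ?_
  rw [map_mul, map_inv₀, map_inv₀, ha, hb]
  simp

theorem exists_root_cg [IsAlgClosed F] [CharZero F] {u : F} {p : ℕ} (hp : 0 < p)
    (h : v (u ^ p - 1) < 1) : ∃ ξ : F, ξ ^ p = 1 ∧ Cg v u ξ := by
  haveI : NeZero p := ⟨hp.ne'⟩
  obtain ⟨ζ, hζ⟩ := HasEnoughRootsOfUnity.exists_primitiveRoot F p
  have h1 := congrArg (Polynomial.eval u) (Polynomial.X_pow_sub_one_eq_prod hp hζ)
  rw [Polynomial.eval_prod] at h1
  simp only [Polynomial.eval_sub, Polynomial.eval_pow, Polynomial.eval_X, Polynomial.eval_one,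
    Polynomial.eval_C] at h1
  rw [h1, map_prod] at h
  by_contra hcon
  push Not at hcon
  have h2 : 1 ≤ ∏ x ∈ Polynomial.nthRootsFinset p (1 : F), v (u - x) := by
    refine Finset.one_le_prod' fun x hx => ?_
    rw [Polynomial.mem_nthRootsFinset hp] at hx
    have := hcon x hx
    rw [Cg, not_lt] at this
    exact this
  exact absurd h (not_lt.mpr h2)

end Units

variable {W : Affine F} {x0 B G β : F} [DecidableEq F]

/-- Points of order prime to the residue characteristic do not reduce to the origin. -/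
theorem eq_zero_of_zc (h : Node v W x0 B G β) (hint : IntegralFor v W) {p : ℕ}
    (hvp : v (p : F) = 1) {R : W.Point} (hRE : InE0 v x0 R) (hpR : p • R = 0)
    (hz : v (zc x0 R) < 1) : R = 0 := by
  by_contra hR
  rw [zc_of_ne hR, map_inv₀] at hz
  have h1 : 1 < v (Xs x0 R) := by
    by_contra hcon
    push Not at hcon
    have h2 : v (Xs x0 R) ≠ 0 := (Valuation.ne_zero_iff _).mpr (hRE.Xs_ne hR)
    have h3 := (one_le_inv₀ (zero_lt_iff.mpr h2)).mpr hcon
    exact absurd hz (not_lt.mpr h3)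
  have h2 : 1 < v (xc R) := by
    have e : xc R = Xs x0 R + x0 := by rw [Xs]; ring
    rw [e, Valuation.map_add_eq_of_lt_left]
    · exact h1
    · exact h.vx0.trans_lt h1
  obtain ⟨hns, hR'⟩ := exists_some hR
  have h3 : E1 v R := by
    rw [hR', E1_some]
    exact h2
  exact hR (h3.eq_zero_of_nsmul_eq_zero hint hvp hpR)

variable [IsAlgClosed F] [CharZero F]

/-- The character of a canonical torsion point. -/
theorem exists_character (h : Node v W x0 B G β) {p : ℕ} (hp : p.Prime) (hp2 : p ≠ 2)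
    {R : W.Point} (hR : InE0 v x0 R) (hpR : p • R = 0) :
    ∃ ξ : F, ξ ^ p = 1 ∧ ∀ n : ℕ, Cg v (2 + B * zc x0 (n • R)) (ξ ^ n + ξ⁻¹ ^ n) := by
  by_cases hR0 : R = 0
  · refine ⟨1, one_pow _, fun n => ?_⟩
    rw [hR0, nsmul_zero, zc_zero, mul_zero, add_zero, inv_one, one_pow]
    have : (2 : F) = 1 + 1 := by norm_num
    rw [this]
    exact Cg.refl _
  have hvz := hR.zc_le
  have hvc : v (2 + B * zc x0 R) ≤ 1 :=
    v_add_le_one v (v_ofNat_le_one v 2) (v_mul_le_one v h.vB.le hvz)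
  obtain ⟨u, hu⟩ : ∃ u : F, u ^ 2 - (2 + B * zc x0 R) * u + 1 = 0 := by
    obtain ⟨u, hu⟩ := IsAlgClosed.exists_root
      (Polynomial.X ^ 2 - Polynomial.C (2 + B * zc x0 R) * Polynomial.X + 1 : Polynomial F) (by
        have : (Polynomial.X ^ 2 - Polynomial.C (2 + B * zc x0 R) * Polynomial.X + 1 :
          Polynomial F) = Polynomial.C 1 * Polynomial.X ^ 2 +
            Polynomial.C (-(2 + B * zc x0 R)) * Polynomial.X + Polynomial.C 1 := by
          simp only [map_one, map_neg]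
          ring
        rw [this, Polynomial.degree_quadratic one_ne_zero]
        norm_num)
    refine ⟨u, ?_⟩
    simpa using hu
  have hu0 : u ≠ 0 := by
    rintro rfl
    simp at hu
  have hvu : v u ≤ 1 := v_root_le hvc hu
  have hvu' : v u⁻¹ ≤ 1 := by
    apply v_root_le hvc
    field_simp
    linear_combination hu
  have hvu1 : v u = 1 := by
    apply le_antisymm hvu
    rw [map_inv₀] at hvu'
    have hpos : 0 < v u := zero_lt_iff.mpr ((Valuation.ne_zero_iff _).mpr hu0)
    exact (inv_le_one₀ hpos).mp hvu'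
  have hc : 2 + B * zc x0 R = u + u⁻¹ := by
    field_simp
    linear_combination -hu
  have hzero : ∀ n : ℕ, n • R = 0 ↔ p ∣ n := nsmul_eq_zero_iff_dvd hp hR0 hpR
  have hvpow : ∀ n : ℕ, v (u ^ n + u⁻¹ ^ n) ≤ 1 := fun n =>
    v_add_le_one v (v_pow_le_one v hvu n) (v_pow_le_one v hvu' n)
  -- the multiples
  have hmul : ∀ n : ℕ, Cg v (2 + B * zc x0 (n • R)) (u ^ n + u⁻¹ ^ n) ∧
      Cg v (2 + B * zc x0 ((n + 1) • R)) (u ^ (n + 1) + u⁻¹ ^ (n + 1)) := by
    intro n
    induction n with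
    | zero =>
      constructor
      · rw [zero_nsmul, zc_zero, mul_zero, add_zero, pow_zero, pow_zero]
        have : (2 : F) = 1 + 1 := by norm_num
        rw [this]
        exact Cg.refl _
      · rw [zero_add, one_nsmul, pow_one, pow_one, hc]
        exact Cg.refl _
    | succ n ih =>
      refine ⟨ih.2, ?_⟩
      have h1 := (zc_rel h (hR.nsmul h (n + 1)) hR (fun hne hcon => by
        apply hne
        rw [hzero]
        rw [← add_nsmul, hzero] at hcon
        have h2 : p ∣ 2 * (n + 1) := by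
          have : n + 1 + (n + 1) = 2 * (n + 1) := by ring
          rwa [this] at hcon
        exact (hp.dvd_mul.mp h2).resolve_left (fun h3 => hp2
          ((Nat.prime_dvd_prime_iff_eq hp Nat.prime_two).mp h3)))).2
      have e1 : (n + 1) • R + R = (n + 1 + 1) • R := (succ_nsmul R (n + 1)).symm
      have e2 : (n + 1) • R - R = n • R := by
        rw [add_nsmul, one_nsmul, add_sub_cancel_right]
      rw [e1, e2] at h1
      -- the d'Alembert equation
      have h2 : Cg v ((2 + B * zc x0 ((n + 1 + 1) • R)) + (2 + B * zc x0 (n • R)))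
          ((2 + B * zc x0 ((n + 1) • R)) * (2 + B * zc x0 R)) := by
        have e3 : (2 + B * zc x0 ((n + 1 + 1) • R)) + (2 + B * zc x0 (n • R)) =
          4 + B * (zc x0 ((n + 1 + 1) • R) + zc x0 (n • R)) := by ring
        have e4 : (2 + B * zc x0 ((n + 1) • R)) * (2 + B * zc x0 R) =
          4 + B * (2 * (zc x0 ((n + 1) • R) + zc x0 R) +
            B * zc x0 ((n + 1) • R) * zc x0 R) := by ring
        rw [e3, e4]
        refine (Cg.refl _).add ((Cg.refl B).mul h1 ?_ h.vB.le)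
        exact v_add_le_one v (hR.nsmul h _).zc_le (hR.nsmul h _).zc_le
      have h3 : Cg v ((2 + B * zc x0 ((n + 1) • R)) * (2 + B * zc x0 R))
          ((u ^ (n + 1) + u⁻¹ ^ (n + 1)) * (u + u⁻¹)) := by
        refine ih.2.mul ?_ hvc (hvpow _)
        rw [hc]
        exact Cg.refl _
      have h4 := (h2.trans h3).sub ih.1
      have e5 : (2 + B * zc x0 ((n + 1 + 1) • R)) + (2 + B * zc x0 (n • R)) -
        (2 + B * zc x0 (n • R)) = 2 + B * zc x0 ((n + 1 + 1) • R) := by ring
      have e6 : (u ^ (n + 1) + u⁻¹ ^ (n + 1)) * (u + u⁻¹) - (u ^ n + u⁻¹ ^ n) =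
        u ^ (n + 1 + 1) + u⁻¹ ^ (n + 1 + 1) := by
        have e7 : u * u⁻¹ = 1 := mul_inv_cancel₀ hu0
        linear_combination (u ^ n + u⁻¹ ^ n) * e7
      rw [e5, e6] at h4
      exact h4
  -- the p-th power
  have hup : v (u ^ p - 1) < 1 := by
    have h1 := (hmul p).1
    rw [hpR, zc_zero, mul_zero, add_zero] at h1
    have h2 : v ((u ^ p - 1) ^ 2) < 1 := by
      have e : (u ^ p - 1) ^ 2 = (u ^ p + u⁻¹ ^ p - 2) * u ^ p := by
        have e7 : u⁻¹ ^ p * u ^ p = 1 := by rw [← mul_pow, inv_mul_cancel₀ hu0, one_pow]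
        linear_combination -e7
      rw [e]
      exact v_mul_lt_one' v h1.symm (v_pow_le_one v hvu p)
    rw [map_pow] at h2
    exact (pow_lt_one_iff two_ne_zero).mp h2
  obtain ⟨ξ, hξ, hξu⟩ := exists_root_cg hp.pos hup
  refine ⟨ξ, hξ, fun n => (hmul n).1.trans ?_⟩
  have hvξ := v_eq_one_of_pow (v := v) hp.ne_zero hξ
  refine (hξu.pow hvξ.le n).add ((cg_inv hξu hvu1 hvξ).pow ?_ n)
  rw [map_inv₀, hvξ, inv_one]

/-- **At most one canonical subgroup.** -/
theorem exists_nsmul_of_canonical (h : Node v W x0 B G β) (hint : IntegralFor v W) {p : ℕ}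
    (hp : p.Prime) (hp2 : p ≠ 2) (hvp : v (p : F) = 1) {P Q : W.Point} (hP : P ≠ 0)
    (hpP : p • P = 0) (hpQ : p • Q = 0) (hPE : InE0 v x0 P) (hQE : InE0 v x0 Q) :
    ∃ n : ℤ, Q = n • P := by
  by_cases hQ : Q = 0
  · exact ⟨0, by rw [hQ, zero_zsmul]⟩
  obtain ⟨ξ, hξ, hξP⟩ := exists_character h hp hp2 hPE hpP
  obtain ⟨η, hη, hηQ⟩ := exists_character h hp hp2 hQE hpQ
  have hξ1 : ξ ≠ 1 := by
    rintro rfl
    apply hP
    apply eq_zero_of_zc h hint hvp hPE hpP
    have h1 := hξP 1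
    rw [one_nsmul, inv_one, pow_one, Cg] at h1
    have e : 2 + B * zc x0 P - (1 + 1) = B * zc x0 P := by ring
    rwa [e, map_mul, h.vB, one_mul] at h1
  haveI : Fact p.Prime := ⟨hp⟩
  have hprim : IsPrimitiveRoot ξ p := by
    rw [← orderOf_eq_prime hξ hξ1]
    exact IsPrimitiveRoot.orderOf ξ
  haveI : NeZero p := ⟨hp.ne_zero⟩
  obtain ⟨n, -, hn⟩ := hprim.eq_pow_of_pow_eq_one hη
  have h1 : Cg v (2 + B * zc x0 Q) (2 + B * zc x0 (n • P)) := by
    have h2 := hηQ 1
    rw [one_nsmul, pow_one, pow_one, ← hn] at h2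
    refine h2.trans ?_
    have h3 := (hξP n).symm
    rwa [inv_pow] at h3
  have h2 : v (zc x0 Q - zc x0 (n • P)) < 1 := by
    rw [Cg] at h1
    have e : 2 + B * zc x0 Q - (2 + B * zc x0 (n • P)) = B * (zc x0 Q - zc x0 (n • P)) := by
      ring
    rwa [e, map_mul, h.vB, one_mul] at h1
  have hzero : ∀ n : ℕ, n • Q = 0 ↔ p ∣ n := nsmul_eq_zero_iff_dvd hp hQ hpQ
  have h3 := (zc_rel h hQE (hPE.nsmul h n) (fun _ hcon => by
    rw [← two_nsmul, hzero] at hcon
    exact hp2 ((Nat.prime_dvd_prime_iff_eq hp Nat.prime_two).mp hcon))).1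
  have h4 : v (zc x0 (Q + n • P) * zc x0 (Q - n • P)) < 1 := by
    have h5 : Cg v ((zc x0 Q - zc x0 (n • P)) ^ 2) 0 := by
      rw [Cg, sub_zero]
      exact v_pow_lt_one v h2 two_ne_zero
    have h6 := h3.trans h5
    rwa [Cg, sub_zero] at h6
  have hpn : p • (n • P) = 0 := by rw [smul_comm, hpP, nsmul_zero]
  rw [map_mul] at h4
  by_cases h5 : v (zc x0 (Q + n • P)) < 1
  · have h6 := eq_zero_of_zc h hint hvp (hQE.add h (hPE.nsmul h n))
      (by rw [nsmul_add, hpQ, hpn, add_zero]) h5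
    exact ⟨-n, by rw [neg_zsmul, natCast_zsmul]; exact eq_neg_of_add_eq_zero_left h6⟩
  · push Not at h5
    have h6 : v (zc x0 (Q - n • P)) < 1 := by
      by_contra h7
      push Not at h7
      exact absurd h4 (not_lt.mpr (one_le_mul h5 h7))
    have h7 := eq_zero_of_zc h hint hvp (R := Q - n • P) (by
        rw [sub_eq_add_neg]
        exact hQE.add h (hPE.nsmul h n).neg)
      (by rw [nsmul_sub, hpQ, hpn, sub_zero]) h6
    exact ⟨n, by rw [natCast_zsmul]; exact sub_eq_zero.mp h7⟩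

end Fermat.Agent.Pts
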