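import Fermat.Agent.Pts.Qbar
import Fermat.Prelude.Def_ModularCurve_ArithmeticGalois

set_option autoImplicit false
set_option linter.style.haveILetI false
set_option linter.unusedSectionVars false

/-!
# The place of `X_0(p)` attached to a root of the modular polynomial
-/

namespace Fermat.Agent.Pts

open Function ModularCurve AlgebraicCurve
open scoped IntermediateField
open Fermat.Agent.ModFn Fermat.Agent.S24Lib Fermat.Agent.FF Polynomial

section Smul

variable {K F : Type*} [Field K] [Field F] [Algebra K F]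

theorem Over.smul (g : SemilinearAut K F) {v : Place K F} {f : F} {a : K} (h : Over v f a) :
    Over (g • v) (g • f) (SemilinearAut.baseAut g a) := by
  rw [over_iff] at *
  have h1 : g • f - algebraMap K F (SemilinearAut.baseAut g a) = g • (f - algebraMap K F a) := by
    rw [smul_sub, SemilinearAut.smul_algebraMap]
  rw [h1]
  rcases h with h | h
  · left
    rw [h, smul_zero]
  · right
    rwa [SemilinearAut.ord_smul]

end Smul

section Main

variable {K : Type*} [Field K] [IsAlgClosed K] {p : ℕ} [hpF : Fact p.Prime]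
  [Algebra ℚ K] [Algebra K ℂ] {Φ : K[X][X]} (hΦ : IsPhi K p Φ)

include hΦ

theorem ev_eq_eval (a b : K) : ev a b Φ = (Φ.map (evalRingHom a)).eval b := by
  rw [ev_apply]
  rfl

theorem exists_place_of_ev {a b : K} (hab : ev a b Φ = 0) :
    ∃ v : Place K (FN K p), Over v (jF K p) a ∧ Over v (jpF K p) b := by
  haveI : CharZero K := (algebraMap K ℂ).charZero
  haveI := isFnField K p
  exact exists_place_fnField (transcendental_jF K p) (adjoin_pair_eq_top K p) hΦ.monic
    (by rw [hΦ.natDegree, finrank_jF]) hΦ.ev_eq hab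

theorem eq_of_over {a b : K} (hab : ev a b Φ = 0) {A : ValuationSubring K}
    (ha : 1 < A.valuation a) {v w : Place K (FN K p)}
    (hv1 : Over v (jF K p) a) (hv2 : Over v (jpF K p) b)
    (hw1 : Over w (jF K p) a) (hw2 : Over w (jpF K p) b) : v = w := by
  have hp2 := hpF.out.two_le
  have hs := hΦ.shape A a ha
  rw [ev_eq_eval hΦ] at hab
  rcases hs.root_cases hp2 ha hab with h | h
  · refine place_unique (x := jF K p) (y := jpF K p)
      (exists_frac (adjoin_pair_eq_top K p)) ?_ hΦ.ev_eq (by rw [ev_eq_eval hΦ]; exact hab)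
      (hs.derivative_ne_zero hp2 ha hab h) hv1 hv2 hw1 hw2
    intro h0
    apply transcendental_jF K p
    refine ⟨X - C a, X_sub_C_ne_zero a, ?_⟩
    simpa using h0
  · have hba : ev b a Φ = 0 := by
      have h1 := hv2.ev hv1 Φ
      rw [hΦ.ev_eq'] at h1
      have h2 := over_algebraMap v (0 : K)
      rw [map_zero] at h2
      exact h1.unique h2
    have hb : 1 < A.valuation b := by
      by_contra hle
      push Not at hle
      have := pow_le_one₀ (n := p) zero_le hle
      rw [h] at this
      exact absurd ha this.not_gt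
    have hs' := hΦ.shape A b hb
    have hba' := hba
    rw [ev_eq_eval hΦ] at hba'
    refine place_unique (x := jpF K p) (y := jF K p)
      (exists_frac (by rw [Set.pair_comm]; exact adjoin_pair_eq_top K p)) ?_ hΦ.ev_eq' hba
      (hs'.derivative_ne_zero hp2 hb hba' h.symm) hv2 hv1 hw2 hw1
    intro h0
    apply transcendental_jpF K p
    refine ⟨X - C b, X_sub_C_ne_zero b, ?_⟩
    simpa using h0

end Main

section Galois

variable {p : ℕ} [hpF : Fact p.Prime] [Algebra (AlgebraicClosure ℚ) ℂ]
  {Φ : (AlgebraicClosure ℚ)[X][X]} (hΦ : IsPhi (AlgebraicClosure ℚ) p Φ)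

include hΦ in
theorem exists_fixed_place {a b : AlgebraicClosure ℚ} (hab : ev a b Φ = 0)
    (hbig : ∃ A : ValuationSubring (AlgebraicClosure ℚ), 1 < A.valuation a)
    (ha : ∀ σ : AlgebraicClosure ℚ ≃ₐ[ℚ] AlgebraicClosure ℚ, σ a = a)
    (hb : ∀ σ : AlgebraicClosure ℚ ≃ₐ[ℚ] AlgebraicClosure ℚ, σ b = b) :
    ∃ v : Place (AlgebraicClosure ℚ) (modularFunctionFieldBar p),
      Over v (jF (AlgebraicClosure ℚ) p) a ∧ Over v (jpF (AlgebraicClosure ℚ) p) b ∧
      ∀ σ : AlgebraicClosure ℚ ≃ₐ[ℚ] AlgebraicClosure ℚ,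
        arithmeticGalois (modularFunctionFieldFull p) σ • v = v := by
  obtain ⟨v, hv1, hv2⟩ := exists_place_of_ev hΦ hab
  obtain ⟨A, hA⟩ := hbig
  refine ⟨v, hv1, hv2, fun σ => ?_⟩
  have h1 : arithmeticGalois (modularFunctionFieldFull p) σ • jF (AlgebraicClosure ℚ) p =
      jF (AlgebraicClosure ℚ) p := by
    apply Subtype.ext
    rw [coe_arithmeticGalois_smul]
    exact coeffMap_jqModC _
  have h2 : arithmeticGalois (modularFunctionFieldFull p) σ • jpF (AlgebraicClosure ℚ) p =
      jpF (AlgebraicClosure ℚ) p := by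
    apply Subtype.ext
    rw [coe_arithmeticGalois_smul]
    change coeffMap _ (qExpand (AlgebraicClosure ℚ) p (jqModC (AlgebraicClosure ℚ))) =
      qExpand (AlgebraicClosure ℚ) p (jqModC (AlgebraicClosure ℚ))
    rw [ModFn.coeffMap_qExpand, coeffMap_jqModC]
  have h3 := hv1.smul (arithmeticGalois (modularFunctionFieldFull p) σ)
  have h4 := hv2.smul (arithmeticGalois (modularFunctionFieldFull p) σ)
  rw [h1, baseAut_arithmeticGalois] at h3
  rw [h2, baseAut_arithmeticGalois] at h4
  have h5 : σ.toRingEquiv a = a := ha σ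
  have h6 : σ.toRingEquiv b = b := hb σ
  rw [h5] at h3
  rw [h6] at h4
  exact eq_of_over hΦ hab hA h3 h4 hv1 hv2

end Galois

end Fermat.Agent.Pts
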