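import Fermat.Agent.Pts.Sums
import Fermat.Agent.EC.KernelOfReduction

set_option autoImplicit false
set_option linter.style.haveILetI false
set_option linter.unusedSectionVars false

/-!
# A Weierstrass curve recentered at its node
-/

namespace Fermat.Agent.Pts

open WeierstrassCurve WeierstrassCurve.Affine Fermat.Agent.DivPoly Fermat.Agent.Wp
open Fermat.Agent.EC

variable {F : Type*} [Field F] {Γ : Type*} [LinearOrderedCommGroupWithZero Γ]

/-- The data of a recentering of `W` at the node of its reduction. -/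
structure Node (v : Valuation F Γ) (W : Affine F) (x0 B G β : F) : Prop where
  b4 : W.b₄ + x0 * W.b₂ + 6 * x0 ^ 2 = 0
  hB : B = W.b₂ + 12 * x0
  hG : G = W.b₆ + 2 * x0 * W.b₄ + x0 ^ 2 * W.b₂ + 4 * x0 ^ 3
  hβ : β = W.b₈ + 3 * x0 * W.b₆ + 3 * x0 ^ 2 * W.b₄ + x0 ^ 3 * W.b₂ + 3 * x0 ^ 4
  vx0 : v x0 ≤ 1
  vB : v B = 1
  vβ : v β < 1
  β0 : β ≠ 0

namespace Node

variable {v : Valuation F Γ} {W : Affine F} {x0 B G β : F} (h : Node v W x0 B G β)

include h

theorem rel : B * G = 4 * β := by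
  have h1 := W.b_relation
  have h2 := h.b4
  rw [h.hB, h.hG, h.hβ]
  linear_combination -h1 + (W.b₄ + x0 * W.b₂ + 6 * x0 ^ 2) * h2

theorem c4 : W.c₄ = B ^ 2 := by
  have h2 := h.b4
  rw [h.hB, WeierstrassCurve.c₄]
  linear_combination (-24) * h2

theorem c6 : W.c₆ = -B ^ 3 - 216 * G := by
  have h2 := h.b4
  rw [h.hB, h.hG, WeierstrassCurve.c₆]
  linear_combination (36 * (W.b₂ + 12 * x0)) * h2

theorem disc [CharZero F] : W.Δ = -B ^ 2 * β - 27 * G ^ 2 := by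
  have h1 := h.rel
  have h2 := W.c_relation
  rw [h.c4, h.c6] at h2
  have h3 : (1728 : F) ≠ 0 := by norm_num
  apply mul_left_cancel₀ h3
  linear_combination h2 - 432 * B ^ 2 * h1

theorem vG_le : v G ≤ v β := by
  have h1 := congrArg v h.rel
  rw [map_mul, map_mul, h.vB, one_mul] at h1
  rw [h1]
  calc _ ≤ 1 * v β := by gcongr; exact v_ofNat_le_one v 4
    _ = _ := one_mul _

theorem vβ_pos : 0 < v β := zero_lt_iff.mpr ((Valuation.ne_zero_iff _).mpr h.β0)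

theorem vc4 : v W.c₄ = 1 := by rw [h.c4, map_pow, h.vB, one_pow]

theorem vΔ [CharZero F] : v W.Δ = v β := by
  have h1 : v (27 * G ^ 2) < v (-B ^ 2 * β) := by
    rw [map_mul, map_mul, Valuation.map_neg, map_pow, map_pow, h.vB, one_pow, one_mul]
    calc v 27 * v G ^ 2 ≤ 1 * v β ^ 2 := by
          gcongr
          · exact v_ofNat_le_one v 27
          · exact h.vG_le
      _ = v β * v β := by rw [one_mul, sq]
      _ < 1 * v β := mul_lt_mul_of_pos_right h.vβ h.vβ_pos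
      _ = v β := one_mul _
  rw [h.disc, Valuation.map_sub_eq_of_lt_left _ h1]
  rw [map_mul, Valuation.map_neg, map_pow, h.vB, one_pow, one_mul]

end Node

section Points

variable {W : Affine F} (x0 : F)

/-- The recentered coordinate. -/
def Xs (R : W.Point) : F := xc R - x0

@[simp] theorem Xs_neg (R : W.Point) : Xs x0 (-R) = Xs x0 R := by rw [Xs, xc_neg, Xs]

theorem Xs_sub_comm [DecidableEq F] (P Q : W.Point) : Xs x0 (P - Q) = Xs x0 (Q - P) := by
  rw [← Xs_neg, neg_sub]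

end Points

namespace Node

variable {v : Valuation F Γ} {W : Affine F} {x0 B G β : F} (h : Node v W x0 B G β)

include h

theorem psi2_sq {P : W.Point} (hP : P ≠ 0) :
    psi2 P ^ 2 = 4 * Xs x0 P ^ 3 + B * Xs x0 P ^ 2 + G := by
  have h2 := h.b4
  rw [DivPoly.psi2_sq hP, h.hB, h.hG, Xs]
  linear_combination (2 * xc P - 2 * x0) * h2

variable [DecidableEq F]

theorem xs_add {P Q : W.Point} (hP : P ≠ 0) (hQ : Q ≠ 0) (hPQ : Xs x0 P ≠ Xs x0 Q) :
    (Xs x0 (P + Q) + Xs x0 (P - Q)) * (Xs x0 P - Xs x0 Q) ^ 2 =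
      2 * Xs x0 P * Xs x0 Q * (Xs x0 P + Xs x0 Q) + B * Xs x0 P * Xs x0 Q + G := by
  have h1 := xc_add_add_xc_sub hP hQ (fun h' => hPQ (by rw [Xs, Xs, h']))
  have h2 := h.b4
  rw [h.hB, h.hG]
  simp only [Xs]
  linear_combination h1 + (xc P + xc Q - 2 * x0) * h2

theorem xs_mul {P Q : W.Point} (hP : P ≠ 0) (hQ : Q ≠ 0) (hPQ : Xs x0 P ≠ Xs x0 Q) :
    Xs x0 (P + Q) * Xs x0 (P - Q) * (Xs x0 P - Xs x0 Q) ^ 2 =
      (Xs x0 P * Xs x0 Q) ^ 2 - G * (Xs x0 P + Xs x0 Q) - β := by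
  have h0 : xc P ≠ xc Q := fun h' => hPQ (by rw [Xs, Xs, h'])
  have h1 := xc_add_add_xc_sub hP hQ h0
  have h3 := xc_add_mul_xc_sub hP hQ h0
  have h2 := h.b4
  rw [h.hG, h.hβ]
  simp only [Xs]
  linear_combination h3 - x0 * h1 + (-(xc P * xc Q) + x0 * (xc P + xc Q) - x0 ^ 2) * h2

theorem xs_two {P : W.Point} (hP : P ≠ 0) (h2P : P + P ≠ 0) :
    Xs x0 (P + P) * (4 * Xs x0 P ^ 3 + B * Xs x0 P ^ 2 + G) =
      Xs x0 P ^ 4 - 2 * G * Xs x0 P - β := by
  have h1 := xc_two hP h2P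
  have h2 := h.b4
  have h3 := DivPoly.psi2_sq hP
  rw [← h.psi2_sq hP]
  rw [h.hG, h.hβ]
  simp only [Xs]
  linear_combination h1 - x0 * h3 - (xc P - x0) ^ 2 * h2

end Node

end Fermat.Agent.Pts
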