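import Fermat.Agent.Pts.Node

set_option autoImplicit false
set_option linter.style.haveILetI false
set_option linter.unusedSectionVars false

/-!
# Non-canonical subgroups at a node
-/

namespace Fermat.Agent.Pts

open WeierstrassCurve WeierstrassCurve.Affine Fermat.Agent.DivPoly Fermat.Agent.Wp
open Fermat.Agent.EC

variable {F : Type*} [Field F] {Γ : Type*} [LinearOrderedCommGroupWithZero Γ]

namespace Node

variable {v : Valuation F Γ} {W : Affine F} {x0 B G β : F} (h : Node v W x0 B G β)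
  [DecidableEq F]

include h

theorem vnat_mul_le (n : ℕ) [n.AtLeastTwo] (a : F) : v (OfNat.ofNat n * a) ≤ v a := by
  rw [map_mul]
  calc _ ≤ 1 * v a := by gcongr; exact v_ofNat_le_one v n
    _ = v a := one_mul _

/-- Lower bound for the largest coordinate. -/
theorem le_cube {P : W.Point} (hP : P ≠ 0) (h2P : P + P ≠ 0) (hlt : v (Xs x0 P) < 1)
    (hle : v (Xs x0 (P + P)) ≤ v (Xs x0 P)) : v β ≤ v (Xs x0 P) ^ 3 := by
  by_contra hcon
  push Not at hcon
  have hD := h.xs_two hP h2P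
  generalize hX : Xs x0 P = X at *
  generalize Xs x0 (P + P) = Y at *
  obtain ⟨M, hM⟩ : ∃ M, M = v X := ⟨_, rfl⟩
  rw [← hM] at hlt hle hcon
  have hβ := h.vβ_pos
  have h43 : M ^ 4 ≤ M ^ 3 := by
    rw [pow_succ M 3]
    exact mul_le_of_le_one_right' hlt.le
  have h32 : M ^ 3 ≤ M ^ 2 := by
    rw [pow_succ M 2]
    exact mul_le_of_le_one_right' hlt.le
  -- the right hand side
  have r1 : v (X ^ 4) < v β := by
    rw [map_pow, ← hM]
    exact h43.trans_lt hcon
  have r2 : v (2 * G * X) < v β := by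
    rw [mul_assoc]
    refine (vnat_mul_le h 2 _).trans_lt ?_
    rw [map_mul, ← hM]
    calc v G * M ≤ v β * M := by gcongr; exact h.vG_le
      _ < v β * 1 := mul_lt_mul_of_pos_left hlt hβ
      _ = v β := mul_one _
  have r3 : v (X ^ 4 - 2 * G * X - β) = v β := by
    apply Valuation.map_sub_eq_of_lt_right
    exact (Valuation.map_sub _ _ _).trans_lt (max_lt r1 r2)
  -- the left hand side
  have l1 : v (4 * X ^ 3 + B * X ^ 2 + G) ≤ max (M ^ 2) (v β) := by
    refine (Valuation.map_add _ _ _).trans (max_le ?_ (le_max_of_le_right h.vG_le))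
    refine (Valuation.map_add _ _ _).trans (max_le ?_ ?_)
    · refine (vnat_mul_le h 4 _).trans ?_
      rw [map_pow, ← hM]
      exact le_max_of_le_left h32
    · rw [map_mul, h.vB, one_mul, map_pow, ← hM]
      exact le_max_left _ _
  have l2 : v (Y * (4 * X ^ 3 + B * X ^ 2 + G)) < v β := by
    rw [map_mul]
    calc v Y * v (4 * X ^ 3 + B * X ^ 2 + G) ≤ M * max (M ^ 2) (v β) := mul_le_mul' hle l1
      _ < v β := by
        rcases le_total (M ^ 2) (v β) with hc | hc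
        · rw [max_eq_right hc]
          calc M * v β < 1 * v β := mul_lt_mul_of_pos_right hlt hβ
            _ = v β := one_mul _
        · rw [max_eq_left hc, ← pow_succ']
          exact hcon
  rw [hD, r3] at l2
  exact lt_irrefl _ l2

/-- The maximum is attained only once (up to sign). -/
theorem lt_of_ne {P Q : W.Point} (hP : P ≠ 0) (hQ : Q ≠ 0) (hne : Q ≠ P) (hne' : Q ≠ -P)
    (hlt : v (Xs x0 P) < 1) (hQP : v (Xs x0 Q) ≤ v (Xs x0 P))
    (hadd : v (Xs x0 (P + Q)) ≤ v (Xs x0 P)) (hsub : v (Xs x0 (P - Q)) ≤ v (Xs x0 P))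
    (hβ : v β ≤ v (Xs x0 P) ^ 3) : v (Xs x0 Q) < v (Xs x0 P) := by
  by_contra hcon
  push Not at hcon
  have heq := le_antisymm hQP hcon
  have hX : Xs x0 P ≠ Xs x0 Q := by
    intro h'
    rw [Xs, Xs, sub_left_inj] at h'
    rcases eq_or_eq_neg hP hQ h' with h'' | h''
    · exact hne h''.symm
    · exact hne' (by rw [h'', neg_neg])
  have hS := h.xs_add hP hQ hX
  have hβ0 := h.vβ_pos
  have hG := h.vG_le
  generalize Xs x0 (P + Q) = Y1 at *
  generalize Xs x0 (P - Q) = Y2 at *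
  generalize Xs x0 P = X1 at *
  generalize Xs x0 Q = X2 at *
  obtain ⟨M, hM⟩ : ∃ M, M = v X1 := ⟨_, rfl⟩
  rw [← hM] at hlt hQP hadd hsub hβ heq
  have hM0 : 0 < M := by
    rw [zero_lt_iff]
    rintro rfl
    rw [zero_pow (by norm_num)] at hβ
    exact absurd (hβ0.trans_le hβ) (lt_irrefl _)
  have h32 : M ^ 3 < M ^ 2 := by
    rw [pow_succ M 2]
    calc M ^ 2 * M < M ^ 2 * 1 := mul_lt_mul_of_pos_left hlt (pow_pos hM0 2)
      _ = M ^ 2 := mul_one _
  have l1 : v ((Y1 + Y2) * (X1 - X2) ^ 2) ≤ M ^ 3 := by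
    rw [map_mul, map_pow, pow_succ' M 2]
    refine mul_le_mul' (Valuation.map_add_le _ hadd hsub) ?_
    refine pow_le_pow_left₀ zero_le ?_ 2
    exact (Valuation.map_sub _ _ _).trans (max_le hM.symm.le (by rw [heq]))
  have r1 : v (B * X1 * X2) = M ^ 2 := by
    rw [map_mul, map_mul, h.vB, one_mul, ← hM, heq, sq]
  have r2 : v (2 * X1 * X2 * (X1 + X2)) ≤ M ^ 3 := by
    have e : 2 * X1 * X2 * (X1 + X2) = 2 * (X1 * X2 * (X1 + X2)) := by ring
    rw [e]
    refine (vnat_mul_le h 2 _).trans ?_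
    rw [map_mul, map_mul, ← hM, heq, pow_succ M 2, sq]
    refine mul_le_mul' le_rfl ?_
    exact Valuation.map_add_le _ hM.symm.le heq.le
  have r3 : v (2 * X1 * X2 * (X1 + X2) + B * X1 * X2 + G) = M ^ 2 := by
    have e : 2 * X1 * X2 * (X1 + X2) + B * X1 * X2 + G =
      (2 * X1 * X2 * (X1 + X2) + G) + B * X1 * X2 := by ring
    rw [e, Valuation.map_add_eq_of_lt_right, r1]
    rw [r1]
    exact Valuation.map_add_lt _ (r2.trans_lt h32) ((hG.trans hβ).trans_lt h32)
  rw [hS, r3] at l1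
  exact absurd (l1.trans_lt h32) (lt_irrefl _)

variable [CharZero F]

/-- The valuation of the `j`-invariant of the quotient by a non-canonical subgroup. -/
theorem v_jV_core {p : ℕ} (hp : p.Prime) (hp2 : p ≠ 2) {P : W.Point} (hP : P ≠ 0)
    (hpP : p • P = 0) (hlt : v (Xs x0 P) < 1)
    (hmax : ∀ n : ℕ, n • P ≠ 0 → v (Xs x0 (n • P)) ≤ v (Xs x0 P)) :
    v β ≤ v (Xs x0 P) ^ 3 ∧ v (jV W P p) = (v (Xs x0 P))⁻¹ := by
  obtain ⟨m, rfl⟩ : ∃ m, p = 2 * m + 1 := hp.odd_of_ne_two hp2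
  have hm : 1 ≤ m := by
    have := hp.two_le
    omega
  have hzero : ∀ n : ℕ, n • P = 0 ↔ 2 * m + 1 ∣ n := nsmul_eq_zero_iff_dvd hp hP hpP
  have h2P : P + P ≠ 0 := by
    intro h'
    rw [← two_nsmul, hzero] at h'
    have := Nat.le_of_dvd (by norm_num) h'
    omega
  have hβ : v β ≤ v (Xs x0 P) ^ 3 := h.le_cube hP h2P hlt (by
    have := hmax 2 (by rwa [two_nsmul])
    rwa [two_nsmul] at this)
  refine ⟨hβ, ?_⟩
  obtain ⟨M, hM⟩ : ∃ M, M = v (Xs x0 P) := ⟨_, rfl⟩
  have hM0 : 0 < M := by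
    rw [zero_lt_iff, hM]
    intro h0
    rw [h0, zero_pow (by norm_num)] at hβ
    exact absurd (h.vβ_pos.trans_le hβ) (lt_irrefl _)
  rw [← hM] at hβ hlt
  have hsucc : ∀ n : ℕ, 1 ≤ n → M ^ (n + 1) < M ^ n := fun n _ => by
    rw [pow_succ]
    calc M ^ n * M < M ^ n * 1 := mul_lt_mul_of_pos_left hlt (pow_pos hM0 n)
      _ = M ^ n := mul_one _
  have h21 : M ^ 2 < M := by simpa using hsucc 1 le_rfl
  have h32 : M ^ 3 < M ^ 2 := hsucc 2 (by norm_num)
  -- the other classes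
  have hother : ∀ k ∈ Finset.Icc 2 m, v (Xs x0 (k • P)) < M := by
    intro k hk
    rw [Finset.mem_Icc] at hk
    rw [hM]
    have hk0 : k • P ≠ 0 := by
      rw [ne_eq, hzero]
      intro h'
      have := Nat.le_of_dvd (by omega) h'
      omega
    have hk1 : (k - 1) • P ≠ 0 := by
      rw [ne_eq, hzero]
      intro h'
      have := Nat.le_of_dvd (by omega) h'
      omega
    have hk2 : (k + 1) • P ≠ 0 := by
      rw [ne_eq, hzero]
      intro h'
      have := Nat.le_of_dvd (by omega) h'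
      omega
    have e1 : P + k • P = (k + 1) • P := by rw [add_nsmul, one_nsmul, add_comm]
    have e2 : P - k • P = -((k - 1) • P) := by
      obtain ⟨l, rfl⟩ : ∃ l, k = l + 1 := ⟨k - 1, by omega⟩
      rw [Nat.add_sub_cancel, add_nsmul, one_nsmul]
      abel
    apply h.lt_of_ne hP hk0
    · intro h'
      apply hk1
      obtain ⟨l, rfl⟩ : ∃ l, k = l + 1 := ⟨k - 1, by omega⟩
      rw [add_nsmul, one_nsmul] at h'
      rw [Nat.add_sub_cancel]
      exact add_eq_right.mp h'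
    · intro h'
      apply hk2
      rw [add_nsmul, one_nsmul, h', neg_add_cancel]
    · rwa [← hM]
    · exact hmax k hk0
    · rw [e1]
      exact hmax _ hk2
    · rw [e2, Xs_neg]
      exact hmax _ hk1
    · rwa [← hM]
  have hle : ∀ k ∈ Finset.Icc 1 m, v (Xs x0 (k • P)) ≤ M := by
    intro k hk
    rw [Finset.mem_Icc] at hk
    rcases Nat.lt_or_ge k 2 with h' | h'
    · have : k = 1 := by omega
      subst this
      rw [one_nsmul, hM]
    · exact (hother k (Finset.mem_Icc.mpr ⟨h', hk.2⟩)).le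
  -- Vélu's quantities
  obtain ⟨t, ht⟩ : ∃ t, t = ∑ k ∈ Finset.Icc 1 m,
    (6 * Xs x0 (k • P) ^ 2 + B * Xs x0 (k • P)) := ⟨_, rfl⟩
  obtain ⟨w, hw⟩ : ∃ w, w = ∑ k ∈ Finset.Icc 1 m,
    (10 * Xs x0 (k • P) ^ 3 + 2 * B * Xs x0 (k • P) ^ 2 + G) := ⟨_, rfl⟩
  have hT4 : T4 W P (2 * m + 1) = 2 * t := by
    rw [T4_half hpP, ht]
    congr 1
    refine Finset.sum_congr rfl fun k _ => ?_
    have h2 := h.b4
    rw [h.hB, Xs]
    linear_combination h2
  have hT6 : T6 W P (2 * m + 1) = 2 * (B * t + 12 * w) := by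
    have e : B * t + 12 * w = ∑ k ∈ Finset.Icc 1 m,
        (B * (6 * Xs x0 (k • P) ^ 2 + B * Xs x0 (k • P)) +
        12 * (10 * Xs x0 (k • P) ^ 3 + 2 * B * Xs x0 (k • P) ^ 2 + G)) := by
      rw [Finset.sum_add_distrib, ← Finset.mul_sum, ← Finset.mul_sum, ht, hw]
    rw [T6_half hpP, e]
    congr 1
    refine Finset.sum_congr rfl fun k _ => ?_
    have h2 := h.b4
    rw [h.hB, h.hG, Xs]
    linear_combination (36 * xc (k • P) + W.b₂ - 24 * x0) * h2
  have hC4 : C4 W P (2 * m + 1) = B ^ 2 + 240 * t := by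
    rw [C4, h.c4, hT4]; ring
  have hC6 : C6 W P (2 * m + 1) = -B ^ 3 - 216 * G + 504 * (B * t + 12 * w) := by
    rw [C6, h.c6, hT6]; ring
  obtain ⟨b4', hb4'⟩ : ∃ b, b = -10 * t := ⟨_, rfl⟩
  obtain ⟨b6', hb6'⟩ : ∃ b, b = G - 4 * B * t - 28 * w := ⟨_, rfl⟩
  obtain ⟨b8', hb8'⟩ : ∃ b, b = β - B ^ 2 * t - 7 * B * w - 25 * t ^ 2 := ⟨_, rfl⟩
  obtain ⟨D, hD⟩ : ∃ D, D = -B ^ 2 * b8' - 8 * b4' ^ 3 - 27 * b6' ^ 2 + 9 * B * b4' * b6' :=
    ⟨_, rfl⟩
  have hrel := h.rel
  have h1728 : C4 W P (2 * m + 1) ^ 3 - C6 W P (2 * m + 1) ^ 2 = 1728 * D := by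
    rw [hC4, hC6, hD, hb4', hb6', hb8']
    linear_combination (-432 * B ^ 2) * hrel
  -- valuations
  have vX1 : v (B * Xs x0 (1 • P)) = M := by
    rw [one_nsmul, map_mul, h.vB, one_mul, hM]
  have hsplit : Finset.Icc 1 m = insert 1 (Finset.Icc 2 m) := by
    ext k
    simp only [Finset.mem_insert, Finset.mem_Icc]
    omega
  have vt : v t = M := by
    have e : t = B * Xs x0 (1 • P) + (6 * Xs x0 (1 • P) ^ 2 + ∑ k ∈ Finset.Icc 2 m,
      (6 * Xs x0 (k • P) ^ 2 + B * Xs x0 (k • P))) := by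
      rw [ht, hsplit, Finset.sum_insert (by simp)]
      ring
    rw [e, Valuation.map_add_eq_of_lt_left, vX1]
    rw [vX1]
    refine Valuation.map_add_lt _ ?_ ?_
    · refine (vnat_mul_le h 6 _).trans_lt ?_
      rw [one_nsmul, map_pow, ← hM]
      exact h21
    · refine Valuation.map_sum_lt _ hM0.ne' fun k hk => ?_
      have hk' := hother k hk
      refine Valuation.map_add_lt _ ?_ ?_
      · refine (vnat_mul_le h 6 _).trans_lt ?_
        rw [map_pow]
        exact (pow_le_pow_left₀ zero_le hk'.le 2).trans_lt h21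
      · rwa [map_mul, h.vB, one_mul]
  have vw : v w ≤ M ^ 2 := by
    rw [hw]
    refine Valuation.map_sum_le _ fun k hk => ?_
    have hk' := hle k hk
    refine Valuation.map_add_le _ (Valuation.map_add_le _ ?_ ?_) ?_
    · refine (vnat_mul_le h 10 _).trans ?_
      rw [map_pow]
      exact (pow_le_pow_left₀ zero_le hk' 3).trans h32.le
    · rw [mul_assoc]
      refine (vnat_mul_le h 2 _).trans ?_
      rw [map_mul, h.vB, one_mul, map_pow]
      exact pow_le_pow_left₀ zero_le hk' 2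
    · exact (h.vG_le.trans hβ).trans h32.le
  have vb4 : v b4' ≤ M := by
    rw [hb4', neg_mul, Valuation.map_neg]
    exact (vnat_mul_le h 10 _).trans vt.le
  have vb6 : v b6' ≤ M := by
    rw [hb6']
    refine (Valuation.map_sub _ _ _).trans (max_le ((Valuation.map_sub _ _ _).trans
      (max_le ?_ ?_)) ?_)
    · exact ((h.vG_le.trans hβ).trans h32.le).trans h21.le
    · rw [mul_assoc]
      refine (vnat_mul_le h 4 _).trans ?_
      rw [map_mul, h.vB, one_mul, vt]
    · exact ((vnat_mul_le h 28 _).trans vw).trans h21.le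
  have vb8 : v (B ^ 2 * b8') = M := by
    have e : B ^ 2 * b8' = B ^ 2 * (β - 7 * B * w - 25 * t ^ 2) - B ^ 2 * (B ^ 2 * t) := by
      rw [hb8']; ring
    have e1 : v (B ^ 2 * (B ^ 2 * t)) = M := by
      rw [map_mul, map_mul, map_pow, h.vB, one_pow, one_mul, one_mul, vt]
    rw [e, Valuation.map_sub_eq_of_lt_right, e1]
    rw [e1, map_mul, map_pow, h.vB, one_pow, one_mul]
    refine (Valuation.map_sub _ _ _).trans_lt (max_lt ((Valuation.map_sub _ _ _).trans_lt
      (max_lt ?_ ?_)) ?_)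
    · exact (hβ.trans h32.le).trans_lt h21
    · rw [mul_assoc]
      refine (vnat_mul_le h 7 _).trans_lt ?_
      rw [map_mul, h.vB, one_mul]
      exact vw.trans_lt h21
    · refine (vnat_mul_le h 25 _).trans_lt ?_
      rw [map_pow, vt]
      exact h21
  have vD : v D = M := by
    have e : D = -(B ^ 2 * b8') + (9 * (B * b4' * b6') - 8 * b4' ^ 3 - 27 * b6' ^ 2) := by
      rw [hD]; ring
    rw [e, Valuation.map_add_eq_of_lt_left, Valuation.map_neg, vb8]
    rw [Valuation.map_neg, vb8]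
    refine (Valuation.map_sub _ _ _).trans_lt (max_lt ((Valuation.map_sub _ _ _).trans_lt
      (max_lt ?_ ?_)) ?_)
    · refine (vnat_mul_le h 9 _).trans_lt ?_
      rw [map_mul, map_mul, h.vB, one_mul]
      calc v b4' * v b6' ≤ M * M := mul_le_mul' vb4 vb6
        _ < M := by rwa [← sq]
    · refine (vnat_mul_le h 8 _).trans_lt ?_
      rw [map_pow]
      exact (pow_le_pow_left₀ zero_le vb4 3).trans_lt (h32.trans h21)
    · refine (vnat_mul_le h 27 _).trans_lt ?_
      rw [map_pow]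
      exact (pow_le_pow_left₀ zero_le vb6 2).trans_lt h21
  have vC4 : v (C4 W P (2 * m + 1)) = 1 := by
    have e1 : v (B ^ 2) = 1 := by rw [map_pow, h.vB, one_pow]
    rw [hC4, Valuation.map_add_eq_of_lt_left, e1]
    rw [e1]
    exact ((vnat_mul_le h 240 _).trans vt.le).trans_lt hlt
  have hD0 : D ≠ 0 := by
    intro h0
    rw [h0, map_zero] at vD
    exact hM0.ne vD
  have hjV : jV W P (2 * m + 1) = C4 W P (2 * m + 1) ^ 3 / D := by
    rw [jV, h1728]
    field_simp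
  rw [hjV, map_div₀, map_pow, vC4, vD, one_pow, one_div, hM]

/-- **Non-canonical subgroups have a small `j`-invariant.** -/
theorem v_jV_le {p : ℕ} (hp : p.Prime) (hp2 : p ≠ 2) {P : W.Point} (hP : P ≠ 0)
    (hpP : p • P = 0) (hnc : ∀ n : ℕ, n • P ≠ 0 → v (Xs x0 (n • P)) < 1) :
    v (jV W P p) ^ 3 ≤ v (W.c₄ ^ 3 / W.Δ) := by
  have hp1 := hp.one_lt
  have hzero : ∀ n : ℕ, n • P = 0 ↔ p ∣ n := nsmul_eq_zero_iff_dvd hp hP hpP
  obtain ⟨k₀, hk₀, hmax⟩ := Finset.exists_max_image (Finset.Icc 1 (p - 1))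
    (fun k => v (Xs x0 (k • P))) ⟨1, Finset.mem_Icc.mpr ⟨le_rfl, by omega⟩⟩
  rw [Finset.mem_Icc] at hk₀
  have hk0 : k₀ • P ≠ 0 := by
    rw [ne_eq, hzero]
    intro h'
    have := Nat.le_of_dvd (by omega) h'
    omega
  have hmax' : ∀ n : ℕ, n • (k₀ • P) ≠ 0 →
      v (Xs x0 (n • (k₀ • P))) ≤ v (Xs x0 (k₀ • P)) := by
    intro n hn
    rw [← mul_nsmul, nsmul_mod hpP] at hn ⊢
    refine hmax _ (Finset.mem_Icc.mpr ⟨?_, ?_⟩)
    · by_contra hlt
      push Not at hlt
      have h0 : k₀ * n % p = 0 := by omega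
      rw [h0, zero_nsmul] at hn
      exact hn rfl
    · have := Nat.mod_lt (k₀ * n) (show 0 < p by omega)
      omega
  have hpk : p • (k₀ • P) = 0 := by rw [smul_comm, hpP, nsmul_zero]
  obtain ⟨h1, h2⟩ := h.v_jV_core hp hp2 hk0 hpk (hnc k₀ hk0) hmax'
  have h3 : jV W (k₀ • P) p = jV W P p := by
    rw [← natCast_zsmul]
    exact jV_zsmul hp hP hpP (by rwa [natCast_zsmul])
  rw [h3] at h2
  rw [h2, map_div₀, map_pow, h.vc4, one_pow, h.vΔ, one_div, inv_pow]
  exact inv_anti₀ h.vβ_pos h1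

end Node

end Fermat.Agent.Pts
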