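import Fermat.Agent.ModFn.Cusp
import Fermat.Agent.Eis.Gamma0p

set_option autoImplicit false
set_option linter.style.haveILetI false

/-!
# The modular polynomial of prime level with integral coefficients
-/

namespace Fermat.Agent.Pts

open UpperHalfPlane hiding I
open HahnSeries hiding C
open Complex Function ModularCurve Filter ModularForm EisensteinSeries
open scoped Real Manifold Topology MatrixGroups ModularForm
open Fermat.Agent.ModFn Fermat.Agent.Eis Polynomial

variable (p : ℕ) [hpF : Fact p.Prime]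

instance : NeZero p := ⟨hpF.out.ne_zero⟩

/-- The `p+1` conjugates of `j(pτ)`. -/
noncomputable def fc (x : Option (ZMod p)) : ℍ → ℂ := fun τ => jd p (rep p x • τ)

theorem fc_none : fc p none = jd p := by
  funext τ
  simp [fc, rep]

theorem fc_some (y : ZMod p) (τ : ℍ) :
    fc p (some y) τ = jH (act !![(1 : ℤ), (y.val : ℤ); 0, (p : ℤ)] τ) := by
  have h1 : jH (ModularGroup.S • (act !![(1 : ℤ), (y.val : ℤ); 0, (p : ℤ)] τ)) =
      jH (act !![(1 : ℤ), (y.val : ℤ); 0, (p : ℤ)] τ) := jH_smul _ _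
  rw [← h1, fc]
  apply jd_eq
  have h2 : ((act !![(1 : ℤ), (y.val : ℤ); 0, (p : ℤ)] τ : ℍ) : ℂ) = (τ + y.val) / p := by
    have := coe_act_upper 1 p (y.val : ℤ) τ
    push_cast at this
    rw [this, one_mul]
  have h3 : ((ModularGroup.S • (act !![(1 : ℤ), (y.val : ℤ); 0, (p : ℤ)] τ) : ℍ) : ℂ) =
      (-((τ + y.val) / p : ℂ))⁻¹ := by
    rw [coe_S_smul, h2]
  have h4 : ((rep p (some y) • τ : ℍ) : ℂ) = (-((τ : ℂ) + y.val))⁻¹ := by
    rw [rep, mul_smul, coe_S_smul, ModularGroup.coe_T_zpow_smul_eq]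
    push_cast
    rfl
  rw [h3, h4]
  have hp0 : (p : ℂ) ≠ 0 := by exact_mod_cast NeZero.ne p
  rw [← neg_div, inv_div, div_eq_mul_inv]

theorem fc_smul (γ : SL(2, ℤ)) (x : Option (ZMod p)) (τ : ℍ) :
    fc p x (γ • τ) = fc p (idx p (rep p x * γ)) τ := by
  rw [fc, fc, ← mul_smul]
  have h1 : rep p x * γ * (rep p (idx p (rep p x * γ)))⁻¹ ∈ CongruenceSubgroup.Gamma0 p := by
    rw [← idx_eq_iff, idx_rep]
  have h2 := jd_smul (dvd_refl p) h1 (rep p (idx p (rep p x * γ)) • τ)
  rw [← mul_smul, inv_mul_cancel_right] at h2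
  exact h2

theorem bijective_idx (γ : SL(2, ℤ)) :
    Function.Bijective (fun x : Option (ZMod p) => idx p (rep p x * γ)) := by
  rw [Fintype.bijective_iff_injective_and_card]
  refine ⟨fun x y hxy => ?_, rfl⟩
  simp only at hxy
  rw [idx_eq_iff] at hxy
  have h3 : rep p x * γ * (rep p y * γ)⁻¹ = rep p x * (rep p y)⁻¹ := by group
  rw [h3, ← idx_eq_iff, idx_rep, idx_rep] at hxy
  exact hxy

/-- The characteristic polynomial at a point. -/
noncomputable def Fτ (τ : ℍ) : ℂ[X] := ∏ x : Option (ZMod p), (X - C (fc p x τ))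

theorem Fτ_smul (γ : SL(2, ℤ)) (τ : ℍ) : Fτ p (γ • τ) = Fτ p τ := by
  rw [Fτ, Fτ]
  simp only [fc_smul]
  exact (bijective_idx p γ).prod_comp (fun y => (X - C (fc p y τ)))

section Series

variable {O : Type*} [CommRing O] (i : O →+* ℂ) (ζ : Oˣ)

/-- The formal conjugates, as series in `q^{1/p}`. -/
noncomputable def sO (x : Option (ZMod p)) : LaurentSeries O :=
  match x with
  | none => qExpand O (p * p) (jqModC O)
  | some y => twist (ζ ^ (y.val : ℤ)) (jqModC O)

theorem hasExp_sO (hζ : Units.map i.toMonoidHom ζ = zetaU p) (x : Option (ZMod p)) :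
    HasExp p (fc p x) (coeffMap i (sO p ζ x)) := by
  cases x with
  | none =>
    rw [fc_none, sO, coeffMap_qExpand, coeffMap_jqModC]
    have h1 := (hasExp_jd p).qExpand (m := p)
    rw [one_mul, qExpand_qExpand] at h1
    exact h1
  | some y =>
    rw [sO, coeffMap_twist, coeffMap_jqModC, map_zpow, hζ]
    have h1 := hasExp_jH_upper 1 p (y.val : ℤ)
    rw [qExpand_one_apply] at h1
    refine h1.congr ?_ rfl
    funext τ
    rw [fc_some]
    push_cast
    rfl

/-- Pairs (series, function). -/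
noncomputable def pairs : Subring (LaurentSeries O × (ℍ → ℂ)) where
  carrier := {x | HasExp p x.2 (coeffMap i x.1)}
  mul_mem' {a b} ha hb := by
    simp only [Set.mem_ofPred_eq, Prod.fst_mul, Prod.snd_mul, map_mul] at *
    exact ha.mul hb
  one_mem' := by
    simp only [Set.mem_ofPred_eq, Prod.fst_one, Prod.snd_one, map_one]
    exact HasExp.one p
  add_mem' {a b} ha hb := by
    simp only [Set.mem_ofPred_eq, Prod.fst_add, Prod.snd_add, map_add] at *
    exact ha.add hb
  zero_mem' := by
    simp only [Set.mem_ofPred_eq, Prod.fst_zero, Prod.snd_zero, map_zero]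
    exact HasExp.zero p
  neg_mem' {a} ha := by
    simp only [Set.mem_ofPred_eq, Prod.fst_neg, Prod.snd_neg, map_neg] at *
    exact ha.neg

/-- The formal characteristic polynomial. -/
noncomputable def FO : (LaurentSeries O)[X] := ∏ x : Option (ZMod p), (X - C (sO p ζ x))

theorem exists_coeff_pair (hζ : Units.map i.toMonoidHom ζ = zetaU p) (k : ℕ) :
    HasExp p (fun τ => (Fτ p τ).coeff k) (coeffMap i ((FO p ζ).coeff k)) := by
  obtain ⟨F, hF⟩ : ∃ F : (pairs p i)[X], F = ∏ x : Option (ZMod p),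
      (X - C (⟨(sO p ζ x, fc p x), hasExp_sO p i ζ hζ x⟩ : pairs p i)) := ⟨_, rfl⟩
  have h1 := (F.coeff k).2
  have h2 : ((F.coeff k : pairs p i) : LaurentSeries O × (ℍ → ℂ)).1 = (FO p ζ).coeff k := by
    have : F.map ((RingHom.fst _ _).comp (pairs p i).subtype) = FO p ζ := by
      rw [hF, Polynomial.map_prod, FO]
      refine Finset.prod_congr rfl fun x _ => ?_
      rw [Polynomial.map_sub, Polynomial.map_X, Polynomial.map_C]
      rfl
    rw [← this, Polynomial.coeff_map]
    rfl
  have h3 : ((F.coeff k : pairs p i) : LaurentSeries O × (ℍ → ℂ)).2 =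
      fun τ => (Fτ p τ).coeff k := by
    funext τ
    have : F.map (((Pi.evalRingHom (fun _ : ℍ => ℂ) τ).comp (RingHom.snd _ _)).comp
        (pairs p i).subtype) = Fτ p τ := by
      rw [hF, Polynomial.map_prod, Fτ]
      refine Finset.prod_congr rfl fun x _ => ?_
      rw [Polynomial.map_sub, Polynomial.map_X, Polynomial.map_C]
      rfl
    rw [← this, Polynomial.coeff_map]
    rfl
  rw [← h2, ← h3]
  exact h1

/-- Vanishing of low coefficients. -/
def OrdGE (φ : LaurentSeries O) (N : ℤ) : Prop := ∀ m : ℤ, m < N → φ.coeff m = 0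

omit hpF in
theorem OrdGE.mono {φ : LaurentSeries O} {N M : ℤ} (h : OrdGE φ N) (hM : M ≤ N) : OrdGE φ M :=
  fun m hm => h m (hm.trans_le hM)

theorem OrdGE.sub {φ ψ : LaurentSeries O} {N : ℤ} (h : OrdGE φ N) (h' : OrdGE ψ N) :
    OrdGE (φ - ψ) N := fun m hm => by
  rw [HahnSeries.coeff_sub, h m hm, h' m hm, sub_zero]

theorem OrdGE.mul {φ ψ : LaurentSeries O} {N M : ℤ} (h : OrdGE φ N) (h' : OrdGE ψ M) :
    OrdGE (φ * ψ) (N + M) := fun m hm => by
  rw [HahnSeries.coeff_mul]
  refine Finset.sum_eq_zero fun x hx => ?_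
  rw [Finset.mem_antidiagonal] at hx
  by_cases h1 : x.1 < N
  · rw [h _ h1, zero_mul]
  · rw [h' x.2 (by omega), mul_zero]

/-- The coefficient of lowest degree of a product. -/
theorem OrdGE.coeff_mul_lowest {φ ψ : LaurentSeries O} {N M : ℤ} (h : OrdGE φ N)
    (h' : OrdGE ψ M) : (φ * ψ).coeff (N + M) = φ.coeff N * ψ.coeff M := by
  rw [HahnSeries.coeff_mul]
  rw [Finset.sum_eq_single (N, M)]
  · rintro ⟨a, b⟩ hx hne
    rw [Finset.mem_antidiagonal] at hx
    simp only at hx ⊢
    by_cases h1 : a < N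
    · rw [h _ h1, zero_mul]
    · by_cases h2 : b < M
      · rw [h' _ h2, mul_zero]
      · exfalso
        apply hne
        have : a = N := by omega
        have : b = M := by omega
        subst_vars
        rfl
  · intro hx
    rw [Finset.mem_antidiagonal] at hx
    simp only [HahnSeries.mem_support, ne_eq, and_true, not_and_or, not_not] at hx
    rcases hx with h1 | h1
    · rw [h1, zero_mul]
    · rw [h1, mul_zero]

theorem ordGE_jq : OrdGE (jqModC O) (-1) := fun m hm => by
  have := jqModC_pow_coeff_of_lt (O := O) 1 (m := m) (by simpa using hm)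
  simpa using this

theorem coeff_jq : (jqModC O).coeff (-1) = 1 := by
  have := jqModC_pow_coeff_self (O := O) 1
  simpa using this

theorem ordGE_some (y : ZMod p) : OrdGE (sO p ζ (some y)) (-1) := fun m hm => by
  rw [sO, twist_coeff, ordGE_jq m hm, mul_zero]

theorem ordGE_none : OrdGE (sO (O := O) p ζ none) (-(p * p : ℤ)) := fun m hm => by
  rw [sO]
  by_cases h : ((p * p : ℕ) : ℤ) ∣ m
  · obtain ⟨k, rfl⟩ := h
    rw [qExpand_coeff_mul]
    apply ordGE_jq
    push_cast at hm
    have hp : (0 : ℤ) < p * p := by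
      have : (0 : ℤ) < p := by exact_mod_cast hpF.out.pos
      positivity
    by_contra hcon
    have h2 : -1 ≤ k := by omega
    have h3 : (p * p : ℤ) * (-1) ≤ p * p * k := mul_le_mul_of_nonneg_left h2 hp.le
    omega
  · exact qExpand_coeff_of_not_dvd _ _ h

theorem coeff_none : (sO (O := O) p ζ none).coeff (-(p * p : ℤ)) = 1 := by
  rw [sO]
  have h1 : (-(p * p : ℤ)) = ((p * p : ℕ) : ℤ) * (-1) := by push_cast; ring
  rw [h1, qExpand_coeff_mul, coeff_jq]

theorem prod_low {ι : Type*} [DecidableEq ι] (s : ι → LaurentSeries O) (T : Finset ι)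
    (hs : ∀ x ∈ T, OrdGE (s x) (-1)) (k : ℕ) :
    OrdGE ((∏ x ∈ T, (X - C (s x))).coeff k) ((k : ℤ) - T.card) := by
  induction T using Finset.induction_on generalizing k with
  | empty =>
    rw [Finset.prod_empty, Polynomial.coeff_one, Finset.card_empty]
    split_ifs with h
    · intro m hm
      rw [HahnSeries.coeff_one]
      split_ifs with h2
      · subst h2
        simp only [Nat.cast_zero, sub_zero] at hm
        omega
      · rfl
    · intro m _
      rfl
  | insert b T hb ih =>
    rw [Finset.prod_insert hb, sub_mul, Polynomial.coeff_sub, Polynomial.coeff_C_mul,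
      Finset.card_insert_of_notMem hb]
    refine OrdGE.sub ?_ ?_
    · cases k with
      | zero =>
        intro m _
        rw [Polynomial.coeff_X_mul_zero]
        rfl
      | succ k =>
        rw [Polynomial.coeff_X_mul]
        refine (ih (fun x hx => hs x (Finset.mem_insert_of_mem hx)) k).mono ?_
        push_cast
        omega
    · refine ((hs b (Finset.mem_insert_self _ _)).mul
        (ih (fun x hx => hs x (Finset.mem_insert_of_mem hx)) k)).mono ?_
      push_cast
      omega

/-- The part of `FO` from the finite conjugates. -/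
noncomputable def HO : (LaurentSeries O)[X] := ∏ y : ZMod p, (X - C (sO p ζ (some y)))

theorem FO_eq : FO p ζ = (X - C (sO (O := O) p ζ none)) * HO p ζ := by
  rw [FO, Fintype.prod_option, HO]

theorem ordGE_HO (k : ℕ) : OrdGE ((HO (O := O) p ζ).coeff k) ((k : ℤ) - p) := by
  have := prod_low (fun y : ZMod p => sO p ζ (some y)) Finset.univ
    (fun y _ => ordGE_some p ζ y) k
  rw [Finset.card_univ, ZMod.card] at this
  exact this

theorem ordGE_FO (k : ℕ) : OrdGE ((FO (O := O) p ζ).coeff k) ((k : ℤ) - p - p * p) := by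
  rw [FO_eq, sub_mul, Polynomial.coeff_sub, Polynomial.coeff_C_mul]
  have hp1 : (1 : ℤ) ≤ p := by exact_mod_cast hpF.out.pos
  have hp2 : (1 : ℤ) ≤ p * p := by nlinarith
  refine OrdGE.sub ?_ ?_
  · cases k with
    | zero =>
      intro m _
      rw [Polynomial.coeff_X_mul_zero]
      rfl
    | succ k =>
      rw [Polynomial.coeff_X_mul]
      refine (ordGE_HO p ζ k).mono ?_
      push_cast
      omega
  · refine ((ordGE_none p ζ).mul (ordGE_HO p ζ k)).mono ?_
    omega

theorem HO_monic [Nontrivial O] : (HO (O := O) p ζ).Monic :=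
  monic_prod_of_monic _ _ fun _ _ => monic_X_sub_C _

theorem HO_natDegree [Nontrivial O] : (HO (O := O) p ζ).natDegree = p := by
  rw [HO, natDegree_prod_of_monic _ _ fun _ _ => monic_X_sub_C _]
  simp [ZMod.card]

theorem FO_monic : (FO (O := O) p ζ).Monic :=
  monic_prod_of_monic _ _ fun _ _ => monic_X_sub_C _

theorem FO_natDegree [Nontrivial O] : (FO (O := O) p ζ).natDegree = p + 1 := by
  rw [FO, natDegree_prod_of_monic _ _ fun _ _ => monic_X_sub_C _]
  simp [ZMod.card]

theorem FO_coeff_p [Nontrivial O] : ((FO (O := O) p ζ).coeff p).coeff (-(p * p : ℤ)) = -1 := by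
  have hp2 : 2 ≤ p := hpF.out.two_le
  have hpp : (1 : ℤ) < p * p := by
    have : (2 : ℤ) ≤ p := by exact_mod_cast hp2
    nlinarith
  rw [FO_eq, sub_mul, Polynomial.coeff_sub, Polynomial.coeff_C_mul]
  have h1 : (HO (O := O) p ζ).coeff p = 1 := by
    have := (HO_monic (O := O) p ζ).coeff_natDegree
    rwa [HO_natDegree] at this
  rw [h1, mul_one, HahnSeries.coeff_sub, coeff_none]
  obtain ⟨m, hm⟩ : ∃ m, p = m + 1 := ⟨p - 1, by omega⟩
  have h2 : ∀ k, k = m + 1 → (X * HO (O := O) p ζ).coeff k = (HO (O := O) p ζ).coeff m := by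
    rintro k rfl
    rw [Polynomial.coeff_X_mul]
  have h3 : (p : ℤ) = m + 1 := by exact_mod_cast hm
  rw [h2 p hm, ordGE_HO p ζ m _ (by omega), zero_sub]

theorem isUnit_prod_low {ι : Type*} [DecidableEq ι] (s : ι → LaurentSeries O) (T : Finset ι)
    (hs : ∀ x ∈ T, OrdGE (s x) (-1)) (hu : ∀ x ∈ T, IsUnit ((s x).coeff (-1))) :
    OrdGE (∏ x ∈ T, s x) (-(T.card : ℤ)) ∧ IsUnit ((∏ x ∈ T, s x).coeff (-(T.card : ℤ))) := by
  induction T using Finset.induction_on with
  | empty =>
    rw [Finset.prod_empty, Finset.card_empty]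
    refine ⟨fun m hm => ?_, by simp⟩
    rw [HahnSeries.coeff_one, if_neg]
    simp only [Nat.cast_zero, neg_zero] at hm
    exact hm.ne
  | insert b T hb ih =>
    obtain ⟨h1, h2⟩ := ih (fun x hx => hs x (Finset.mem_insert_of_mem hx))
      (fun x hx => hu x (Finset.mem_insert_of_mem hx))
    have h3 := hs b (Finset.mem_insert_self _ _)
    rw [Finset.prod_insert hb, Finset.card_insert_of_notMem hb]
    have h4 : (-((T.card + 1 : ℕ) : ℤ)) = -1 + -(T.card : ℤ) := by push_cast; ring
    rw [h4]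
    refine ⟨h3.mul h1, ?_⟩
    rw [h3.coeff_mul_lowest h1]
    exact (hu b (Finset.mem_insert_self _ _)).mul h2

theorem FO_coeff_zero [Nontrivial O] :
    IsUnit (((FO (O := O) p ζ).coeff 0).coeff (-(p * p : ℤ) - p)) := by
  have h1 : (FO (O := O) p ζ).coeff 0 = (-1) ^ (p + 1) * (sO p ζ none *
      ∏ y : ZMod p, sO p ζ (some y)) := by
    rw [Polynomial.coeff_zero_eq_eval_zero, FO, Polynomial.eval_prod]
    simp only [eval_sub, eval_X, eval_C, zero_sub]
    rw [Finset.prod_neg, Fintype.prod_option]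
    simp [ZMod.card]
  obtain ⟨h2, h3⟩ := isUnit_prod_low (fun y : ZMod p => sO p ζ (some y)) Finset.univ
    (fun y _ => ordGE_some p ζ y) (fun y _ => by
      simp only [sO]
      rw [twist_coeff, coeff_jq, mul_one]
      exact Units.isUnit _)
  rw [Finset.card_univ, ZMod.card] at h2 h3
  have h4 := (ordGE_none (O := O) p ζ).coeff_mul_lowest h2
  rw [coeff_none, one_mul] at h4
  rw [h1, sub_eq_add_neg]
  rcases neg_one_pow_eq_or (LaurentSeries O) (p + 1) with h5 | h5
  · rw [h5, one_mul, h4]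
    exact h3
  · rw [h5, neg_mul, one_mul, HahnSeries.coeff_neg, h4]
    exact h3.neg

end Series

end Fermat.Agent.Pts
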