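import Fermat.Agent.Pts.Phi

set_option autoImplicit false
set_option linter.style.haveILetI false

/-!
# The modular polynomial of prime level with integral coefficients (continued)
-/

namespace Fermat.Agent.Pts

open UpperHalfPlane hiding I
open HahnSeries hiding C
open Complex Function ModularCurve Filter ModularForm EisensteinSeries
open scoped Real Manifold Topology MatrixGroups ModularForm
open Fermat.Agent.ModFn Fermat.Agent.Eis Polynomial

variable (p : ℕ) [hpF : Fact p.Prime]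
variable {O : Type*} [CommRing O] (i : O →+* ℂ) (ζ : Oˣ)

theorem eval₂_jq_coeff {P : O[X]} {n : ℕ} (hP : P.natDegree ≤ n) :
    (P.eval₂ HahnSeries.C (jqModC O)).coeff (-(n : ℤ)) = P.coeff n := by
  rw [Polynomial.eval₂_eq_sum_range' _ (Nat.lt_succ_of_le hP)]
  rw [HahnSeries.coeff_sum]
  rw [Finset.sum_eq_single n]
  · rw [HahnSeries.C_mul_eq_smul, HahnSeries.coeff_smul, jqModC_pow_coeff_self, smul_eq_mul,
      mul_one]
  · intro b hb hbn
    rw [Finset.mem_range] at hb
    rw [HahnSeries.C_mul_eq_smul, HahnSeries.coeff_smul, jqModC_pow_coeff_of_lt, smul_zero]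
    omega
  · intro h
    exact absurd (Finset.mem_range.mpr (Nat.lt_succ_self n)) h

theorem exists_coeff_poly (hi : Injective i) (hζ : Units.map i.toMonoidHom ζ = zetaU p) (k n : ℕ)
    (hn : ∀ m : ℤ, m < -(n : ℤ) → ((FO p ζ).coeff k).coeff (p * m) = 0) :
    ∃ P : O[X], P.natDegree ≤ n ∧ (∀ τ, (Fτ p τ).coeff k = P.eval₂ i (jH τ)) ∧
      (FO p ζ).coeff k = P.eval₂ HahnSeries.C (qExpand O p (jqModC O)) ∧
      P.coeff n = ((FO p ζ).coeff k).coeff (-(p * n : ℤ)) := by
  have h1 := exists_coeff_pair p i ζ hζ k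
  have h2 : HasExp (1 * p) (fun τ => (Fτ p τ).coeff k) (coeffMap i ((FO p ζ).coeff k)) := by
    rwa [one_mul]
  obtain ⟨h3, h4⟩ := h2.contract (fun τ => by
    have := Fτ_smul p ModularGroup.T τ
    rw [T_smul_eq_vadd] at this
    simp only [Nat.cast_one]
    rw [this])
  rw [← coeffMap_contract] at h3 h4
  rw [← coeffMap_qExpand] at h4
  have h5 := coeffMap_injective hi h4
  obtain ⟨P, hP1, hP2, hP3⟩ := exists_polynomial_of_invariant i hi n h3
    (fun γ τ => by rw [Fτ_smul]) (fun m hm => by rw [contract_coeff]; exact hn m hm)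
  refine ⟨P, hP1, hP2, ?_, ?_⟩
  · conv_lhs => rw [← h5, hP3, Polynomial.hom_eval₂]
    congr 1
    ext x : 1
    simp
  · rw [← eval₂_jq_coeff hP1, ← hP3, contract_coeff]
    congr 1
    ring

theorem exists_coeff_le (hi : Injective i) (hζ : Units.map i.toMonoidHom ζ = zetaU p) (k : ℕ) :
    ∃ P : O[X], P.natDegree ≤ p + 1 ∧ (1 ≤ k → P.natDegree ≤ p) ∧
      (∀ τ, (Fτ p τ).coeff k = P.eval₂ i (jH τ)) ∧
      (FO p ζ).coeff k = P.eval₂ HahnSeries.C (qExpand O p (jqModC O)) ∧
      (k = 0 → P.coeff (p + 1) = ((FO p ζ).coeff k).coeff (-(p * p : ℤ) - p)) ∧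
      (1 ≤ k → P.coeff p = ((FO p ζ).coeff k).coeff (-(p * p : ℤ))) := by
  have hp1 : (1 : ℤ) ≤ p := by exact_mod_cast hpF.out.pos
  rcases Nat.eq_zero_or_pos k with rfl | hk
  · obtain ⟨P, h1, h2, h3, h4⟩ := exists_coeff_poly p i ζ hi hζ 0 (p + 1) (fun m hm => by
      apply ordGE_FO
      push_cast at hm ⊢
      have : (p : ℤ) * m ≤ p * (-(p + 1) - 1) := mul_le_mul_of_nonneg_left (by omega) (by omega)
      nlinarith)
    refine ⟨P, h1, fun h => absurd h (by omega), h2, h3, fun _ => ?_, fun h => absurd h (by omega)⟩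
    rw [h4]
    congr 1
    push_cast
    ring
  · obtain ⟨P, h1, h2, h3, h4⟩ := exists_coeff_poly p i ζ hi hζ k p (fun m hm => by
      apply ordGE_FO
      have : (p : ℤ) * m ≤ p * (-p - 1) := mul_le_mul_of_nonneg_left (by omega) (by omega)
      have hk' : (1 : ℤ) ≤ k := by exact_mod_cast hk
      nlinarith)
    exact ⟨P, h1.trans (Nat.le_succ p), fun _ => h1, h2, h3, fun h => absurd h (by omega),
      fun _ => h4⟩

/-- **The modular polynomial of prime level.** -/
theorem exists_Phi [Nontrivial O] (hi : Injective i)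
    (hζ : Units.map i.toMonoidHom ζ = zetaU p) :
    ∃ Φ : O[X][X], Φ.Monic ∧ Φ.natDegree = p + 1 ∧
      (∀ k, 1 ≤ k → k ≤ p → (Φ.coeff k).natDegree ≤ p) ∧ (Φ.coeff p).coeff p = -1 ∧
      (Φ.coeff 0).natDegree ≤ p + 1 ∧ IsUnit ((Φ.coeff 0).coeff (p + 1)) ∧
      (∀ τ, Φ.map (eval₂RingHom i (jH τ)) = Fτ p τ) ∧
      Φ.map (eval₂RingHom HahnSeries.C (qExpand O p (jqModC O))) = FO p ζ := by
  choose P h1 h2 h3 h4 h5 h6 using exists_coeff_le p i ζ hi hζ
  obtain ⟨Φ, hΦ⟩ : ∃ Φ : O[X][X], Φ = X ^ (p + 1) + ∑ k ∈ Finset.range (p + 1), C (P k) * X ^ k :=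
    ⟨_, rfl⟩
  have hdeg : (∑ k ∈ Finset.range (p + 1), C (P k) * X ^ k).degree < ((p + 1 : ℕ) : WithBot ℕ) := by
    refine (Polynomial.degree_sum_le _ _).trans_lt ?_
    rw [Finset.sup_lt_iff (WithBot.bot_lt_coe _)]
    intro k hk
    rw [Finset.mem_range] at hk
    refine (Polynomial.degree_C_mul_X_pow_le _ _).trans_lt ?_
    exact_mod_cast hk
  have hmonic : Φ.Monic := by
    rw [hΦ]
    exact Polynomial.monic_X_pow_add (by simpa using hdeg)
  have hnat : Φ.natDegree = p + 1 := by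
    rw [hΦ, Polynomial.natDegree_add_eq_left_of_degree_lt, Polynomial.natDegree_X_pow]
    rw [Polynomial.degree_X_pow]
    exact hdeg
  have hcoeff : ∀ k, k < p + 1 → Φ.coeff k = P k := by
    intro k hk
    rw [hΦ, Polynomial.coeff_add, Polynomial.coeff_X_pow, if_neg (by omega), zero_add,
      Polynomial.finsetSum_coeff, Finset.sum_eq_single k]
    · rw [Polynomial.coeff_C_mul_X_pow, if_pos rfl]
    · intro b _ hb
      rw [Polynomial.coeff_C_mul_X_pow, if_neg (Ne.symm hb)]
    · intro h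
      exact absurd (Finset.mem_range.mpr hk) h
  have hFτ : ∀ τ, (Fτ p τ).Monic ∧ (Fτ p τ).natDegree = p + 1 := by
    intro τ
    refine ⟨monic_prod_of_monic _ _ fun _ _ => monic_X_sub_C _, ?_⟩
    rw [Fτ, natDegree_prod_of_monic _ _ fun _ _ => monic_X_sub_C _]
    simp [ZMod.card]
  refine ⟨Φ, hmonic, hnat, ?_, ?_, ?_, ?_, ?_, ?_⟩
  · intro k hk1 hk2
    rw [hcoeff k (by omega)]
    exact h2 k hk1
  · rw [hcoeff p (by omega), h6 p hpF.out.one_lt.le, FO_coeff_p]
  · rw [hcoeff 0 (by omega)]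
    exact h1 0
  · rw [hcoeff 0 (by omega), h5 0 rfl]
    exact FO_coeff_zero p ζ
  · intro τ
    rw [hΦ, Polynomial.map_add, Polynomial.map_pow, Polynomial.map_X, Polynomial.map_sum]
    conv_rhs => rw [(hFτ τ).1.as_sum, (hFτ τ).2]
    congr 1
    refine Finset.sum_congr rfl fun k _ => ?_
    rw [Polynomial.map_mul, Polynomial.map_C, Polynomial.map_pow, Polynomial.map_X, h3]
    rfl
  · rw [hΦ, Polynomial.map_add, Polynomial.map_pow, Polynomial.map_X, Polynomial.map_sum]
    conv_rhs => rw [(FO_monic (O := O) p ζ).as_sum, FO_natDegree]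
    congr 1
    refine Finset.sum_congr rfl fun k _ => ?_
    rw [Polynomial.map_mul, Polynomial.map_C, Polynomial.map_pow, Polynomial.map_X, h4]
    rfl

/-- Consequences for the formal `q`-expansions. -/
theorem Phi_jq [Nontrivial O] {Φ : O[X][X]}
    (h : Φ.map (eval₂RingHom HahnSeries.C (qExpand O p (jqModC O))) = FO p ζ) :
    (Φ.map (eval₂RingHom HahnSeries.C (jqModC O))).eval (qExpand O p (jqModC O)) = 0 ∧
    (Φ.map (eval₂RingHom HahnSeries.C (qExpand O p (jqModC O)))).eval (jqModC O) = 0 := by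
  constructor
  · apply qExpand_injective (R := O) p
    rw [map_zero, ← Polynomial.eval₂_hom, Polynomial.eval₂_map]
    have h1 : ((qExpand O p).comp (eval₂RingHom HahnSeries.C (jqModC O))) =
        eval₂RingHom HahnSeries.C (qExpand O p (jqModC O)) := by
      apply Polynomial.ringHom_ext
      · intro a
        simp
      · simp
    rw [h1, ← Polynomial.eval_map, h, qExpand_qExpand]
    have h2 : (sO (O := O) p ζ none) = qExpand O (p * p) (jqModC O) := rfl
    rw [← h2, FO, Polynomial.eval_prod]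
    exact Finset.prod_eq_zero (Finset.mem_univ (none : Option (ZMod p))) (by simp)
  · rw [h]
    have h2 : sO (O := O) p ζ (some 0) = jqModC O := by
      simp [sO]
    rw [FO, Polynomial.eval_prod]
    exact Finset.prod_eq_zero (Finset.mem_univ (some 0 : Option (ZMod p))) (by simp [h2])

end Fermat.Agent.Pts
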