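import Fermat.Agent.Wp.Velu

set_option autoImplicit false
set_option linter.style.haveILetI false
set_option linter.unusedSectionVars false

/-!
# Formal properties of Vélu's `j`-invariant
-/

namespace Fermat.Agent.Pts

open WeierstrassCurve WeierstrassCurve.Affine Fermat.Agent.DivPoly Fermat.Agent.Wp

section Sums

variable {G : Type*} [AddCommGroup G] {p : ℕ} {P : G}

theorem nsmul_eq_zero_iff_dvd (hp : p.Prime) (hP : P ≠ 0) (hpP : p • P = 0) (n : ℕ) :
    n • P = 0 ↔ p ∣ n := by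
  haveI : Fact p.Prime := ⟨hp⟩
  have h1 : addOrderOf P = p := addOrderOf_eq_prime hpP hP
  rw [← addOrderOf_dvd_iff_nsmul_eq_zero, h1]

theorem nsmul_mod (hpP : p • P = 0) (n : ℕ) : n • P = (n % p) • P := by
  conv_lhs => rw [← Nat.mod_add_div n p]
  rw [add_nsmul, mul_nsmul, hpP, nsmul_zero, add_zero]

theorem sum_eq_finsum {M : Type*} [AddCommMonoid M] (f : G → M) (hp : p.Prime) (hP : P ≠ 0)
    (hpP : p • P = 0) :
    ∑ k ∈ Finset.Icc 1 (p - 1), f (k • P) =
      ∑ᶠ R ∈ {R : G | R ∈ AddSubgroup.zmultiples P ∧ R ≠ 0}, f R := by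
  have hp1 := hp.one_lt
  have hset : {R : G | R ∈ AddSubgroup.zmultiples P ∧ R ≠ 0} =
      (fun k : ℕ => k • P) '' (Finset.Icc 1 (p - 1) : Finset ℕ) := by
    ext R
    constructor
    · rintro ⟨⟨n, rfl⟩, hn⟩
      simp only at hn ⊢
      refine ⟨(n % p).toNat, ?_, ?_⟩
      · have h1 : (0 : ℤ) ≤ n % p := Int.emod_nonneg _ (by omega)
        have h2 : n % p < p := Int.emod_lt_of_pos _ (by omega)
        have h3 : n % p ≠ 0 := by
          intro h
          apply hn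
          obtain ⟨c, hc⟩ := Int.dvd_of_emod_eq_zero h
          rw [hc, mul_comm, mul_zsmul, natCast_zsmul, hpP, zsmul_zero]
        simp only [Finset.coe_Icc, Set.mem_Icc]
        omega
      · have h1 : (0 : ℤ) ≤ n % p := Int.emod_nonneg _ (by omega)
        simp only
        rw [← natCast_zsmul, Int.toNat_of_nonneg h1]
        conv_rhs => rw [← Int.emod_add_mul_ediv n p]
        rw [add_zsmul, mul_comm, mul_zsmul, natCast_zsmul, hpP, zsmul_zero, add_zero]
    · rintro ⟨k, hk, rfl⟩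
      simp only [Finset.coe_Icc, Set.mem_Icc] at hk
      refine ⟨⟨k, by simp⟩, ?_⟩
      simp only
      rw [ne_eq, nsmul_eq_zero_iff_dvd hp hP hpP]
      intro h
      have := Nat.le_of_dvd (by omega) h
      omega
  rw [hset, finsum_mem_image, finsum_mem_coe_finset]
  intro k hk l hl hkl
  simp only [Finset.coe_Icc, Set.mem_Icc] at hk hl hkl
  have key : ∀ a b : ℕ, a ≤ b → b ≤ p - 1 → 1 ≤ a → a • P = b • P → a = b := by
    intro a b hab hb ha h
    obtain ⟨c, rfl⟩ := Nat.exists_eq_add_of_le hab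
    rw [add_nsmul, left_eq_add, nsmul_eq_zero_iff_dvd hp hP hpP] at h
    rcases Nat.eq_zero_or_pos c with rfl | hc
    · rfl
    · have := Nat.le_of_dvd hc h
      omega
  rcases le_total k l with h | h
  · exact key k l h hl.2 hk.1 hkl
  · exact (key l k h hk.2 hl.1 hkl.symm).symm

theorem zmultiples_zsmul (hp : p.Prime) (hpP : p • P = 0) {n : ℤ} (hn : n • P ≠ 0) :
    AddSubgroup.zmultiples (n • P) = AddSubgroup.zmultiples P := by
  apply le_antisymm
  · rw [AddSubgroup.zmultiples_le]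
    exact ⟨n, rfl⟩
  · rw [AddSubgroup.zmultiples_le]
    have hcop : IsCoprime n (p : ℤ) := by
      rw [Int.isCoprime_iff_gcd_eq_one, Int.gcd_comm, ← Int.isCoprime_iff_gcd_eq_one]
      refine (Prime.coprime_iff_not_dvd (Nat.prime_iff_prime_int.mp hp)).mpr ?_
      rintro ⟨c, hc⟩
      apply hn
      rw [hc, mul_comm, mul_zsmul, natCast_zsmul, hpP, zsmul_zero]
    obtain ⟨a, b, hab⟩ := hcop
    refine ⟨a, ?_⟩
    simp only
    have h1 : (a * n + b * p) • P = P := by rw [hab, one_zsmul]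
    rw [add_zsmul, mul_comm b, mul_comm a, mul_zsmul, mul_zsmul, natCast_zsmul] at h1
    rw [smul_comm a n P]
    rw [smul_comm (p : ℕ) b P, hpP, zsmul_zero, add_zero] at h1
    exact h1

theorem sum_zsmul {M : Type*} [AddCommMonoid M] (f : G → M) (hp : p.Prime) (hP : P ≠ 0)
    (hpP : p • P = 0) {n : ℤ} (hn : n • P ≠ 0) :
    ∑ k ∈ Finset.Icc 1 (p - 1), f (k • (n • P)) = ∑ k ∈ Finset.Icc 1 (p - 1), f (k • P) := by
  have h1 : p • (n • P) = 0 := by rw [smul_comm, hpP, zsmul_zero]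
  rw [sum_eq_finsum f hp hn h1, sum_eq_finsum f hp hP hpP, zmultiples_zsmul hp hpP hn]

theorem sum_half {M : Type*} [AddCommMonoid M] (f : G → M) (hf : ∀ R, f (-R) = f R) {m : ℕ}
    (hpP : (2 * m + 1) • P = 0) :
    ∑ k ∈ Finset.Icc 1 (2 * m), f (k • P) = 2 • ∑ k ∈ Finset.Icc 1 m, f (k • P) := by
  have h1 : Finset.Icc 1 (2 * m) = Finset.Icc 1 m ∪ Finset.Icc (m + 1) (2 * m) := by
    ext k
    simp only [Finset.mem_union, Finset.mem_Icc]
    omega
  have h2 : Disjoint (Finset.Icc 1 m) (Finset.Icc (m + 1) (2 * m)) := by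
    rw [Finset.disjoint_left]
    intro k hk hk'
    simp only [Finset.mem_Icc] at hk hk'
    omega
  rw [h1, Finset.sum_union h2, two_nsmul]
  congr 1
  refine Finset.sum_nbij' (fun k => 2 * m + 1 - k) (fun k => 2 * m + 1 - k) ?_ ?_ ?_ ?_ ?_
  · intro k hk
    simp only [Finset.mem_Icc] at hk ⊢
    omega
  · intro k hk
    simp only [Finset.mem_Icc] at hk ⊢
    omega
  · intro k hk
    simp only [Finset.mem_Icc] at hk
    omega
  · intro k hk
    simp only [Finset.mem_Icc] at hk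
    omega
  · intro k hk
    simp only [Finset.mem_Icc] at hk
    rw [← hf (k • P)]
    congr 1
    have h3 : (2 * m + 1 - k) • P + k • P = 0 := by
      rw [← add_nsmul, Nat.sub_add_cancel (by omega), hpP]
    exact (eq_neg_of_add_eq_zero_left h3).symm

end Sums

section JV

variable {F : Type*} [Field F] [DecidableEq F] {W : Affine F}

theorem jV_zsmul {p : ℕ} (hp : p.Prime) {P : W.Point} (hP : P ≠ 0) (hpP : p • P = 0) {n : ℤ}
    (hn : n • P ≠ 0) : jV W (n • P) p = jV W P p := by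
  have h4 : T4 W (n • P) p = T4 W P p :=
    sum_zsmul (fun R : W.Point => 6 * xc R ^ 2 + W.b₂ * xc R + W.b₄) hp hP hpP hn
  have h6 : T6 W (n • P) p = T6 W P p :=
    sum_zsmul (fun R : W.Point => 120 * xc R ^ 3 + 30 * W.b₂ * xc R ^ 2 +
      (W.b₂ ^ 2 + 36 * W.b₄) * xc R + W.b₂ * W.b₄ + 12 * W.b₆) hp hP hpP hn
  rw [jV, jV, C4, C4, C6, C6, h4, h6]

theorem T4_half {m : ℕ} {P : W.Point} (hpP : (2 * m + 1) • P = 0) :
    T4 W P (2 * m + 1) =
      2 * ∑ k ∈ Finset.Icc 1 m, (6 * xc (k • P) ^ 2 + W.b₂ * xc (k • P) + W.b₄) := by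
  have := sum_half (fun R : W.Point => 6 * xc R ^ 2 + W.b₂ * xc R + W.b₄)
    (fun R => by simp only [xc_neg]) hpP
  rw [T4, Nat.add_sub_cancel, this, nsmul_eq_mul]
  norm_num

theorem T6_half {m : ℕ} {P : W.Point} (hpP : (2 * m + 1) • P = 0) :
    T6 W P (2 * m + 1) =
      2 * ∑ k ∈ Finset.Icc 1 m, (120 * xc (k • P) ^ 3 + 30 * W.b₂ * xc (k • P) ^ 2 +
      (W.b₂ ^ 2 + 36 * W.b₄) * xc (k • P) + W.b₂ * W.b₄ + 12 * W.b₆) := by
  have := sum_half (fun R : W.Point => 120 * xc R ^ 3 + 30 * W.b₂ * xc R ^ 2 +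
      (W.b₂ ^ 2 + 36 * W.b₄) * xc R + W.b₂ * W.b₄ + 12 * W.b₆)
    (fun R => by simp only [xc_neg]) hpP
  rw [T6, Nat.add_sub_cancel, this, nsmul_eq_mul]
  norm_num

end JV

end Fermat.Agent.Pts
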