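import Fermat.Agent.Pts.Exist
import Fermat.Agent.Pts.Sums
import Fermat.Agent.DivPoly.Card

set_option autoImplicit false
set_option linter.style.haveILetI false
set_option linter.unusedSectionVars false

/-!
# The roots of the modular polynomial are the `j`-invariants of the quotients
-/

namespace Fermat.Agent.Pts

open WeierstrassCurve WeierstrassCurve.Affine Fermat.Agent.DivPoly Fermat.Agent.Wp
open Fermat.Agent.ModFn
open UpperHalfPlane hiding I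
open scoped Polynomial

section BC

theorem bc_b₂ (L : Type*) [Field L] [Algebra ℚ L] (E : Affine ℚ) :
    (E⁄L).b₂ = algebraMap ℚ L E.b₂ := WeierstrassCurve.map_b₂ E (algebraMap ℚ L)

theorem bc_b₄ (L : Type*) [Field L] [Algebra ℚ L] (E : Affine ℚ) :
    (E⁄L).b₄ = algebraMap ℚ L E.b₄ := WeierstrassCurve.map_b₄ E (algebraMap ℚ L)

theorem bc_b₆ (L : Type*) [Field L] [Algebra ℚ L] (E : Affine ℚ) :
    (E⁄L).b₆ = algebraMap ℚ L E.b₆ := WeierstrassCurve.map_b₆ E (algebraMap ℚ L)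

theorem bc_c₄ (L : Type*) [Field L] [Algebra ℚ L] (E : Affine ℚ) :
    (E⁄L).c₄ = algebraMap ℚ L E.c₄ := WeierstrassCurve.map_c₄ E (algebraMap ℚ L)

theorem bc_c₆ (L : Type*) [Field L] [Algebra ℚ L] (E : Affine ℚ) :
    (E⁄L).c₆ = algebraMap ℚ L E.c₆ := WeierstrassCurve.map_c₆ E (algebraMap ℚ L)

theorem bc_Δ (L : Type*) [Field L] [Algebra ℚ L] (E : Affine ℚ) :
    (E⁄L).Δ = algebraMap ℚ L E.Δ := WeierstrassCurve.map_Δ E (algebraMap ℚ L)

end BC

section Map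

variable {K L : Type*} [Field K] [Field L] [DecidableEq K] [DecidableEq L] [Algebra ℚ K]
  [Algebra ℚ L] (f : K →ₐ[ℚ] L) (E : Affine ℚ)

theorem xc_map (P : (E⁄K).Point) : xc (Point.map f P : (E⁄L).Point) = f (xc P) := by
  cases P with
  | zero => exact (map_zero f).symm
  | some x y h => rfl

theorem b₂_map : (E⁄L).b₂ = f (E⁄K).b₂ := by
  rw [bc_b₂, bc_b₂, f.commutes]

theorem b₄_map : (E⁄L).b₄ = f (E⁄K).b₄ := by
  rw [bc_b₄, bc_b₄, f.commutes]

theorem b₆_map : (E⁄L).b₆ = f (E⁄K).b₆ := by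
  rw [bc_b₆, bc_b₆, f.commutes]

theorem c₄_map : (E⁄L).c₄ = f (E⁄K).c₄ := by
  rw [bc_c₄, bc_c₄, f.commutes]

theorem c₆_map : (E⁄L).c₆ = f (E⁄K).c₆ := by
  rw [bc_c₆, bc_c₆, f.commutes]

theorem Δ_map : (E⁄L).Δ = f (E⁄K).Δ := by
  rw [bc_Δ, bc_Δ, f.commutes]

theorem jV_map (P : (E⁄K).Point) (p : ℕ) :
    jV (E⁄L) (Point.map f P) p = f (jV (E⁄K) P p) := by
  have hx : ∀ k : ℕ, xc (k • (Point.map f P : (E⁄L).Point)) = f (xc (k • P)) := by
    intro k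
    rw [← xc_map, map_nsmul]
  simp only [jV, C4, C6, T4, T6, hx, b₂_map f, b₄_map f, b₆_map f, c₄_map f, c₆_map f, map_add,
    map_sub, map_mul, map_div₀, map_pow, map_sum, map_ofNat]

/-- Torsion points descend. -/
theorem exists_map_eq [CharZero K] [CharZero L] [IsAlgClosed K] [IsAlgClosed L]
    (hΔ : E.Δ ≠ 0) {n : ℕ} (hn : n ≠ 0) {P : (E⁄L).Point} (hP : n • P = 0) :
    ∃ Q : (E⁄K).Point, n • Q = 0 ∧ Point.map f Q = P := by
  have hΔK : (E⁄K).Δ ≠ 0 := by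
    rw [bc_Δ]
    exact (map_ne_zero _).mpr hΔ
  have hΔL : (E⁄L).Δ ≠ 0 := by
    rw [bc_Δ]
    exact (map_ne_zero _).mpr hΔ
  have h1 := natCard_torsion hΔK n hn
  have h2 := natCard_torsion hΔL n hn
  haveI : Finite {Q : (E⁄K).Point // n • Q = 0} :=
    Nat.finite_of_card_ne_zero (by rw [h1]; positivity)
  haveI : Finite {Q : (E⁄L).Point // n • Q = 0} :=
    Nat.finite_of_card_ne_zero (by rw [h2]; positivity)
  obtain ⟨g, hg⟩ : ∃ g : {Q : (E⁄K).Point // n • Q = 0} → {Q : (E⁄L).Point // n • Q = 0},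
      ∀ Q, (g Q : (E⁄L).Point) = Point.map f Q.1 :=
    ⟨fun Q => ⟨Point.map f Q.1, by rw [← map_nsmul, Q.2, map_zero]⟩, fun Q => rfl⟩
  have hinj : Function.Injective g := by
    intro Q R hQR
    apply Subtype.ext
    apply Point.map_injective f
    rw [← hg, ← hg, hQR]
  have hbij : Function.Bijective g := by
    rw [Nat.bijective_iff_injective_and_card]
    exact ⟨hinj, by rw [h1, h2]⟩
  obtain ⟨Q, hQ⟩ := hbij.surjective ⟨P, hP⟩
  refine ⟨Q.1, Q.2, ?_⟩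
  rw [← hg, hQ]

end Map

section Roots

variable {K : Type*} [Field K] [DecidableEq K] [IsAlgClosed K] {p : ℕ} [hpF : Fact p.Prime]
  [Algebra ℚ K] [Algebra K ℂ] {Φ : K[X][X]} (hΦ : IsPhi K p Φ)
  (E : Affine ℚ)

/-- The embedding. -/
noncomputable def embC (K : Type*) [Field K] [Algebra ℚ K] [Algebra K ℂ] : K →ₐ[ℚ] ℂ :=
  (algebraMap K ℂ).toRatAlgHom

theorem embC_apply (a : K) : embC K a = algebraMap K ℂ a := rfl

include hΦ in
/-- **Roots of the modular polynomial.** -/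
theorem roots_iff (hΔ : E.Δ ≠ 0) (hp3 : 3 ≤ p) (b : K) :
    ev ((E⁄K).c₄ ^ 3 / (E⁄K).Δ) b Φ = 0 ↔
      ∃ P : (E⁄K).Point, P ≠ 0 ∧ p • P = 0 ∧ b = jV (E⁄K) P p := by
  haveI : CharZero K := (algebraMap K ℂ).charZero
  have hΔC : (E⁄ℂ).Δ ≠ 0 := by
    rw [bc_Δ]
    exact (map_ne_zero _).mpr hΔ
  obtain ⟨τ, hτ, h1, h2, h3⟩ := exists_tau hΔC hpF.out hp3
  have hja : algebraMap K ℂ ((E⁄K).c₄ ^ 3 / (E⁄K).Δ) = jH τ := by
    rw [hτ, c₄_map (embC K), Δ_map (embC K), ← map_pow, ← map_div₀, embC_apply]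
  have hF := hΦ.map_eq τ _ hja
  have hroot : ev ((E⁄K).c₄ ^ 3 / (E⁄K).Δ) b Φ = 0 ↔
      ∃ x : Option (ZMod p), algebraMap K ℂ b = fc p x τ := by
    rw [ev_eq_eval hΦ, ← map_eq_zero (algebraMap K ℂ), ← Polynomial.eval_map_apply, hF, Fτ,
      Polynomial.eval_prod, Finset.prod_eq_zero_iff]
    constructor
    · rintro ⟨x, -, hx⟩
      refine ⟨x, ?_⟩
      rw [Polynomial.eval_sub, Polynomial.eval_X, Polynomial.eval_C, sub_eq_zero] at hx
      exact hx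
    · rintro ⟨x, hx⟩
      refine ⟨x, Finset.mem_univ _, ?_⟩
      rw [Polynomial.eval_sub, Polynomial.eval_X, Polynomial.eval_C, sub_eq_zero]
      exact hx
  rw [hroot]
  constructor
  · rintro ⟨x, hx⟩
    obtain ⟨P', hP'0, hpP', hP'⟩ : ∃ P' : (E⁄ℂ).Point, P' ≠ 0 ∧ p • P' = 0 ∧
        jV (E⁄ℂ) P' p = fc p x τ := by
      cases x with
      | none =>
        obtain ⟨P', hP'0, hpP', hP'⟩ := h2
        exact ⟨P', hP'0, hpP', by rw [hP', fc_none]; rfl⟩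
      | some y =>
        obtain ⟨P', hP'0, hpP', hP'⟩ := h3 (y.val : ℤ)
        exact ⟨P', hP'0, hpP', by rw [hP', fc_some]⟩
    obtain ⟨P, hpP, hPP'⟩ := exists_map_eq (embC K) E hΔ hpF.out.ne_zero hpP'
    refine ⟨P, ?_, hpP, ?_⟩
    · rintro rfl
      apply hP'0
      rw [← hPP', map_zero]
    · apply (algebraMap K ℂ).injective
      rw [hx, ← hP', ← hPP', jV_map, embC_apply]
  · rintro ⟨P, hP0, hpP, rfl⟩
    have h4 : (Point.map (embC K) P : (E⁄ℂ).Point) ≠ 0 := by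
      intro h
      apply hP0
      apply Point.map_injective (embC K)
      rw [h, map_zero]
    have h5 : p • (Point.map (embC K) P : (E⁄ℂ).Point) = 0 := by
      rw [← map_nsmul, hpP, map_zero]
    rcases (h1 _ h4 h5).2 with h | ⟨i, hi, h⟩
    · refine ⟨none, ?_⟩
      rw [← embC_apply, ← jV_map, h, fc_none]
      rfl
    · refine ⟨some (i : ZMod p), ?_⟩
      rw [← embC_apply, ← jV_map, h, fc_some, ZMod.val_natCast, Nat.mod_eq_of_lt hi]

end Roots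

end Fermat.Agent.Pts
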